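import Fermat.Agent.X0Analytic.Embedding
import Fermat.Agent.Gamma0Count.Index
import Mathlib.FieldTheory.PrimitiveElement
import Mathlib.FieldTheory.Fixed
import Mathlib.LinearAlgebra.Basis.VectorSpace
import Mathlib.FieldTheory.Perfect

/-!
The degree of the modular function field over `L(j)` is `dedekindPsi N`.
-/

set_option autoImplicit false

noncomputable section

open UpperHalfPlane CongruenceSubgroup
open scoped Manifold MatrixGroups

namespace Fermat.Agent.X0Analytic

open Gamma0Count (CosetSpace)
open Polynomial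

universe u

variable {L : Type u} [Field L] [Algebra ℚ L] {N : ℕ} [NeZero N] (φ : L →+* ℂ)

-- shortcuts: the generic searches on nested intermediate fields are slow
local instance : Algebra L ↥(FLevel L N) := inferInstance
local instance : Module L ↥(FLevel L N) := inferInstance
local instance : SMul L ↥(FLevel L N) := inferInstance
local instance : IsScalarTower L L ↥(FLevel L N) := inferInstance
local instance : AddHomClass (↥(algGen L N) →+* ↥(modFun N)) ↥(algGen L N) ↥(modFun N) :=
  inferInstance
local instance : AddHomClass (↥(algGen L N) →ₐ[L] ↥(FLevel L N)) ↥(algGen L N) ↥(FLevel L N) :=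
  inferInstance

/-- Every modular function is a root of a monic polynomial of degree `ψ(N)` over `ℂ[j]`. -/
theorem exists_levelOne_relation (f : ↥(modFun N)) :
    ∃ P : ℕ → ℂ[X],
      (∑ i ∈ Finset.range (Fintype.card (CosetSpace N)), aeval (jMod N) (P i) * f ^ i) +
        f ^ Fintype.card (CosetSpace N) = 0 := by
  classical
  set n := Fintype.card (CosetSpace N) with hn
  set Q : (↥(perMero N))[X] := ∏ x : CosetSpace N, (Polynomial.X - Polynomial.C (conj x f)) with hQ
  let ev : ℍ → (↥(perMero N) →+* ℂ) := fun τ =>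
    (Pi.evalRingHom (fun _ : ℍ => ℂ) τ).comp (perMero N).val.toRingHom
  have hQτ : ∀ τ, Q.map (ev τ) =
      ∏ x : CosetSpace N, (Polynomial.X - Polynomial.C ((conj x f : ℍ → ℂ) τ)) := by
    intro τ
    simp only [hQ, Polynomial.map_prod, Polynomial.map_sub, Polynomial.map_X, Polynomial.map_C]
    rfl
  have hinv : ∀ (δ : SL(2, ℤ)) (τ : ℍ), Q.map (ev (δ • τ)) = Q.map (ev τ) := by
    intro δ τ
    rw [hQτ, hQτ]
    refine Fintype.prod_equiv (MulAction.toPerm δ⁻¹) _ _ fun x => ?_
    rw [MulAction.toPerm_apply, conj_smul_apply, inv_inv]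
  have hcinv : ∀ (i : ℕ) (δ : SL(2, ℤ)) (τ : ℍ),
      ((Q.coeff i : ↥(perMero N)) : ℍ → ℂ) (δ • τ) = ((Q.coeff i : ↥(perMero N)) : ℍ → ℂ) τ := by
    intro i δ τ
    have h := congrArg (fun p : ℂ[X] => p.coeff i) (hinv δ τ)
    simp only [Polynomial.coeff_map] at h
    exact h
  have hc1 : ∀ i, ((Q.coeff i : ↥(perMero N)) : ℍ → ℂ) ∈ perMero 1 := fun i =>
    mem_perMero_one (Q.coeff i).2 fun τ => by
      rw [Nat.cast_one, ← UpperHalfPlane.modular_T_smul]
      exact hcinv i _ τ
  choose P hP using fun i => exists_polynomial_of_levelOne (hc1 i) (hcinv i)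
  refine ⟨P, Subtype.ext (funext fun τ => ?_)⟩
  let ev' : ↥(modFun N) →+* ℂ :=
    (Pi.evalRingHom (fun _ : ℍ => ℂ) τ).comp (modFun N).val.toRingHom
  change ev' ((∑ i ∈ Finset.range n, aeval (jMod N) (P i) * f ^ i) + f ^ n) = ev' 0
  have hj : ∀ p : ℂ[X], ev' (aeval (jMod N) p) = p.eval (jFun τ) := by
    intro p
    induction p using Polynomial.induction_on' with
    | add p q hp hq => rw [map_add, map_add, hp, hq, eval_add]
    | monomial k c => rw [aeval_monomial, map_mul, map_pow, eval_monomial]; rfl
  have h0 : (Q.map (ev τ)).eval ((f : ℍ → ℂ) τ) = 0 := by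
    rw [hQτ, Polynomial.eval_prod]
    refine Finset.prod_eq_zero (Finset.mem_univ ((1 : SL(2, ℤ)) : CosetSpace N)) ?_
    rw [eval_sub, eval_X, eval_C, conj_mk_apply, inv_one, one_smul, sub_self]
  have hdeg : Q.natDegree = n := by
    rw [hQ, Polynomial.natDegree_prod_of_monic _ _ fun x _ => monic_X_sub_C _]
    simp [hn]
  have hmon : Q.Monic := monic_prod_of_monic _ _ fun x _ => monic_X_sub_C _
  rw [eval_map, eval₂_eq_sum_range, hdeg, Finset.sum_range_succ,
    show Q.coeff n = 1 from hdeg ▸ hmon.coeff_natDegree, map_one, one_mul] at h0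
  rw [map_add, map_sum, map_pow, map_zero, ← h0]
  congr 1
  refine Finset.sum_congr rfl fun i _ => ?_
  rw [map_mul, map_pow, hj, ← hP i τ]
  rfl

theorem ser_aeval (p : ℂ[X]) :
    ser N (aeval (jMod N) p) = ∑ k ∈ p.support, HahnSeries.single 0 (p.coeff k) * jqC ^ k := by
  rw [aeval_eq_sum_range' (n := p.natDegree + 1) (Nat.lt_succ_self _), map_sum]
  symm
  refine Finset.sum_subset_zero_on_sdiff Polynomial.supp_subset_range_natDegree_succ ?_ ?_
  · intro k hk
    simp only [Finset.mem_sdiff, Polynomial.mem_support_iff, not_not] at hk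
    rw [hk.2, zero_smul, map_zero]
  · intro k _
    rw [Algebra.smul_def, map_mul, map_pow, ser_jMod, ser_algebraMap]

theorem coeffMap_jAlg : ModularCurve.coeffMap φ (jAlg L N : LaurentSeries L) = jqC := by
  rw [← ser_toModFun φ, toModFun_jAlg, ser_jMod]

/-- Descent of the relation to `L`: `a` is a root of a monic degree-`ψ` polynomial over `L[j]`. -/
theorem exists_relation_algGen (a : ↥(algGen L N)) (φ : L →+* ℂ) :
    ∃ p : ℕ → L[X],
      (∑ i ∈ Finset.range (Fintype.card (CosetSpace N)), aeval (jAlg L N) (p i) * a ^ i) +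
        a ^ Fintype.card (CosetSpace N) = 0 := by
  obtain ⟨P, hP⟩ := exists_levelOne_relation (toModFun φ a)
  letI : Algebra L ℂ := φ.toAlgebra
  obtain ⟨ℓ, hℓ⟩ := LinearMap.exists_leftInverse_of_injective (Algebra.linearMap L ℂ)
    (LinearMap.ker_eq_bot.mpr φ.injective)
  have hℓmul : ∀ (y : L) (c : ℂ), ℓ (φ y * c) = y * ℓ c := fun y c => by
    rw [show φ y * c = y • c from (Algebra.smul_def y c).symm, map_smul, smul_eq_mul]
  have hℓ1 : ∀ y : L, ℓ (φ y) = y := fun y => LinearMap.congr_fun hℓ y
  refine ⟨fun i => ∑ k ∈ (P i).support, C (ℓ ((P i).coeff k)) * Polynomial.X ^ k, ?_⟩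
  have h := congrArg (ser N) hP
  rw [map_add, map_sum, map_zero, map_pow, ser_toModFun] at h
  simp only [map_mul, map_pow, ser_aeval, ser_toModFun] at h
  simp only [← coeffMap_jAlg (N := N) φ, Finset.sum_mul, mul_assoc] at h
  simp only [← map_pow, ← map_mul] at h
  apply Subtype.ext
  push_cast
  simp only [map_sum, map_mul, aeval_C, map_pow, aeval_X, Finset.sum_mul, mul_assoc,
    AddSubmonoidClass.coe_finsetSum, MulMemClass.coe_mul, SubmonoidClass.coe_pow,
    Subalgebra.coe_algebraMap, ModularCurve.algebraMap_laurentSeries_eq_single]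
  ext n
  have hn := congrArg ℓ (congrArg (fun z : LaurentSeries ℂ => z.coeff n) h)
  simp only [HahnSeries.coeff_add, HahnSeries.coeff_sum, HahnSeries.coeff_single_mul, sub_zero,
    ModularCurve.coeffMap_coeff, map_add, map_sum, HahnSeries.coeff_zero, map_zero, hℓ1] at hn
  simp only [HahnSeries.coeff_add, HahnSeries.coeff_sum, HahnSeries.coeff_single_mul, sub_zero,
    HahnSeries.coeff_zero]
  refine Eq.trans ?_ hn
  congr 1
  refine Finset.sum_congr rfl fun i _ => Finset.sum_congr rfl fun k _ => ?_
  rw [mul_comm ((P i).coeff k), hℓmul, mul_comm]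

variable (L N) in
/-- The subfield `L(j)` of the function field. -/
abbrev jField : IntermediateField L ↥(FLevel L N) := IntermediateField.adjoin L {jEl L N}

local instance : Algebra L ↥(jField L N) := inferInstance
local instance : Module ↥(jField L N) (↥(jField L N))[X] := inferInstance
local instance : Algebra ↥(jField L N) ↥(FLevel L N) := inferInstance
local instance : AddHomClass ((↥(jField L N))[X] →ₐ[↥(jField L N)] ↥(FLevel L N))
    (↥(jField L N))[X] ↥(FLevel L N) := inferInstance

theorem aeval_jEl (p : L[X]) : aeval (jEl L N) p = algToField L N (aeval (jAlg L N) p) :=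
  aeval_algHom_apply _ _ _

theorem coeffMap_aeval_jAlg (p : L[X]) :
    ModularCurve.coeffMap φ (aeval (jAlg L N) p : ↥(algGen L N)) =
      ser N (aeval (jMod N) (p.map φ)) := by
  rw [← ser_toModFun φ]
  congr 1
  induction p using Polynomial.induction_on' with
  | add p q hp hq => simp only [map_add, Polynomial.map_add, hp, hq]
  | monomial k c =>
    rw [aeval_monomial, Polynomial.map_monomial, aeval_monomial, map_mul, map_pow,
      toModFun_algebraMap, toModFun_jAlg]

/-- The leading coefficient of a polynomial in `j` is visible in the series. -/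
theorem coeff_ser_aeval_natDegree (p : ℂ[X]) :
    (ser N (aeval (jMod N) p)).coeff (-(p.natDegree : ℤ)) = p.leadingCoeff := by
  rcases eq_or_ne p 0 with rfl | hp
  · simp
  rw [ser_aeval, HahnSeries.coeff_sum, Finset.sum_eq_single p.natDegree]
  · rw [HahnSeries.coeff_single_mul, sub_zero, jqC, ← map_pow, ModularCurve.coeffMap_coeff,
      ModularCurve.coeff_jq_pow_self, map_one, mul_one]
    rfl
  · intro k hk hne
    have hlt : k < p.natDegree :=
      lt_of_le_of_ne (le_natDegree_of_ne_zero (mem_support_iff.mp hk)) hne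
    rw [HahnSeries.coeff_single_mul, sub_zero, jqC, ← map_pow, ModularCurve.coeffMap_coeff,
      ModularCurve.coeff_jq_pow_of_lt (by omega), map_zero, mul_zero]
  · intro h
    exact absurd (natDegree_mem_support_of_nonzero hp) h

theorem transcendental_jEl (φ : L →+* ℂ) : Transcendental L (jEl L N) := by
  rw [transcendental_iff]
  intro p hp
  by_contra hp0
  rw [aeval_jEl, map_eq_zero_iff _ (algToField_injective L N)] at hp
  have h := coeffMap_aeval_jAlg φ (N := N) p
  rw [hp, ZeroMemClass.coe_zero, map_zero] at h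
  have h2 := coeff_ser_aeval_natDegree (N := N) (p.map φ)
  rw [← h, HahnSeries.coeff_zero] at h2
  exact hp0 ((Polynomial.map_eq_zero_iff φ.injective).mp (leadingCoeff_eq_zero.mp h2.symm))

variable (N) in
theorem jEl_mem_jField : jEl L N ∈ jField L N := IntermediateField.mem_adjoin_simple_self L _

theorem exists_poly_relation (a : ↥(algGen L N)) (φ : L →+* ℂ) :
    ∃ R : (↥(jField L N))[X], R.Monic ∧ R.natDegree = Fintype.card (CosetSpace N) ∧
      aeval (algToField L N a) R = 0 := by
  obtain ⟨p, hp⟩ := exists_relation_algGen a φ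
  set n := Fintype.card (CosetSpace N)
  let g : ↥(jField L N) := ⟨jEl L N, jEl_mem_jField N⟩
  set S : (↥(jField L N))[X] := ∑ i ∈ Finset.range n, C (aeval g (p i)) * Polynomial.X ^ i with hS
  have hdeg : S.degree < (n : WithBot ℕ) := by
    refine (degree_sum_le _ _).trans_lt
      ((Finset.sup_lt_iff (WithBot.bot_lt_coe n)).mpr fun i hi => ?_)
    exact lt_of_le_of_lt (degree_C_mul_X_pow_le i _)
      (WithBot.coe_lt_coe.mpr (Finset.mem_range.mp hi))
  refine ⟨Polynomial.X ^ n + S, monic_X_pow_add hdeg, ?_, ?_⟩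
  · apply natDegree_eq_of_degree_eq_some
    rw [degree_add_eq_left_of_degree_lt (by rwa [degree_X_pow]), degree_X_pow]
  · rw [add_comm, map_add, hS, map_sum, aeval_X_pow]
    simp only [map_mul, aeval_C, aeval_X_pow]
    have hg : ∀ q : L[X],
        algebraMap ↥(jField L N) ↥(FLevel L N) (aeval g q) = aeval (jEl L N) q :=
      fun q => (aeval_algHom_apply (jField L N).val g q).symm
    simp only [hg, aeval_jEl, ← map_pow, ← map_mul, ← map_sum, ← map_add, hp, map_zero]

theorem isIntegral_algToField (φ : L →+* ℂ) (a : ↥(algGen L N)) :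
    IsIntegral ↥(jField L N) (algToField L N a) := by
  obtain ⟨R, hR, -, hR0⟩ := exists_poly_relation a φ
  exact ⟨R, hR, hR0⟩

theorem natDegree_minpoly_algToField_le (φ : L →+* ℂ) (a : ↥(algGen L N)) :
    (minpoly ↥(jField L N) (algToField L N a)).natDegree ≤ Fintype.card (CosetSpace N) := by
  obtain ⟨R, hR, hd, hR0⟩ := exists_poly_relation a φ
  exact hd ▸ Polynomial.natDegree_le_of_dvd (minpoly.dvd _ _ hR0) hR.ne_zero

variable (L N) in
/-- The generators inside the function field. -/
def genField : Set ↥(FLevel L N) :=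
  {x | (x : LaurentSeries L) ∈ genSet L N}

theorem finite_genField : (genField L N).Finite := by
  have h : genSet L N ⊆ Set.range fun d : {d : ℕ // d ∈ N.divisors} =>
      (haveI : NeZero d.1 := ⟨(Nat.pos_of_mem_divisors d.2).ne'⟩; jL L d.1) := by
    rintro x ⟨d, hd0, hd, rfl⟩
    exact ⟨⟨d, Nat.mem_divisors.mpr ⟨hd, NeZero.ne N⟩⟩, rfl⟩
  exact ((Set.finite_range _).subset h).preimage Subtype.val_injective.injOn

theorem algToField_mem_adjoin {K : Type u} [Field K] [Algebra K ↥(FLevel L N)] [Algebra L K]
    [IsScalarTower L K ↥(FLevel L N)] (a : ↥(algGen L N)) :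
    algToField L N a ∈ Algebra.adjoin K (genField L N) := by
  obtain ⟨a, ha⟩ := a
  induction ha using Algebra.adjoin_induction with
  | mem y hy => exact Algebra.subset_adjoin (show (y : LaurentSeries L) ∈ genSet L N from hy)
  | algebraMap c =>
    rw [show (⟨algebraMap L (LaurentSeries L) c, Subalgebra.algebraMap_mem _ c⟩ : ↥(algGen L N)) =
        algebraMap L _ c from rfl, AlgHom.commutes, IsScalarTower.algebraMap_apply L K]
    exact Subalgebra.algebraMap_mem _ _
  | add y z hy hz hy' hz' =>
    rw [show (⟨y + z, Subalgebra.add_mem _ hy hz⟩ : ↥(algGen L N)) = ⟨y, hy⟩ + ⟨z, hz⟩ from rfl,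
      map_add]
    exact add_mem hy' hz'
  | mul y z hy hz hy' hz' =>
    rw [show (⟨y * z, Subalgebra.mul_mem _ hy hz⟩ : ↥(algGen L N)) = ⟨y, hy⟩ * ⟨z, hz⟩ from rfl,
      map_mul]
    exact mul_mem hy' hz'

theorem isIntegral_genField (φ : L →+* ℂ) {x : ↥(FLevel L N)} (hx : x ∈ genField L N) :
    IsIntegral ↥(jField L N) x := by
  have : x = algToField L N ⟨(x : LaurentSeries L), Algebra.subset_adjoin hx⟩ := rfl
  rw [this]
  exact isIntegral_algToField φ _

theorem adjoin_genField_eq_top :
    IntermediateField.adjoin ↥(jField L N) (genField L N) = ⊤ := by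
  refine top_le_iff.mp fun x _ => ?_
  obtain ⟨a, b, hb, hab⟩ := exists_div L N x
  have h : ∀ c, algToField L N c ∈ IntermediateField.adjoin ↥(jField L N) (genField L N) :=
    fun c => IntermediateField.algebra_adjoin_le_adjoin _ _ (algToField_mem_adjoin c)
  have hb' : algToField L N b ≠ 0 := (map_ne_zero_iff _ (algToField_injective L N)).mpr hb
  rw [show x = algToField L N a * (algToField L N b)⁻¹ by rw [← hab, mul_inv_cancel_right₀ hb']]
  exact mul_mem (h a) (inv_mem (h b))

theorem finiteDimensional_jField (φ : L →+* ℂ) :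
    FiniteDimensional ↥(jField L N) ↥(FLevel L N) := by
  have : Finite ↥(genField L N) := finite_genField.to_subtype
  have h := IntermediateField.finiteDimensional_adjoin (K := ↥(jField L N)) (S := genField L N)
    fun x hx => isIntegral_genField φ hx
  rw [adjoin_genField_eq_top] at h
  exact Module.Finite.equiv (IntermediateField.topEquiv (F := ↥(jField L N))
    (E := ↥(FLevel L N))).toLinearEquiv

/-- Every element is `a / p(j)` with `a` in the generated algebra. -/
theorem exists_smul_mem (φ : L →+* ℂ) (x : ↥(FLevel L N)) :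
    ∃ (p : L[X]) (a : ↥(algGen L N)), p ≠ 0 ∧ aeval (jEl L N) p * x = algToField L N a := by
  have hx : x ∈ Algebra.adjoin ↥(jField L N) (genField L N) := by
    rw [← IntermediateField.adjoin_toSubalgebra_of_isAlgebraic
      fun y hy => (isIntegral_genField (N := N) φ hy).isAlgebraic, adjoin_genField_eq_top]
    exact trivial
  induction hx using Algebra.adjoin_induction with
  | mem y hy =>
    exact ⟨1, ⟨(y : LaurentSeries L), Algebra.subset_adjoin hy⟩, one_ne_zero, by
      rw [map_one, one_mul]; rfl⟩
  | algebraMap c =>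
    obtain ⟨r, s, hrs⟩ := (IntermediateField.mem_adjoin_simple_iff (F := L) _).mp c.2
    rcases eq_or_ne (aeval (jEl L N) s) 0 with hs | hs
    · refine ⟨1, 0, one_ne_zero, ?_⟩
      rw [map_one, one_mul, map_zero]
      show (c : ↥(FLevel L N)) = 0
      rw [hrs, hs, div_zero]
    · refine ⟨s, aeval (jAlg L N) r, fun h => hs (by rw [h, map_zero]), ?_⟩
      show aeval (jEl L N) s * (c : ↥(FLevel L N)) = _
      rw [hrs, mul_div_cancel₀ _ hs, aeval_jEl]
  | add y z _ _ hy hz =>
    obtain ⟨p, a, hp, ha⟩ := hy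
    obtain ⟨q, b, hq, hb⟩ := hz
    refine ⟨p * q, aeval (jAlg L N) q * a + aeval (jAlg L N) p * b, mul_ne_zero hp hq, ?_⟩
    rw [map_add, map_mul, map_mul, map_mul, ← aeval_jEl, ← aeval_jEl, ← ha, ← hb]
    ring
  | mul y z _ _ hy hz =>
    obtain ⟨p, a, hp, ha⟩ := hy
    obtain ⟨q, b, hq, hb⟩ := hz
    refine ⟨p * q, a * b, mul_ne_zero hp hq, ?_⟩
    rw [map_mul, map_mul, ← ha, ← hb]
    ring

theorem eq_of_eq_on_jField {K : Type*} [Field K] {f g : ↥(FLevel L N) →+* K}
    (hc : ∀ c : L, f (algebraMap L _ c) = g (algebraMap L _ c))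
    (hj : f (jEl L N) = g (jEl L N)) (k : ↥(jField L N)) : f k = g k := by
  obtain ⟨r, s, hrs⟩ := (IntermediateField.mem_adjoin_simple_iff (F := L) _).mp k.2
  have h : ∀ q : L[X], f (aeval (jEl L N) q) = g (aeval (jEl L N) q) := by
    intro q
    induction q using Polynomial.induction_on' with
    | add p q hp hq => rw [map_add, map_add, map_add, hp, hq]
    | monomial k c => rw [aeval_monomial, map_mul, map_mul, map_pow, map_pow, hc, hj]
  rw [hrs, map_div₀, map_div₀, h, h]

theorem card_le_finrank (φ : L →+* ℂ) :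
    Fintype.card (CosetSpace N) ≤ Module.finrank ↥(jField L N) ↥(FLevel L N) := by
  haveI := finiteDimensional_jField (N := N) φ
  let x0 : CosetSpace N := ((1 : SL(2, ℤ)) : CosetSpace N)
  letI : Algebra ↥(jField L N) (LaurentSeries ℂ) :=
    ((embCusp φ x0).comp (algebraMap ↥(jField L N) ↥(FLevel L N))).toAlgebra
  let ι : CosetSpace N → (↥(FLevel L N) →ₐ[↥(jField L N)] LaurentSeries ℂ) := fun x =>
    { embCusp φ x with
      commutes' := fun k => eq_of_eq_on_jField (f := embCusp φ x) (g := embCusp φ x0)
        (fun c => by rw [embCusp_algebraMap, embCusp_algebraMap])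
        (by rw [embCusp_jEl, embCusp_jEl]) k }
  have hι : Function.Injective ι := fun x y h =>
    embCusp_injective φ (congrArg
      (fun f : ↥(FLevel L N) →ₐ[↥(jField L N)] LaurentSeries ℂ => f.toRingHom) h)
  have h2 := linearIndependent_toLinearMap ↥(jField L N) ↥(FLevel L N) (LaurentSeries ℂ)
  have h3 := (h2.comp ι hι).fintype_card_le_finrank
  rwa [Module.finrank_linearMap_self] at h3

theorem finrank_le_card (φ : L →+* ℂ) :
    Module.finrank ↥(jField L N) ↥(FLevel L N) ≤ Fintype.card (CosetSpace N) := by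
  haveI := finiteDimensional_jField (N := N) φ
  haveI : CharZero L := algebraRat.charZero L
  haveI : CharZero ↥(jField L N) :=
    charZero_of_injective_algebraMap (algebraMap L ↥(jField L N)).injective
  haveI : Algebra.IsSeparable ↥(jField L N) ↥(FLevel L N) := inferInstance
  obtain ⟨α, hα⟩ := Field.exists_primitive_element ↥(jField L N) ↥(FLevel L N)
  obtain ⟨p, a, hp, ha⟩ := exists_smul_mem φ α
  have hp0 : aeval (jEl L N) p ≠ 0 := fun h => hp ((transcendental_iff.mp (transcendental_jEl φ)) p h)
  have htop : IntermediateField.adjoin ↥(jField L N) {algToField L N a} = ⊤ := by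
    refine top_le_iff.mp (hα ▸ ?_)
    rw [IntermediateField.adjoin_simple_le_iff]
    have hmem : aeval (jEl L N) p ∈ jField L N :=
      IntermediateField.algebra_adjoin_le_adjoin L _ (aeval_mem_adjoin_singleton L _)
    have : α = algebraMap ↥(jField L N) ↥(FLevel L N) ⟨_, hmem⟩⁻¹ * algToField L N a := by
      rw [← ha, map_inv₀]
      show α = (aeval (jEl L N) p)⁻¹ * _
      rw [inv_mul_cancel_left₀ hp0]
    rw [this]
    exact mul_mem (IntermediateField.algebraMap_mem _ _)
      (IntermediateField.mem_adjoin_simple_self _ _)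
  rw [← IntermediateField.finrank_top' (F := ↥(jField L N)) (E := ↥(FLevel L N)), ← htop,
    IntermediateField.adjoin.finrank (isIntegral_algToField φ a)]
  exact natDegree_minpoly_algToField_le φ a

/-- **The degree of the modular function field over `L(j)`.** -/
theorem finrank_jField (φ : L →+* ℂ) :
    Module.finrank ↥(jField L N) ↥(FLevel L N) = ModularCurve.dedekindPsi N := by
  rw [le_antisymm (finrank_le_card φ) (card_le_finrank φ), ← Nat.card_eq_fintype_card,
    Gamma0Count.card_cosetSpace]

end Fermat.Agent.X0Analytic
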