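import Mathlib.Analysis.Complex.UpperHalfPlane.Manifold
import Mathlib.Analysis.Complex.UpperHalfPlane.MoebiusAction
import Mathlib.RingTheory.Localization.FractionRing
import Mathlib.Geometry.Manifold.MFDeriv.SpecificFunctions

/-!
Holomorphic functions on the upper half plane, their fraction field, and the action by
precomposition with fractional linear maps.
-/

set_option autoImplicit false

noncomputable section

open UpperHalfPlane
open scoped Manifold MatrixGroups

namespace Fermat.Agent.X0Analytic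

/-- Holomorphic functions `ℍ → ℂ`. -/
def holFun : Subalgebra ℂ (ℍ → ℂ) where
  carrier := {f | MDiff f}
  mul_mem' hf hg := MDifferentiable.mul hf hg
  add_mem' hf hg := MDifferentiable.add hf hg
  algebraMap_mem' _ := mdifferentiable_const

theorem mem_holFun {f : ℍ → ℂ} : f ∈ holFun ↔ MDiff f := Iff.rfl

/-- Holomorphic functions on `ℍ`, as a type. -/
abbrev Hol : Type := ↥holFun

instance : NoZeroDivisors Hol where
  eq_zero_or_eq_zero_of_mul_eq_zero {f g} hfg := by
    rcases (UpperHalfPlane.mul_eq_zero_iff f.2 g.2).mp (congrArg Subtype.val hfg) with h | h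
    · exact Or.inl (Subtype.ext h)
    · exact Or.inr (Subtype.ext h)

instance : Nontrivial Hol :=
  ⟨0, 1, fun h => zero_ne_one (congrFun (congrArg Subtype.val h) UpperHalfPlane.I)⟩

instance : IsDomain Hol := NoZeroDivisors.to_isDomain Hol

/-- Meromorphic functions on `ℍ`: the fraction field of the holomorphic ones. -/
abbrev Mer : Type := FractionRing Hol

/-- Precomposition with a fractional linear map of positive determinant. -/
def preComp (g : GL (Fin 2) ℝ) (hg : 0 < g.det.val) : Hol →ₐ[ℂ] Hol where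
  toFun f := ⟨fun τ => (f : ℍ → ℂ) (g • τ), f.2.comp (mdifferentiable_smul hg)⟩
  map_one' := rfl
  map_mul' _ _ := rfl
  map_zero' := rfl
  map_add' _ _ := rfl
  commutes' _ := rfl

@[simp]
theorem preComp_apply (g : GL (Fin 2) ℝ) (hg : 0 < g.det.val) (f : Hol) (τ : ℍ) :
    ((preComp g hg f : Hol) : ℍ → ℂ) τ = (f : ℍ → ℂ) (g • τ) :=
  rfl

theorem preComp_injective (g : GL (Fin 2) ℝ) (hg : 0 < g.det.val) :
    Function.Injective (preComp g hg) := by
  intro f₁ f₂ h
  refine Subtype.ext (funext fun τ => ?_)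
  have := congrFun (congrArg Subtype.val h) (g⁻¹ • τ)
  simpa only [preComp_apply, smul_inv_smul] using this

/-- Precomposition on meromorphic functions. -/
def merComp (g : GL (Fin 2) ℝ) (hg : 0 < g.det.val) : Mer →+* Mer :=
  IsFractionRing.lift (A := Hol) (g := (algebraMap Hol Mer).comp (preComp g hg).toRingHom)
    ((IsFractionRing.injective Hol Mer).comp (preComp_injective g hg))

@[simp]
theorem merComp_algebraMap (g : GL (Fin 2) ℝ) (hg : 0 < g.det.val) (f : Hol) :
    merComp g hg (algebraMap Hol Mer f) = algebraMap Hol Mer (preComp g hg f) :=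
  IsFractionRing.lift_algebraMap _ f

theorem det_pos_SL (γ : SL(2, ℤ)) : 0 < (γ : GL (Fin 2) ℝ).det.val := by
  simp

/-- The scaling `τ ↦ d τ` as an element of `GL (Fin 2) ℝ`. -/
def scaleGL (d : ℕ) [NeZero d] : GL (Fin 2) ℝ :=
  Matrix.GeneralLinearGroup.mkOfDetNeZero !![(d : ℝ), 0; 0, 1]
    (by simp [Matrix.det_fin_two_of, NeZero.ne d])

theorem det_pos_scaleGL (d : ℕ) [NeZero d] : 0 < (scaleGL d).det.val := by
  simp [scaleGL, Matrix.det_fin_two_of, Nat.pos_of_ne_zero (NeZero.ne d)]

theorem coe_scaleGL_smul (d : ℕ) [NeZero d] (τ : ℍ) :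
    ((scaleGL d • τ : ℍ) : ℂ) = d * (τ : ℂ) := by
  rw [coe_smul_of_det_pos (det_pos_scaleGL d)]
  simp [scaleGL, num, denom]

end Fermat.Agent.X0Analytic
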