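import Mathlib.NumberTheory.ModularForms.QExpansion
import Mathlib.RingTheory.LaurentSeries
import Fermat.Agent.X0Analytic.HolFun
import Fermat.Prelude.Def_ModularCurve_X0

/-!
Periodic holomorphic functions which are meromorphic at `i∞`, and their Laurent series in
`q = exp (2 π i τ / h)`.
-/

set_option autoImplicit false

noncomputable section

open UpperHalfPlane Filter Topology Function HahnSeries
open scoped Manifold

namespace Fermat.Agent.X0Analytic

/-- `q = exp (2 π i τ / h)` as a function on `ℍ`. -/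
def qp (h : ℕ) (τ : ℍ) : ℂ := Periodic.qParam (h : ℝ) τ

theorem qp_ne_zero (h : ℕ) (τ : ℍ) : qp h τ ≠ 0 := Periodic.qParam_ne_zero _

theorem norm_qp_lt_one (h : ℕ) [NeZero h] (τ : ℍ) : ‖qp h τ‖ < 1 :=
  Periodic.norm_qParam_lt_one (by exact_mod_cast Nat.pos_of_ne_zero (NeZero.ne h)) τ.im_pos

theorem hpos (h : ℕ) [NeZero h] : (0 : ℝ) < h := by
  exact_mod_cast Nat.pos_of_ne_zero (NeZero.ne h)

theorem qp_vadd (h : ℕ) [NeZero h] (τ : ℍ) : qp h ((h : ℝ) +ᵥ τ) = qp h τ := by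
  simp only [qp, UpperHalfPlane.coe_vadd, Periodic.qParam]
  rw [← Complex.exp_periodic (2 * Real.pi * Complex.I * τ / (h : ℝ))]
  congr 1
  field_simp [NeZero.ne h]
  push_cast
  ring

/-- `f` is periodic with period `h`. -/
def IsPer (h : ℕ) (f : ℍ → ℂ) : Prop := ∀ τ : ℍ, f ((h : ℝ) +ᵥ τ) = f τ

theorem IsPer.periodic_comp_ofComplex {h : ℕ} {f : ℍ → ℂ} (hf : IsPer h f) :
    Periodic (f ∘ ofComplex) (h : ℝ) := by
  intro w
  by_cases hw : 0 < w.im
  · have him : 0 < (w + (h : ℝ)).im := by simpa using hw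
    simp only [Function.comp_apply, ofComplex_apply_of_im_pos him, ofComplex_apply_of_im_pos hw]
    rw [← hf ⟨w, hw⟩]
    congr 1
    apply UpperHalfPlane.ext
    simp [UpperHalfPlane.coe_vadd, add_comm]
  · have him : (w + (h : ℝ)).im ≤ 0 := by simpa using not_lt.mp hw
    simp only [Function.comp_apply, ofComplex_apply_eq_of_im_nonpos him (not_lt.mp hw)]

theorem isPer_qp_pow (h : ℕ) [NeZero h] (m : ℕ) : IsPer h (qp h ^ m) := fun τ => by
  simp [qp_vadd]

theorem IsPer.mul {h : ℕ} {f g : ℍ → ℂ} (hf : IsPer h f) (hg : IsPer h g) : IsPer h (f * g) :=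
  fun τ => by simp [hf τ, hg τ]

theorem qp_mdiff (h : ℕ) : MDiff (qp h) := by
  rw [UpperHalfPlane.mdifferentiable_iff]
  intro w hw
  refine ((Periodic.differentiable_qParam (h := (h : ℝ))).differentiableAt.congr_of_eventuallyEq
    (f₁ := qp h ∘ ofComplex) ?_).differentiableWithinAt
  filter_upwards [isOpen_upperHalfPlaneSet.mem_nhds hw] with z hz
  simp [qp, ofComplex_apply_of_im_pos hz]

theorem qp_isBounded (h : ℕ) [NeZero h] : IsBoundedAtImInfty (qp h) :=
  isBoundedAtImInfty_iff.mpr ⟨1, 0, fun τ _ => (norm_qp_lt_one h τ).le⟩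

theorem qp_pow_isBounded (h : ℕ) [NeZero h] (m : ℕ) : IsBoundedAtImInfty (qp h ^ m) :=
  pow_mem (S := boundedAtImInftySubalgebra ℂ) (x := qp h) (qp_isBounded h) m

theorem isBounded_mul_qp_of_le {h : ℕ} [NeZero h] {f : ℍ → ℂ} {m k : ℕ}
    (hf : IsBoundedAtImInfty (f * qp h ^ m)) (hk : m ≤ k) :
    IsBoundedAtImInfty (f * qp h ^ k) := by
  obtain ⟨j, rfl⟩ := Nat.exists_eq_add_of_le hk
  rw [pow_add, ← mul_assoc]
  exact Filter.BoundedAtFilter.mul hf (qp_pow_isBounded h j)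

/-- Holomorphic functions of period `h` which are meromorphic at `i∞`. -/
def perMero (h : ℕ) [NeZero h] : Subalgebra ℂ (ℍ → ℂ) where
  carrier := {f | MDiff f ∧ IsPer h f ∧ ∃ m : ℕ, IsBoundedAtImInfty (f * qp h ^ m)}
  mul_mem' := by
    rintro f g ⟨hf, hfp, m, hm⟩ ⟨hg, hgp, k, hk⟩
    refine ⟨hf.mul hg, hfp.mul hgp, m + k, ?_⟩
    rw [pow_add, mul_mul_mul_comm]
    exact Filter.BoundedAtFilter.mul hm hk
  add_mem' := by
    rintro f g ⟨hf, hfp, m, hm⟩ ⟨hg, hgp, k, hk⟩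
    refine ⟨hf.add hg, fun τ => by simp [hfp τ, hgp τ], m + k, ?_⟩
    rw [add_mul]
    exact Filter.BoundedAtFilter.add (isBounded_mul_qp_of_le hm (Nat.le_add_right _ _))
      (isBounded_mul_qp_of_le hk (Nat.le_add_left _ _))
  algebraMap_mem' c := by
    refine ⟨mdifferentiable_const, fun _ => rfl, 0, ?_⟩
    rw [pow_zero, mul_one]
    exact Filter.const_boundedAtFilter _ c

theorem perMero_le_holFun (h : ℕ) [NeZero h] : perMero h ≤ holFun := fun _ hf => hf.1

/-- The inclusion into all holomorphic functions. -/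
def perToHol (h : ℕ) [NeZero h] : ↥(perMero h) →ₐ[ℂ] Hol :=
  Subalgebra.inclusion (perMero_le_holFun h)

section Series

variable {h : ℕ} [NeZero h]

theorem analyticAt_cuspFunction {f : ℍ → ℂ} (hf : MDiff f) (hp : IsPer h f) {m : ℕ}
    (hm : IsBoundedAtImInfty (f * qp h ^ m)) :
    AnalyticAt ℂ (cuspFunction (h : ℝ) (f * qp h ^ m)) 0 :=
  analyticAt_cuspFunction_zero (hpos h) (hp.mul (isPer_qp_pow h m)).periodic_comp_ofComplex
    (hf.mul ((mem_holFun).mp (pow_mem (mem_holFun.mpr (qp_mdiff h)) m))) hm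

theorem hasSum_series {f : ℍ → ℂ} (hf : MDiff f) (hp : IsPer h f) {m : ℕ}
    (hm : IsBoundedAtImInfty (f * qp h ^ m)) (τ : ℍ) :
    HasSum (fun n : ℕ => (qExpansion (h : ℝ) (f * qp h ^ m)).coeff n • qp h τ ^ n)
      (f τ * qp h τ ^ m) :=
  UpperHalfPlane.hasSum_qExpansion (hpos h) (hp.mul (isPer_qp_pow h m)).periodic_comp_ofComplex
    (hf.mul ((mem_holFun).mp (pow_mem (mem_holFun.mpr (qp_mdiff h)) m))) hm τ

/-- A q-expansion is determined by any series summing to the function. -/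
theorem qExpansion_coeff_eq_of_hasSum {f : ℍ → ℂ} (hf : MDiff f) (hp : IsPer h f)
    {c : ℕ → ℂ} (hc : ∀ τ : ℍ, HasSum (fun n => c n • qp h τ ^ n) (f τ)) (n : ℕ) :
    (qExpansion (h : ℝ) f).coeff n = c n := by
  have han := analyticAt_cuspFunction_zero (hpos h) hp.periodic_comp_ofComplex hf
    (isBoundedAtImInfty_of_hasSum_qExpansion (hpos h) hc)
  have h1 := (hasFPowerSeriesOnBall_cuspFunction (hpos h) han hc).hasFPowerSeriesAt
  have h2 := han.hasFPowerSeriesAt
  have h3 := congrArg (FormalMultilinearSeries.coeff · n) (h1.eq_formalMultilinearSeries h2)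
  simp only [FormalMultilinearSeries.coeff_ofScalars] at h3
  rw [UpperHalfPlane.qExpansion_coeff, h3]
  simp [div_eq_mul_inv, mul_comm]

theorem qExpansion_qp : qExpansion (h : ℝ) (qp h) = PowerSeries.X := by
  ext n
  rw [qExpansion_coeff_eq_of_hasSum (qp_mdiff h) (fun τ => qp_vadd h τ)
    (c := fun n => if n = 1 then 1 else 0) ?_ n, PowerSeries.coeff_X]
  intro τ
  convert hasSum_ite_eq 1 (qp h τ) using 1
  funext n
  split_ifs with hn <;> simp [hn]

theorem qExpansion_mul_qp {g : ℍ → ℂ} (hf : MDiff g) (hp : IsPer h g)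
    (hb : IsBoundedAtImInfty g) :
    qExpansion (h : ℝ) (g * qp h) = qExpansion (h : ℝ) g * PowerSeries.X := by
  rw [UpperHalfPlane.qExpansion_mul, qExpansion_qp]
  · exact analyticAt_cuspFunction_zero (hpos h) hp.periodic_comp_ofComplex hf hb
  · exact analyticAt_cuspFunction_zero (hpos h) (IsPer.periodic_comp_ofComplex (qp_vadd h))
      (qp_mdiff h) (qp_isBounded h)

/-- The Laurent series computed with a given bound `m` on the pole order. -/
def qSerAux (h : ℕ) (f : ℍ → ℂ) (m : ℕ) : LaurentSeries ℂ :=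
  HahnSeries.single (-(m : ℤ)) 1 *
    HahnSeries.ofPowerSeries ℤ ℂ (qExpansion (h : ℝ) (f * qp h ^ m))

theorem qSerAux_succ {f : ℍ → ℂ} (hf : MDiff f) (hp : IsPer h f) {m : ℕ}
    (hm : IsBoundedAtImInfty (f * qp h ^ m)) : qSerAux h f (m + 1) = qSerAux h f m := by
  unfold qSerAux
  rw [pow_succ, ← mul_assoc, qExpansion_mul_qp
    (hf.mul ((mem_holFun).mp (pow_mem (mem_holFun.mpr (qp_mdiff h)) m)))
    (hp.mul (isPer_qp_pow h m)) hm,
    map_mul, HahnSeries.ofPowerSeries_X, mul_comm (HahnSeries.ofPowerSeries ℤ ℂ _),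
    ← mul_assoc, HahnSeries.single_mul_single, mul_one]
  congr 2
  congr 1
  push_cast
  ring

theorem qSerAux_of_le {f : ℍ → ℂ} (hf : MDiff f) (hp : IsPer h f) {m k : ℕ}
    (hm : IsBoundedAtImInfty (f * qp h ^ m)) (hk : m ≤ k) : qSerAux h f k = qSerAux h f m := by
  induction k, hk using Nat.le_induction with
  | base => rfl
  | succ k hk ih => rw [qSerAux_succ hf hp (isBounded_mul_qp_of_le hm hk), ih]

/-- The Laurent series in `q` of an element of `perMero h`, as a function. -/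
def qSerFun (f : ↥(perMero h)) : LaurentSeries ℂ := qSerAux h f f.2.2.2.choose

theorem qSerFun_eq (f : ↥(perMero h)) {m : ℕ}
    (hm : IsBoundedAtImInfty ((f : ℍ → ℂ) * qp h ^ m)) : qSerFun f = qSerAux h f m := by
  have h1 := qSerAux_of_le f.2.1 f.2.2.1 f.2.2.2.choose_spec (Nat.le_add_right _ m)
  have h2 := qSerAux_of_le f.2.1 f.2.2.1 hm (Nat.le_add_left m f.2.2.2.choose)
  exact h1.symm.trans h2

/-- The Laurent series in `q` of a function in `perMero h`. -/
def qSer (h : ℕ) [NeZero h] : ↥(perMero h) →+* LaurentSeries ℂ where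
  toFun := qSerFun
  map_one' := by
    rw [qSerFun_eq (1 : ↥(perMero h)) (m := 0)
      (by rw [pow_zero, mul_one]; exact Filter.const_boundedAtFilter atImInfty (1 : ℂ))]
    simp [qSerAux, UpperHalfPlane.qExpansion_one]
  map_mul' f g := by
    obtain ⟨⟨f, hf, hfp, m, hm⟩, rfl⟩ : ∃ f' : ↥(perMero h), f' = f := ⟨f, rfl⟩
    obtain ⟨⟨g, hg, hgp, k, hk⟩, rfl⟩ : ∃ g' : ↥(perMero h), g' = g := ⟨g, rfl⟩
    have hb : IsBoundedAtImInfty ((f * g) * qp h ^ (m + k)) := by
      rw [pow_add, mul_mul_mul_comm]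
      exact Filter.BoundedAtFilter.mul hm hk
    rw [qSerFun_eq _ (m := m + k) hb, qSerFun_eq _ (m := m) hm, qSerFun_eq _ (m := k) hk]
    simp only [qSerAux, MulMemClass.coe_mul]
    rw [pow_add, mul_mul_mul_comm, UpperHalfPlane.qExpansion_mul
      (analyticAt_cuspFunction hf hfp hm) (analyticAt_cuspFunction hg hgp hk), map_mul,
      mul_mul_mul_comm (HahnSeries.single (-(m : ℤ)) (1 : ℂ)), HahnSeries.single_mul_single,
      mul_one]
    congr 3
    push_cast
    ring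
  map_zero' := by
    rw [qSerFun_eq (0 : ↥(perMero h)) (m := 0)
      (by rw [pow_zero, mul_one]; exact Filter.const_boundedAtFilter atImInfty (0 : ℂ))]
    simp [qSerAux, UpperHalfPlane.qExpansion_zero]
  map_add' f g := by
    obtain ⟨⟨f, hf, hfp, m, hm⟩, rfl⟩ : ∃ f' : ↥(perMero h), f' = f := ⟨f, rfl⟩
    obtain ⟨⟨g, hg, hgp, k, hk⟩, rfl⟩ : ∃ g' : ↥(perMero h), g' = g := ⟨g, rfl⟩
    have hm' : IsBoundedAtImInfty (f * qp h ^ (m + k)) :=
      isBounded_mul_qp_of_le hm (Nat.le_add_right _ _)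
    have hk' : IsBoundedAtImInfty (g * qp h ^ (m + k)) :=
      isBounded_mul_qp_of_le hk (Nat.le_add_left _ _)
    have hb : IsBoundedAtImInfty ((f + g) * qp h ^ (m + k)) := by
      rw [add_mul]
      exact Filter.BoundedAtFilter.add hm' hk'
    rw [qSerFun_eq _ (m := m + k) hb, qSerFun_eq _ (m := m + k) hm',
      qSerFun_eq _ (m := m + k) hk']
    simp only [qSerAux, AddMemClass.coe_add]
    rw [add_mul, UpperHalfPlane.qExpansion_add (analyticAt_cuspFunction hf hfp hm')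
      (analyticAt_cuspFunction hg hgp hk'), map_add, mul_add]

theorem qSer_eq (f : ↥(perMero h)) {m : ℕ}
    (hm : IsBoundedAtImInfty ((f : ℍ → ℂ) * qp h ^ m)) : qSer h f = qSerAux h f m :=
  qSerFun_eq f hm

theorem qSer_coeff (f : ↥(perMero h)) {m : ℕ}
    (hm : IsBoundedAtImInfty ((f : ℍ → ℂ) * qp h ^ m)) (n : ℕ) :
    (qSer h f).coeff ((n : ℤ) - m) =
      (qExpansion (h : ℝ) ((f : ℍ → ℂ) * qp h ^ m)).coeff n := by
  rw [qSer_eq f hm, qSerAux, HahnSeries.coeff_single_mul, one_mul, sub_neg_eq_add,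
    sub_add_cancel, HahnSeries.ofPowerSeries_apply_coeff]

theorem qSer_coeff_of_lt (f : ↥(perMero h)) {m : ℕ}
    (hm : IsBoundedAtImInfty ((f : ℍ → ℂ) * qp h ^ m)) {n : ℤ} (hn : n < -(m : ℤ)) :
    (qSer h f).coeff n = 0 := by
  rw [qSer_eq f hm, qSerAux, HahnSeries.coeff_single_mul, one_mul]
  exact ModularCurve.ofPowerSeries_coeff_of_neg _ (by omega)

theorem qSer_injective : Function.Injective (qSer h) := by
  rw [injective_iff_map_eq_zero]
  intro f hf
  obtain ⟨hfm, hfp, m, hm⟩ := f.2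
  have hq : qExpansion (h : ℝ) ((f : ℍ → ℂ) * qp h ^ m) = 0 := by
    ext n
    rw [← qSer_coeff f hm, hf]
    simp
  rw [UpperHalfPlane.qExpansion_eq_zero_iff (hpos h)
    (hfp.mul (isPer_qp_pow h m)).periodic_comp_ofComplex
    (hfm.mul ((mem_holFun).mp (pow_mem (mem_holFun.mpr (qp_mdiff h)) m))) hm] at hq
  refine Subtype.ext (funext fun τ => ?_)
  have := congrFun hq τ
  simpa [qp_ne_zero] using this

theorem qSer_algebraMap (c : ℂ) :
    qSer h (algebraMap ℂ ↥(perMero h) c) = HahnSeries.single 0 c := by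
  have hb : IsBoundedAtImInfty ((fun _ : ℍ => c) * qp h ^ 0) := by
    rw [pow_zero, mul_one]; exact Filter.const_boundedAtFilter _ c
  rw [qSer_eq _ (m := 0) hb]
  have : qExpansion (h : ℝ) ((fun _ : ℍ => c) * qp h ^ 0) = PowerSeries.C c := by
    ext n
    rw [pow_zero, mul_one, qExpansion_coeff_eq_of_hasSum mdifferentiable_const (fun _ => rfl)
      (c := fun n => if n = 0 then c else 0) ?_ n, PowerSeries.coeff_C]
    intro τ
    convert hasSum_ite_eq 0 c using 1
    funext n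
    split_ifs with hn <;> simp [hn]
  simp only [qSerAux]
  rw [show ((algebraMap ℂ ↥(perMero h) c : ↥(perMero h)) : ℍ → ℂ) = fun _ => c from rfl, this,
    HahnSeries.ofPowerSeries_C]
  simp

theorem isBoundedAtImInfty_iff_coeff (f : ↥(perMero h)) :
    IsBoundedAtImInfty (f : ℍ → ℂ) ↔ ∀ n : ℤ, n < 0 → (qSer h f).coeff n = 0 := by
  constructor
  · intro hb n hn
    exact qSer_coeff_of_lt f (m := 0) (by simpa using hb) (by simpa using hn)
  · intro hc
    obtain ⟨hfm, hfp, m, hm⟩ := f.2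
    refine isBoundedAtImInfty_of_hasSum_qExpansion
      (c := fun n => (qExpansion (h : ℝ) ((f : ℍ → ℂ) * qp h ^ m)).coeff (n + m)) (hpos h)
      fun τ => ?_
    have hs := hasSum_series hfm hfp hm τ
    rw [← hasSum_nat_add_iff' m, Finset.sum_eq_zero (fun i hi => ?_), sub_zero] at hs
    · have h2 := hs.mul_right ((qp h τ ^ m)⁻¹)
      rw [mul_inv_cancel_right₀ (pow_ne_zero _ (qp_ne_zero h τ))] at h2
      refine h2.congr_fun fun n => ?_
      show _ • qp h τ ^ n = _ • qp h τ ^ (n + m) * _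
      simp only [smul_eq_mul, pow_add]
      field_simp [qp_ne_zero]
    · rw [← qSer_coeff f hm, hc _ (by simp only [Finset.mem_range] at hi; omega), zero_smul]

theorem tendsto_atImInfty_coeff_zero (f : ↥(perMero h))
    (hb : IsBoundedAtImInfty (f : ℍ → ℂ)) :
    Tendsto (f : ℍ → ℂ) atImInfty (𝓝 ((qSer h f).coeff 0)) := by
  obtain ⟨hfm, hfp, -⟩ := f.2
  have hm : IsBoundedAtImInfty ((f : ℍ → ℂ) * qp h ^ 0) := by simpa using hb
  have hc := qSer_coeff f hm 0
  simp only [Nat.cast_zero, sub_zero, pow_zero, mul_one] at hc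
  have han := analyticAt_cuspFunction_zero (hpos h) hfp.periodic_comp_ofComplex hfm hb
  rw [hc, UpperHalfPlane.qExpansion_coeff, iteratedDeriv_zero]
  simp only [Nat.factorial_zero, Nat.cast_one, inv_one, one_mul]
  refine (han.continuousAt.tendsto.comp (qParam_tendsto_atImInfty (hpos h))).congr fun τ => ?_
  exact eq_cuspFunction τ (hpos h).ne' hfp.periodic_comp_ofComplex

theorem isZeroAtImInfty_of_coeff (f : ↥(perMero h))
    (hc : ∀ n : ℤ, n ≤ 0 → (qSer h f).coeff n = 0) : IsZeroAtImInfty (f : ℍ → ℂ) := by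
  have := tendsto_atImInfty_coeff_zero f
    ((isBoundedAtImInfty_iff_coeff f).mpr fun n hn => hc n hn.le)
  rwa [hc 0 le_rfl] at this

end Series

/-- The substitution `t ↦ ζ t` on Laurent series. -/
def rot {K : Type*} [Field K] (ζ : K) (hζ : ζ ≠ 0) : LaurentSeries K →+* LaurentSeries K where
  toFun x := ⟨fun n => ζ ^ n * x.coeff n,
    x.isPWO_support.mono fun n hn => right_ne_zero_of_mul hn⟩
  map_one' := by
    ext n
    simp only [HahnSeries.coeff_one]
    split_ifs with hn <;> simp [hn]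
  map_mul' x y := by
    ext n
    show ζ ^ n * (x * y).coeff n = _
    rw [HahnSeries.coeff_mul, HahnSeries.coeff_mul, Finset.mul_sum]
    refine Finset.sum_congr ?_ fun ij hij => ?_
    · ext ij
      simp [zpow_ne_zero _ hζ]
    · rw [Finset.mem_antidiagonal] at hij
      show _ = ζ ^ ij.1 * x.coeff ij.1 * (ζ ^ ij.2 * y.coeff ij.2)
      rw [← hij.2.2, zpow_add₀ hζ]
      ring
  map_zero' := by ext n; simp
  map_add' x y := by ext n; simp [mul_add]

@[simp]
theorem rot_coeff {K : Type*} [Field K] (ζ : K) (hζ : ζ ≠ 0) (x : LaurentSeries K) (n : ℤ) :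
    (rot ζ hζ x).coeff n = ζ ^ n * x.coeff n :=
  rfl

section Subst

variable {h h' : ℕ} [NeZero h] [NeZero h'] {M : ℕ} [NeZero M]

/-- If `q_h (φ τ) = ζ q_h' (τ) ^ M`, composing with `φ` acts on series as `rot` then `qExpand M`. -/
theorem qSer_subst (f : ↥(perMero h)) (φ : ℍ → ℍ) (hφ : MDiff φ) (ζ : ℂ) (hζ : ζ ≠ 0)
    (hq : ∀ τ, qp h (φ τ) = ζ * qp h' τ ^ M) :
    ∃ hg : (f : ℍ → ℂ) ∘ φ ∈ perMero h',
      qSer h' ⟨_, hg⟩ = ModularCurve.qExpand ℂ M (rot ζ hζ (qSer h f)) := by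
  obtain ⟨hfm, hfp, m, hm⟩ := f.2
  set a : ℕ → ℂ := fun n => (qExpansion (h : ℝ) ((f : ℍ → ℂ) * qp h ^ m)).coeff n with ha
  have hMinj : Function.Injective (fun n : ℕ => M * n) :=
    mul_right_injective₀ (NeZero.ne M)
  set c : ℕ → ℂ := Function.extend (fun n : ℕ => M * n) (fun n => a n * ζ ^ n * (ζ ^ m)⁻¹) 0
    with hc
  have hkey : ∀ τ, HasSum (fun k => c k • qp h' τ ^ k)
      (((f : ℍ → ℂ) ∘ φ * qp h' ^ (M * m)) τ) := by
    intro τ
    have hs := (hasSum_series hfm hfp hm (φ τ)).mul_right ((ζ ^ m)⁻¹)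
    have hval : ((f : ℍ → ℂ) (φ τ) * qp h (φ τ) ^ m) * (ζ ^ m)⁻¹ =
        ((f : ℍ → ℂ) ∘ φ * qp h' ^ (M * m)) τ := by
      rw [hq, mul_pow, ← pow_mul, Pi.mul_apply, Pi.pow_apply, Function.comp_apply]
      field_simp
    rw [hval] at hs
    refine (hMinj.hasSum_iff fun x hx => ?_).mp (hs.congr_fun fun n => ?_)
    · rw [hc, Function.extend_apply' _ _ _ hx, Pi.zero_apply, zero_smul]
    · simp only [Function.comp_apply, hc, hMinj.extend_apply, smul_eq_mul]
      rw [hq, mul_pow, ← pow_mul]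
      ring
  have hgm : MDiff ((f : ℍ → ℂ) ∘ φ) := hfm.comp hφ
  have hgp : IsPer h' ((f : ℍ → ℂ) ∘ φ) := by
    intro τ
    have h1 := (hkey ((h' : ℝ) +ᵥ τ))
    simp only [qp_vadd] at h1
    have h2 := (hkey τ).unique h1
    simp only [Pi.mul_apply, Pi.pow_apply, qp_vadd] at h2
    exact (mul_right_cancel₀ (pow_ne_zero _ (qp_ne_zero h' τ)) h2).symm
  have hgb : IsBoundedAtImInfty ((f : ℍ → ℂ) ∘ φ * qp h' ^ (M * m)) :=
    isBoundedAtImInfty_of_hasSum_qExpansion (hpos h') hkey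
  refine ⟨⟨hgm, hgp, M * m, hgb⟩, ?_⟩
  have hcoeff : ∀ k : ℕ, (qExpansion (h' : ℝ) ((f : ℍ → ℂ) ∘ φ * qp h' ^ (M * m))).coeff k = c k :=
    qExpansion_coeff_eq_of_hasSum
      (hgm.mul ((mem_holFun).mp (pow_mem (mem_holFun.mpr (qp_mdiff h')) _)))
      (hgp.mul (isPer_qp_pow h' _)) hkey
  ext n
  rcases lt_or_ge n (-((M * m : ℕ) : ℤ)) with hn | hn
  · rw [qSer_coeff_of_lt _ hgb hn]
    by_cases hd : (M : ℤ) ∣ n
    · obtain ⟨k, rfl⟩ := hd
      have hk : k < -(m : ℤ) := by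
        push_cast at hn
        nlinarith [Int.natCast_nonneg (M : ℕ)]
      rw [ModularCurve.qExpand_coeff_mul, rot_coeff, qSer_coeff_of_lt f hm hk, mul_zero]
    · rw [ModularCurve.qExpand_coeff_of_not_dvd _ _ hd]
  · obtain ⟨k, hk⟩ : ∃ k : ℕ, n = (k : ℤ) - (M * m : ℕ) :=
      ⟨(n + (M * m : ℕ)).toNat, by omega⟩
    rw [hk, qSer_coeff _ hgb, hcoeff]
    by_cases hd : M ∣ k
    · obtain ⟨i, rfl⟩ := hd
      rw [show c (M * i) = a i * ζ ^ i * (ζ ^ m)⁻¹ from hMinj.extend_apply _ _ i,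
        show (((M * i : ℕ) : ℤ) - ((M * m : ℕ) : ℤ)) = (M : ℤ) * ((i : ℤ) - m) by push_cast; ring,
        ModularCurve.qExpand_coeff_mul, rot_coeff, qSer_coeff f hm, zpow_sub₀ hζ, zpow_natCast,
        zpow_natCast]
      simp only [ha]
      ring
    · rw [hc, Function.extend_apply' _ _ _ (by rintro ⟨i, rfl⟩; exact hd (dvd_mul_right M i)),
        Pi.zero_apply, ModularCurve.qExpand_coeff_of_not_dvd]
      intro hdd
      apply hd
      have : (M : ℤ) ∣ (k : ℤ) := by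
        have := hdd.add (dvd_mul_right (M : ℤ) (m : ℤ))
        push_cast at this
        simpa using this
      exact_mod_cast this

end Subst

end Fermat.Agent.X0Analytic
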