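/-
Taylor series at a point of `ℍ`, in the disc coordinate `t = (z - τ)/(z - conj τ)`.
-/
import Fermat.Agent.X0Analytic.PerMero
import Mathlib.Analysis.Analytic.Order
import Mathlib.RingTheory.PowerSeries.Derivative
import Mathlib.Analysis.Calculus.Deriv.CompMul

set_option autoImplicit false

noncomputable section

open UpperHalfPlane Filter Topology Function Complex
open scoped Manifold MatrixGroups ComplexConjugate

namespace Fermat.Agent.X0Analytic

/-- Taylor series at `0` of a function of one complex variable. -/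
def taylorPS (g : ℂ → ℂ) : PowerSeries ℂ :=
  .mk fun n => (↑n.factorial)⁻¹ * iteratedDeriv n g 0

theorem coeff_taylorPS (g : ℂ → ℂ) (n : ℕ) :
    (taylorPS g).coeff n = (↑n.factorial)⁻¹ * iteratedDeriv n g 0 := by
  simp [taylorPS]

theorem constantCoeff_taylorPS (g : ℂ → ℂ) : PowerSeries.constantCoeff (taylorPS g) = g 0 := by
  rw [← PowerSeries.coeff_zero_eq_constantCoeff, coeff_taylorPS]
  simp

theorem taylorPS_congr {f g : ℂ → ℂ} (h : f =ᶠ[𝓝 0] g) : taylorPS f = taylorPS g := by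
  ext n
  rw [coeff_taylorPS, coeff_taylorPS, h.iteratedDeriv_eq n]

theorem taylorPS_add {f g : ℂ → ℂ} (hf : AnalyticAt ℂ f 0) (hg : AnalyticAt ℂ g 0) :
    taylorPS (f + g) = taylorPS f + taylorPS g := by
  ext n
  simp [coeff_taylorPS, iteratedDeriv_add hf.contDiffAt hg.contDiffAt, mul_add]

theorem taylorPS_mul {f g : ℂ → ℂ} (hf : AnalyticAt ℂ f 0) (hg : AnalyticAt ℂ g 0) :
    taylorPS (f * g) = taylorPS f * taylorPS g := by
  ext n
  simp only [coeff_taylorPS, iteratedDeriv_mul hf.contDiffAt hg.contDiffAt, Finset.mul_sum,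
    PowerSeries.coeff_mul, Finset.Nat.sum_antidiagonal_eq_sum_range_succ_mk,
    Nat.succ_eq_add_one]
  refine Finset.sum_congr rfl fun i hi => ?_
  rw [Nat.cast_choose _ (by grind)]
  field_simp [Nat.factorial_ne_zero]

theorem taylorPS_const (c : ℂ) : taylorPS (fun _ => c) = PowerSeries.C c := by
  ext n
  rw [coeff_taylorPS, iteratedDeriv_const, PowerSeries.coeff_C]
  split_ifs with hn <;> simp [hn]

theorem taylorPS_deriv (g : ℂ → ℂ) :
    taylorPS (deriv g) = PowerSeries.derivative ℂ (taylorPS g) := by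
  ext n
  rw [PowerSeries.coeff_derivative, coeff_taylorPS, coeff_taylorPS, ← iteratedDeriv_succ',
    Nat.factorial_succ]
  push_cast
  field_simp [Nat.factorial_ne_zero]

theorem eventually_zero_of_taylorPS_eq_zero {g : ℂ → ℂ} (hg : AnalyticAt ℂ g 0)
    (h : taylorPS g = 0) : ∀ᶠ t in 𝓝 0, g t = 0 := by
  refine analyticOrderAt_eq_top.mp (ENat.eq_top_iff_forall_ge.mpr fun n => ?_)
  refine (natCast_le_analyticOrderAt_iff_iteratedDeriv_eq_zero hg).mpr fun i _ => ?_
  have := congrArg (PowerSeries.coeff i) h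
  rw [coeff_taylorPS, map_zero, mul_eq_zero, inv_eq_zero, Nat.cast_eq_zero] at this
  exact this.resolve_left (Nat.factorial_ne_zero i)

theorem iteratedDeriv_comp_mul_field (g : ℂ → ℂ) (ζ : ℂ) (n : ℕ) (t : ℂ) :
    iteratedDeriv n (fun t => g (ζ * t)) t = ζ ^ n * iteratedDeriv n g (ζ * t) := by
  induction n generalizing t with
  | zero => simp
  | succ n ih =>
    rw [iteratedDeriv_succ, iteratedDeriv_succ, funext ih, deriv_const_mul_field,
      deriv_comp_mul_left, smul_eq_mul]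
    ring

/-! ### The chart -/

/-- The point with disc coordinate `t` around `τ`. -/
def chart (τ : ℍ) (t : ℂ) : ℂ := ((τ : ℂ) - conj (τ : ℂ) * t) / (1 - t)

theorem chart_zero (τ : ℍ) : chart τ 0 = τ := by simp [chart]

theorem one_sub_ne_zero_of_mem {t : ℂ} (ht : t ∈ Metric.ball (0 : ℂ) 1) : 1 - t ≠ 0 := fun h => by
  rw [Metric.mem_ball, dist_zero_right, ← sub_eq_zero.mp h] at ht
  simp at ht

theorem im_chart_pos (τ : ℍ) {t : ℂ} (ht : t ∈ Metric.ball (0 : ℂ) 1) : 0 < (chart τ t).im := by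
  have h1 := one_sub_ne_zero_of_mem ht
  rw [Metric.mem_ball, dist_zero_right] at ht
  have hns : 0 < Complex.normSq (1 - t) := Complex.normSq_pos.mpr h1
  have hlt : t.re * t.re + t.im * t.im < 1 := by
    rw [← Complex.normSq_apply, Complex.normSq_eq_norm_sq]
    exact pow_lt_one₀ (norm_nonneg _) ht (by norm_num)
  rw [chart, Complex.div_im]
  simp only [Complex.sub_im, Complex.sub_re, Complex.mul_im, Complex.mul_re, Complex.one_re,
    Complex.one_im, Complex.conj_re, Complex.conj_im, UpperHalfPlane.coe_re,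
    UpperHalfPlane.coe_im]
  rw [div_sub_div_same]
  exact div_pos (by nlinarith [τ.im_pos]) hns

theorem hasDerivAt_chart (τ : ℍ) {t : ℂ} (ht : t ∈ Metric.ball (0 : ℂ) 1) :
    HasDerivAt (chart τ) (((τ : ℂ) - conj (τ : ℂ)) / (1 - t) ^ 2) t := by
  have h := ((hasDerivAt_const t (τ : ℂ)).sub ((hasDerivAt_id t).const_mul (conj (τ : ℂ)))).div
    ((hasDerivAt_const t (1 : ℂ)).sub (hasDerivAt_id t)) (one_sub_ne_zero_of_mem ht)
  convert h using 1
  all_goals first
    | rfl
    | (simp only [Pi.sub_apply, id_eq]; ring)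
    | ring

theorem differentiableOn_comp_chart (τ : ℍ) {f : ℍ → ℂ} (hf : MDiff f) :
    DifferentiableOn ℂ (f ∘ ofComplex ∘ chart τ) (Metric.ball 0 1) := by
  intro t ht
  have h1 : DifferentiableAt ℂ (f ∘ ofComplex) (chart τ t) :=
    (UpperHalfPlane.mdifferentiable_iff.mp hf).differentiableAt
      (isOpen_upperHalfPlaneSet.mem_nhds (im_chart_pos τ ht))
  exact (h1.comp t (hasDerivAt_chart τ ht).differentiableAt).differentiableWithinAt

theorem analyticAt_comp_chart (τ : ℍ) {f : ℍ → ℂ} (hf : MDiff f) :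
    AnalyticAt ℂ (f ∘ ofComplex ∘ chart τ) 0 :=
  (differentiableOn_comp_chart τ hf).analyticAt (Metric.ball_mem_nhds 0 one_pos)

/-- The Taylor series at `τ`. -/
def tayHom (τ : ℍ) : Hol →+* PowerSeries ℂ where
  toFun f := taylorPS ((f : ℍ → ℂ) ∘ ofComplex ∘ chart τ)
  map_one' := by
    rw [show ((1 : Hol) : ℍ → ℂ) ∘ ofComplex ∘ chart τ = fun _ => 1 from rfl, taylorPS_const,
      map_one]
  map_mul' f g := by
    rw [show ((f * g : Hol) : ℍ → ℂ) ∘ ofComplex ∘ chart τ =
      ((f : ℍ → ℂ) ∘ ofComplex ∘ chart τ) * ((g : ℍ → ℂ) ∘ ofComplex ∘ chart τ) from rfl]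
    exact taylorPS_mul (analyticAt_comp_chart τ f.2) (analyticAt_comp_chart τ g.2)
  map_zero' := by
    rw [show ((0 : Hol) : ℍ → ℂ) ∘ ofComplex ∘ chart τ = fun _ => 0 from rfl, taylorPS_const,
      map_zero]
  map_add' f g := by
    rw [show ((f + g : Hol) : ℍ → ℂ) ∘ ofComplex ∘ chart τ =
      ((f : ℍ → ℂ) ∘ ofComplex ∘ chart τ) + ((g : ℍ → ℂ) ∘ ofComplex ∘ chart τ) from rfl]
    exact taylorPS_add (analyticAt_comp_chart τ f.2) (analyticAt_comp_chart τ g.2)

theorem tayHom_apply (τ : ℍ) (f : Hol) :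
    tayHom τ f = taylorPS ((f : ℍ → ℂ) ∘ ofComplex ∘ chart τ) :=
  rfl

theorem tayHom_algebraMap (τ : ℍ) (c : ℂ) :
    tayHom τ (algebraMap ℂ Hol c) = PowerSeries.C c :=
  taylorPS_const c

theorem constantCoeff_tayHom (τ : ℍ) (f : Hol) :
    PowerSeries.constantCoeff (tayHom τ f) = (f : ℍ → ℂ) τ := by
  rw [tayHom_apply, constantCoeff_taylorPS]
  simp [chart_zero]

theorem tayHom_injective (τ : ℍ) : Function.Injective (tayHom τ) := by
  rw [injective_iff_map_eq_zero]
  intro f hf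
  have hev := eventually_zero_of_taylorPS_eq_zero (analyticAt_comp_chart τ f.2) hf
  set inv : ℂ → ℂ := fun z => (z - τ) / (z - conj (τ : ℂ)) with hinv
  have hden : (τ : ℂ) - conj (τ : ℂ) ≠ 0 := fun h => by
    have := congrArg Complex.im h
    simp at this
    linarith [τ.im_pos]
  have hcont : ContinuousAt inv (τ : ℂ) :=
    (continuousAt_id.sub continuousAt_const).div (continuousAt_id.sub continuousAt_const) hden
  have ht : Tendsto inv (𝓝 (τ : ℂ)) (𝓝 0) := by simpa [hinv] using hcont.tendsto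
  have hz : ∀ᶠ z in 𝓝 (τ : ℂ), (f : ℍ → ℂ) (ofComplex z) = 0 := by
    filter_upwards [ht.eventually hev, continuousAt_id.eventually_ne
      (show (τ : ℂ) ≠ conj (τ : ℂ) from sub_ne_zero.mp hden)] with z hz hne
    have hne' : z - conj (τ : ℂ) ≠ 0 := sub_ne_zero.mpr hne
    have hchart : chart τ (inv z) = z := by
      rw [chart, hinv, one_sub_div hne', mul_div_assoc', sub_div' hne', div_div_div_cancel_right₀ hne',
        div_eq_iff (by rw [sub_sub_sub_cancel_left]; exact hden)]
      ring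
    simp only [Function.comp_apply, hchart] at hz
    exact hz
  refine Subtype.ext ((UpperHalfPlane.eq_zero_of_frequently f.2 (τ := τ) ?_))
  have h2 : ∀ᶠ w in 𝓝 τ, (f : ℍ → ℂ) w = 0 := by
    have := (UpperHalfPlane.continuous_coe.tendsto τ).eventually hz
    simpa using this
  exact (h2.filter_mono nhdsWithin_le_nhds).frequently

/-- Precomposing with a map that rotates the disc coordinate rotates the series. -/
theorem coeff_tayHom_of_rotate (τ : ℍ) (f g : Hol) (ζ : ℂ)
    (h : ∀ᶠ t in 𝓝 (0 : ℂ),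
      (g : ℍ → ℂ) (ofComplex (chart τ t)) = (f : ℍ → ℂ) (ofComplex (chart τ (ζ * t))))
    (n : ℕ) : (tayHom τ g).coeff n = ζ ^ n * (tayHom τ f).coeff n := by
  rw [tayHom_apply, tayHom_apply, coeff_taylorPS, coeff_taylorPS,
    (show (g : ℍ → ℂ) ∘ ofComplex ∘ chart τ =ᶠ[𝓝 0]
      fun t => ((f : ℍ → ℂ) ∘ ofComplex ∘ chart τ) (ζ * t) from h).iteratedDeriv_eq n,
    iteratedDeriv_comp_mul_field, mul_zero]
  ring

/-- Taylor series of the derivative. -/
theorem derivative_tayHom (τ : ℍ) (f : Hol) {g : ℍ → ℂ} (hg : MDiff g)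
    (hd : ∀ z : ℍ, deriv ((f : ℍ → ℂ) ∘ ofComplex) z = g z) :
    PowerSeries.derivative ℂ (tayHom τ f) =
      tayHom τ ⟨g, hg⟩ * taylorPS (fun t => ((τ : ℂ) - conj (τ : ℂ)) / (1 - t) ^ 2) := by
  rw [tayHom_apply, ← taylorPS_deriv, tayHom_apply, ← taylorPS_mul (analyticAt_comp_chart τ hg)]
  · refine taylorPS_congr ?_
    filter_upwards [Metric.ball_mem_nhds (0 : ℂ) one_pos] with t ht
    have him := im_chart_pos τ ht
    have h1 : DifferentiableAt ℂ ((f : ℍ → ℂ) ∘ ofComplex) (chart τ t) :=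
      (UpperHalfPlane.mdifferentiable_iff.mp f.2).differentiableAt
        (isOpen_upperHalfPlaneSet.mem_nhds him)
    have h2 := (h1.hasDerivAt.comp t (hasDerivAt_chart τ ht)).deriv
    rw [← Function.comp_assoc, h2, Pi.mul_apply, Function.comp_apply, Function.comp_apply,
      ofComplex_apply_of_im_pos him, ← hd]
  · exact analyticAt_const.div ((analyticAt_const.sub analyticAt_id).pow 2) (by simp)

theorem taylorPS_chart_deriv_ne_zero (τ : ℍ) :
    PowerSeries.constantCoeff
      (taylorPS (fun t => ((τ : ℂ) - conj (τ : ℂ)) / (1 - t) ^ 2)) ≠ 0 := by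
  rw [constantCoeff_taylorPS]
  simp only [sub_zero, one_pow, div_one]
  intro h
  have := congrArg Complex.im h
  simp at this
  linarith [τ.im_pos]

end Fermat.Agent.X0Analytic
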