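import Fermat.Agent.X0Analytic.Modular

/-!
The Laurent series at `i∞` of a modular function of level `Γ₀(N)`, in `q = exp (2 π i τ)`.
-/

set_option autoImplicit false

noncomputable section

open UpperHalfPlane Filter Topology Function CongruenceSubgroup
open scoped Manifold MatrixGroups

namespace Fermat.Agent.X0Analytic

open Gamma0Count (CosetSpace)

variable {N : ℕ} [NeZero N]

theorem qp_one_eq_pow (N : ℕ) [NeZero N] (τ : ℍ) : qp 1 τ = qp N τ ^ N := by
  simp only [qp, Periodic.qParam, ← Complex.exp_nat_mul]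
  congr 1
  push_cast
  field_simp [NeZero.ne N]

theorem T_mem_Gamma0 : ModularGroup.T ∈ Gamma0 N := by
  simp [Gamma0_mem, ModularGroup.T]

theorem isBounded_qp_one_of_qp {f : ℍ → ℂ} {m : ℕ} (hm : IsBoundedAtImInfty (f * qp N ^ m)) :
    IsBoundedAtImInfty (f * qp 1 ^ m) := by
  have h : f * qp 1 ^ m = f * qp N ^ (N * m) := by
    funext τ
    simp [qp_one_eq_pow N τ, pow_mul]
  rw [h]
  exact isBounded_mul_qp_of_le hm (Nat.le_mul_of_pos_left m (Nat.pos_of_ne_zero (NeZero.ne N)))

theorem mem_perMero_one {f : ℍ → ℂ} (hf : f ∈ perMero N) (hp : IsPer 1 f) : f ∈ perMero 1 := by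
  obtain ⟨hm, -, m, hb⟩ := hf
  exact ⟨hm, hp, m, isBounded_qp_one_of_qp hb⟩

theorem modFun_mem_perMero_one (f : ↥(modFun N)) : (f : ℍ → ℂ) ∈ perMero 1 := by
  refine mem_perMero_one (by simpa using f.2.2.2 1) fun τ => ?_
  rw [Nat.cast_one, ← UpperHalfPlane.modular_T_smul]
  exact f.2.2.1 _ T_mem_Gamma0 τ

/-- A modular function as a `1`-periodic function. -/
def toPerOne (N : ℕ) [NeZero N] : ↥(modFun N) →ₐ[ℂ] ↥(perMero 1) where
  toFun f := ⟨(f : ℍ → ℂ), modFun_mem_perMero_one f⟩
  map_one' := rfl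
  map_mul' _ _ := rfl
  map_zero' := rfl
  map_add' _ _ := rfl
  commutes' _ := rfl

/-- The Laurent series in `q` of a modular function. -/
def ser (N : ℕ) [NeZero N] : ↥(modFun N) →+* LaurentSeries ℂ :=
  (qSer 1).comp (toPerOne N).toRingHom

theorem ser_apply (f : ↥(modFun N)) : ser N f = qSer 1 (toPerOne N f) := rfl

theorem toPerOne_injective : Function.Injective (toPerOne N) := fun f g h =>
  Subtype.ext (congrArg (fun x : ↥(perMero 1) => (x : ℍ → ℂ)) h)

theorem ser_injective : Function.Injective (ser N) := qSer_injective.comp toPerOne_injective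

theorem ser_algebraMap (c : ℂ) :
    ser N (algebraMap ℂ ↥(modFun N) c) = HahnSeries.single 0 c := by
  rw [ser_apply, AlgHom.commutes, qSer_algebraMap]

theorem rot_one {K : Type*} [Field K] (x : LaurentSeries K) : rot 1 one_ne_zero x = x := by
  ext n
  simp

theorem ser_scaledJ {d : ℕ} [NeZero d] (hd : d ∣ N) :
    ser N ⟨scaledJ d, scaledJ_mem hd⟩ = ModularCurve.qExpand ℂ d jqC := by
  obtain ⟨hm, hs⟩ := qSer_subst (h' := 1) (M := d) ⟨jFun, jFun_mem⟩
    (fun τ => scaleGL d • τ) (mdifferentiable_smul (det_pos_scaleGL d)) 1 one_ne_zero (fun τ => by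
      simp only [qp, Periodic.qParam, coe_scaleGL_smul, ← Complex.exp_nat_mul, one_mul]
      congr 1
      push_cast
      ring)
  rw [qSer_jFun, rot_one] at hs
  exact hs

theorem ser_jMod : ser N (jMod N) = jqC := by
  have h : jMod N = ⟨scaledJ 1, scaledJ_mem (one_dvd N)⟩ := Subtype.ext scaledJ_one.symm
  rw [h, ser_scaledJ (one_dvd N), ModularCurve.qExpand_one_apply]

/-- The series at the cusp of the trivial coset is `ser` in the variable `q ^ (1/N)`. -/
theorem qSer_conj_one (f : ↥(modFun N)) :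
    qSer N (conj ((1 : SL(2, ℤ)) : CosetSpace N) f) = ModularCurve.qExpand ℂ N (ser N f) := by
  obtain ⟨hm, hs⟩ := qSer_subst (h' := N) (M := N) (toPerOne N f) (fun τ => τ) mdifferentiable_id
    1 one_ne_zero (fun τ => by rw [one_mul, qp_one_eq_pow N τ])
  rw [rot_one] at hs
  rw [← ser_apply] at hs
  rw [← hs]
  congr 1
  refine Subtype.ext (funext fun τ => ?_)
  rw [conj_mk_apply, inv_one, one_smul]
  rfl

/-- Every conjugate of `j` has series `jqC (t ^ N)`. -/
theorem qSer_conj_jMod (x : CosetSpace N) :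
    qSer N (conj x (jMod N)) = ModularCurve.qExpand ℂ N jqC := by
  have h : conj x (jMod N) = conj ((1 : SL(2, ℤ)) : CosetSpace N) (jMod N) :=
    Subtype.ext (funext fun τ => by rw [conj_jMod_apply, conj_jMod_apply])
  rw [h, qSer_conj_one, ser_jMod]

/-- Translation by one: the series of `T • x` is the rotated series of `x`. -/
theorem qSer_conj_T_smul (x : CosetSpace N) (f : ↥(modFun N)) :
    qSer N (conj (ModularGroup.T • x) f) =
      rot (Complex.exp (-(2 * Real.pi * Complex.I) / N)) (Complex.exp_ne_zero _)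
        (qSer N (conj x f)) := by
  have hφ : MDiff (fun τ : ℍ => ModularGroup.T⁻¹ • τ) :=
    mdifferentiable_smul (det_pos_SL ModularGroup.T⁻¹)
  obtain ⟨hm, hs⟩ := qSer_subst (h' := N) (M := 1) (conj x f) _ hφ
    (Complex.exp (-(2 * Real.pi * Complex.I) / N)) (Complex.exp_ne_zero _) (fun τ => by
      have hT : ModularGroup.T⁻¹ • τ = ((-1 : ℤ) : ℝ) +ᵥ τ := by
        rw [← UpperHalfPlane.modular_T_zpow_smul]
        simp
      simp only [qp, Periodic.qParam, pow_one, hT, UpperHalfPlane.coe_vadd, ← Complex.exp_add]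
      congr 1
      push_cast
      field_simp)
  rw [ModularCurve.qExpand_one_apply] at hs
  rw [← hs]
  congr 1
  refine Subtype.ext (funext fun τ => ?_)
  rw [conj_smul_apply]
  rfl

/-- `conj x` is injective. -/
theorem conj_injective (x : CosetSpace N) : Function.Injective (conj x) := by
  induction x using QuotientGroup.induction_on with
  | H g =>
    intro f₁ f₂ h
    refine Subtype.ext (funext fun τ => ?_)
    have := congrFun (congrArg Subtype.val h) (g • τ)
    simpa only [conj_mk_apply, inv_smul_smul] using this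

end Fermat.Agent.X0Analytic
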