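/-
The derivative of `j`, its elliptic values, and surjectivity of `j`.
-/
import Fermat.Agent.X0Analytic.Ser
import Mathlib.NumberTheory.ModularForms.Derivative
import Mathlib.NumberTheory.ModularForms.LevelOne.GradedRing
import Mathlib.NumberTheory.ModularForms.NormTrace

set_option autoImplicit false

noncomputable section

open UpperHalfPlane Filter Topology Function
open scoped Manifold MatrixGroups ModularForm Derivative

namespace Fermat.Agent.X0Analytic

local notation "Δ" => ModularForm.discriminant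

/-- `θ j = (2πi)⁻¹ dj/dτ`, written as `- E₄² E₆ / Δ`. -/
def thetaJ (τ : ℍ) : ℂ := -(ModularForm.E₄ τ ^ 2 * ModularForm.E₆ τ / Δ τ)

theorem modFormClass_isPer {k : ℤ} (f : ModularForm 𝒮ℒ k) : IsPer 1 (f : ℍ → ℂ) := fun τ => by
  rw [Nat.cast_one, ← UpperHalfPlane.modular_T_smul]
  simpa [ModularGroup.T, UpperHalfPlane.denom] using levelOne_smul f ModularGroup.T τ

theorem levelOne_mem {k : ℤ} (f : ModularForm 𝒮ℒ k) : (f : ℍ → ℂ) ∈ perMero 1 :=
  ⟨f.holo', modFormClass_isPer f, 0, by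
    rw [pow_zero, mul_one]
    exact ModularFormClass.bdd_at_infty f⟩

theorem tendsto_levelOne {k : ℤ} (f : ModularForm 𝒮ℒ k) :
    Tendsto (f : ℍ → ℂ) atImInfty (𝓝 ((qExpansion 1 (f : ℍ → ℂ)).coeff 0)) := by
  have hb : IsBoundedAtImInfty (f : ℍ → ℂ) := ModularFormClass.bdd_at_infty f
  have h := tendsto_atImInfty_coeff_zero (⟨_, levelOne_mem f⟩ : ↥(perMero 1)) hb
  have hc := qSer_coeff (⟨_, levelOne_mem f⟩ : ↥(perMero 1)) (m := 0) (by simpa using hb) 0
  simp only [Nat.cast_zero, sub_zero, pow_zero, mul_one, Nat.cast_one] at hc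
  rwa [hc] at h

theorem tendsto_E4 : Tendsto (ModularForm.E₄ : ℍ → ℂ) atImInfty (𝓝 1) := by
  have h := tendsto_levelOne ModularForm.E₄
  rwa [show (qExpansion 1 (ModularForm.E₄ : ℍ → ℂ)).coeff 0 = 1 from
    EisensteinSeries.E_qExpansion_coeff_zero (by norm_num) ⟨2, rfl⟩] at h

theorem tendsto_E6 : Tendsto (ModularForm.E₆ : ℍ → ℂ) atImInfty (𝓝 1) := by
  have h := tendsto_levelOne ModularForm.E₆
  rwa [show (qExpansion 1 (ModularForm.E₆ : ℍ → ℂ)).coeff 0 = 1 from
    EisensteinSeries.E_qExpansion_coeff_zero (by norm_num) ⟨3, rfl⟩] at h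

theorem tendsto_etaQ : Tendsto etaQ atImInfty (𝓝 1) := by
  have hb : IsBoundedAtImInfty etaQ := isBoundedAtImInfty_of_hasSum_qExpansion (hpos 1) hasSum_etaQ
  have h := tendsto_atImInfty_coeff_zero (⟨etaQ, etaQ_mem⟩ : ↥(perMero 1)) hb
  rw [qSer_etaQ, show (0 : ℤ) = ((0 : ℕ) : ℤ) from rfl, HahnSeries.ofPowerSeries_apply_coeff,
    PowerSeries.coeff_map, PowerSeries.coeff_zero_eq_constantCoeff,
    ModularCurve.constantCoeff_etaProd] at h
  simpa using h

theorem tendsto_normalizedDeriv_jFun_mul_discriminant :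
    Tendsto (D jFun * Δ) atImInfty (𝓝 (-1)) := by
  set g : ℍ → ℂ := jFun * qp 1 ^ 1 with hg
  have hgm : MDiff g := by
    rw [hg, pow_one]
    exact jFun_mdiff.mul (qp_mdiff 1)
  have hgp : IsPer 1 g := by
    rw [hg]
    exact jFun_isPer.mul (isPer_qp_pow 1 1)
  set F : ℂ → ℂ := cuspFunction ((1 : ℕ) : ℝ) g with hF
  have hFan : AnalyticAt ℂ F 0 := analyticAt_cuspFunction_zero (hpos 1)
    hgp.periodic_comp_ofComplex hgm jFun_mul_qp_isBounded
  have hF0 : F 0 = 1 := by
    have hc := qSer_coeff (⟨jFun, jFun_mem⟩ : ↥(perMero 1)) (m := 1) jFun_mul_qp_isBounded 0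
    rw [qSer_jFun, UpperHalfPlane.qExpansion_coeff, iteratedDeriv_zero] at hc
    simp only [Nat.cast_zero, Nat.cast_one, zero_sub, jqC_coeff_neg_one, Nat.factorial_zero,
      inv_one, one_mul] at hc
    rw [hF, Nat.cast_one]
    exact hc.symm
  have hid : ∀ τ : ℍ, (D jFun * Δ) τ =
      (deriv F (qp 1 τ) * qp 1 τ - F (qp 1 τ)) * etaQ τ ^ 24 := by
    intro τ
    have hFd : DifferentiableAt ℂ F (qp 1 τ) := differentiableAt_cuspFunction (hpos 1)
      hgp.periodic_comp_ofComplex hgm jFun_mul_qp_isBounded (norm_qp_lt_one 1 τ)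
    have hq : HasDerivAt (Periodic.qParam ((1 : ℕ) : ℝ)) (2 * Real.pi * Complex.I * qp 1 τ)
        (τ : ℂ) := by
      have := (((hasDerivAt_id (τ : ℂ)).const_mul (2 * (Real.pi : ℂ) * Complex.I)).div_const
        (((1 : ℕ) : ℝ) : ℂ)).cexp
      convert this using 1
      all_goals first
        | rfl
        | simp [Periodic.qParam, qp, mul_comm]
        | (funext z; simp [Periodic.qParam, qp, mul_comm])
    have hcomp := (hFd.hasDerivAt.comp (τ : ℂ) hq).div hq (qp_ne_zero 1 τ)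
    have hev : (jFun ∘ ofComplex) =ᶠ[𝓝 (τ : ℂ)]
        ((F ∘ Periodic.qParam ((1 : ℕ) : ℝ)) / Periodic.qParam ((1 : ℕ) : ℝ)) := by
      filter_upwards [isOpen_upperHalfPlaneSet.mem_nhds τ.im_pos] with z hz
      have h := eq_cuspFunction (h := ((1 : ℕ) : ℝ)) (f := g) ⟨z, hz⟩ (hpos 1).ne'
        hgp.periodic_comp_ofComplex
      simp only [Pi.div_apply, Function.comp_apply, ofComplex_apply_of_im_pos hz]
      rw [eq_div_iff (Periodic.qParam_ne_zero _)]
      refine Eq.trans ?_ h.symm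
      rw [hg, Pi.mul_apply, pow_one]
      rfl
    have hd := (hcomp.congr_of_eventuallyEq hev).deriv
    rw [Pi.mul_apply, Derivative.normalizedDerivOfComplex, hd, discriminant_eq, Pi.mul_apply,
      Pi.pow_apply]
    change _ * ((_ * (2 * (Real.pi : ℂ) * Complex.I * qp 1 τ) * qp 1 τ -
      F (qp 1 τ) * (2 * (Real.pi : ℂ) * Complex.I * qp 1 τ)) / qp 1 τ ^ 2) * _ = _
    have := qp_ne_zero 1 τ
    field_simp [Real.pi_ne_zero, Complex.I_ne_zero]
  rw [show (-1 : ℂ) = (deriv F 0 * 0 - F 0) * 1 ^ 24 by rw [hF0]; ring]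
  refine Tendsto.congr (fun τ => (hid τ).symm) ?_
  have hq0 : Tendsto (qp 1) atImInfty (𝓝 0) := qParam_tendsto_atImInfty (hpos 1)
  exact (((hFan.deriv.continuousAt.tendsto.comp hq0).mul hq0).sub
    (hFan.continuousAt.tendsto.comp hq0)).mul (tendsto_etaQ.pow 24)

/-- The form `θj · Δ` of weight `14`. -/
def derivForm : ModularForm 𝒮ℒ 14 where
  toFun := D jFun * Δ
  slash_action_eq' A hA := by
    obtain ⟨γ, rfl⟩ := hA
    have hj : jFun ∣[(0 : ℤ)] γ = jFun := by
      funext τ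
      rw [ModularForm.SL_slash_apply, jFun_smul]
      simp
    have hD : D jFun ∣[(2 : ℤ)] γ = D jFun := by
      have h := Derivative.normalizedDerivOfComplex_SL_slash (k := 0) jFun_mdiff (γ := γ)
      rw [hj] at h
      funext τ
      have := congrFun h τ
      simpa using this.symm
    show (D jFun * Δ) ∣[(14 : ℤ)] γ = _
    rw [show (14 : ℤ) = 2 + 12 from rfl, ModularForm.mul_slash_SL2, hD]
    congr 1
    exact SlashInvariantFormClass.slash_action_eq CuspForm.discriminant _ ⟨γ, rfl⟩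
  holo' := (Derivative.normalizedDerivOfComplex_mdifferentiable jFun_mdiff).mul
    CuspForm.discriminant.holo'
  bdd_at_cusps' {c} hc := by
    rw [OnePoint.isBoundedAt_iff_forall_SL2Z hc]
    intro γ _
    have hj : jFun ∣[(0 : ℤ)] γ = jFun := by
      funext τ
      rw [ModularForm.SL_slash_apply, jFun_smul]
      simp
    have hD : D jFun ∣[(2 : ℤ)] γ = D jFun := by
      have h := Derivative.normalizedDerivOfComplex_SL_slash (k := 0) jFun_mdiff (γ := γ)
      rw [hj] at h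
      funext τ
      have := congrFun h τ
      simpa using this.symm
    have hΔ : Δ ∣[(12 : ℤ)] γ = Δ :=
      SlashInvariantFormClass.slash_action_eq CuspForm.discriminant _ ⟨γ, rfl⟩
    rw [show (14 : ℤ) = 2 + 12 from rfl, ModularForm.mul_slash_SL2, hD, hΔ]
    exact tendsto_normalizedDeriv_jFun_mul_discriminant.isBigO_one ℝ

theorem normalizedDeriv_jFun : D jFun = thetaJ := by
  set M : ModularForm 𝒮ℒ 14 := ModularForm.mcast (by norm_num)
    ((ModularForm.E₄.mul ModularForm.E₄).mul ModularForm.E₆) with hM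
  have hMval : ∀ τ, M τ = ModularForm.E₄ τ ^ 2 * ModularForm.E₆ τ := fun τ => by
    rw [sq]; rfl
  have hMtend : Tendsto (M : ℍ → ℂ) atImInfty (𝓝 1) := by
    rw [show (1 : ℂ) = 1 ^ 2 * 1 by norm_num]
    exact ((tendsto_E4.pow 2).mul tendsto_E6).congr fun τ => (hMval τ).symm
  have hM0 : M ≠ 0 := fun h => by
    rw [h] at hMtend
    exact zero_ne_one (tendsto_nhds_unique tendsto_const_nhds hMtend)
  have hrank : Module.rank ℂ (ModularForm 𝒮ℒ 14) = 1 := by
    have := ModularForm.dimension_level_one 14 ⟨7, rfl⟩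
    simpa [Nat.ModEq] using this
  obtain ⟨c, hc⟩ := (finrank_eq_one_iff_of_nonzero' M hM0).mp
    (Module.rank_eq_one_iff_finrank_eq_one.mp hrank) derivForm
  have hcval : ∀ τ, (D jFun * Δ) τ = c * M τ := fun τ =>
    (congrArg (fun f : ModularForm 𝒮ℒ 14 => f τ) hc).symm
  have hc1 : c = -1 := by
    have := (hMtend.const_mul c).congr fun τ => (hcval τ).symm
    rw [mul_one] at this
    exact tendsto_nhds_unique this tendsto_normalizedDeriv_jFun_mul_discriminant
  funext τ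
  have h := hcval τ
  rw [hc1, hMval, Pi.mul_apply] at h
  rw [thetaJ, neg_div', eq_div_iff (ModularForm.discriminant_ne_zero τ), h]
  ring

theorem deriv_jFun (τ : ℍ) :
    deriv (jFun ∘ ofComplex) τ = 2 * Real.pi * Complex.I * thetaJ τ := by
  rw [← normalizedDeriv_jFun, Derivative.normalizedDerivOfComplex]
  field_simp [Real.pi_ne_zero, Complex.I_ne_zero]

/-! ### Elliptic points -/

/-- The elliptic point `ρ = (-1 + √-3)/2`. -/
def rhoPt : ℍ := ⟨⟨-1 / 2, Real.sqrt 3 / 2⟩, by simp⟩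

theorem rhoPt_sq : (rhoPt : ℂ) ^ 2 + rhoPt + 1 = 0 := by
  apply Complex.ext <;> simp [rhoPt, sq] <;>
    nlinarith [Real.mul_self_sqrt (show (0 : ℝ) ≤ 3 by norm_num)]

theorem coe_ST_smul (τ : ℍ) :
    (((ModularGroup.S * ModularGroup.T) • τ : ℍ) : ℂ) = -1 / ((τ : ℂ) + 1) := by
  rw [mul_smul, UpperHalfPlane.modular_T_smul, UpperHalfPlane.modular_S_smul]
  simp only [UpperHalfPlane.coe_vadd]
  push_cast
  rw [inv_neg, neg_div, one_div, add_comm]

theorem ST_smul_rhoPt : (ModularGroup.S * ModularGroup.T) • rhoPt = rhoPt := by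
  apply UpperHalfPlane.ext
  have h := rhoPt_sq
  have hne : (rhoPt : ℂ) + 1 ≠ 0 := fun h0 => by
    have := congrArg Complex.im h0
    simp [rhoPt] at this
  rw [coe_ST_smul, div_eq_iff hne]
  linear_combination -h

theorem E4_rhoPt : ModularForm.E₄ rhoPt = 0 := by
  have h := levelOne_smul ModularForm.E₄ (ModularGroup.S * ModularGroup.T) rhoPt
  rw [ST_smul_rhoPt] at h
  have hden : UpperHalfPlane.denom ((ModularGroup.S * ModularGroup.T : SL(2, ℤ)) : GL (Fin 2) ℝ)
      (rhoPt : ℂ) = (rhoPt : ℂ) + 1 := by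
    simp [UpperHalfPlane.denom, ModularGroup.S, ModularGroup.T, Matrix.mul_apply,
      Fin.sum_univ_two]
  rw [hden] at h
  have hpow : ((rhoPt : ℂ) + 1) ^ (4 : ℤ) = (rhoPt : ℂ) ^ 2 * ((rhoPt : ℂ) ^ 2 + rhoPt + 1) +
      3 * rhoPt * ((rhoPt : ℂ) ^ 2 + rhoPt + 1) + 2 * ((rhoPt : ℂ) ^ 2 + rhoPt + 1) - rhoPt - 1 := by
    rw [show (4 : ℤ) = ((4 : ℕ) : ℤ) from rfl, zpow_natCast]
    ring
  rw [hpow, rhoPt_sq] at h
  have hne : (rhoPt : ℂ) + 2 ≠ 0 := fun h0 => by
    have := congrArg Complex.im h0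
    simp [rhoPt] at this
  have : ((rhoPt : ℂ) + 2) * ModularForm.E₄ rhoPt = 0 := by linear_combination h
  exact (mul_eq_zero.mp this).resolve_left hne

theorem S_smul_I : ModularGroup.S • UpperHalfPlane.I = UpperHalfPlane.I := by
  apply UpperHalfPlane.ext
  rw [UpperHalfPlane.modular_S_smul]
  simp

theorem E6_I : ModularForm.E₆ UpperHalfPlane.I = 0 := by
  have h := levelOne_smul ModularForm.E₆ ModularGroup.S UpperHalfPlane.I
  rw [S_smul_I] at h
  have hden : UpperHalfPlane.denom ((ModularGroup.S : SL(2, ℤ)) : GL (Fin 2) ℝ)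
      (UpperHalfPlane.I : ℂ) = Complex.I := by
    simp [UpperHalfPlane.denom, ModularGroup.S]
  rw [hden, show (Complex.I : ℂ) ^ (6 : ℤ) = -1 by
    rw [show (6 : ℤ) = ((6 : ℕ) : ℤ) from rfl, zpow_natCast]
    linear_combination (Complex.I ^ 4 - Complex.I ^ 2 + 1) * Complex.I_sq] at h
  linear_combination h / 2

theorem jFun_rhoPt : jFun rhoPt = 0 := by rw [jFun, E4_rhoPt]; simp

theorem jFun_sub_1728 (τ : ℍ) : jFun τ - 1728 = ModularForm.E₆ τ ^ 2 / Δ τ := by
  have h := ModularForm.discriminant_eq_E₄_cube_sub_E₆_sq τ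
  have hΔ := ModularForm.discriminant_ne_zero τ
  rw [jFun]
  field_simp
  linear_combination -1728 * h

theorem jFun_I : jFun UpperHalfPlane.I = 1728 := by
  have := jFun_sub_1728 UpperHalfPlane.I
  rw [E6_I] at this
  simpa [sub_eq_zero] using this

theorem thetaJ_ne_zero {τ : ℍ} (h0 : jFun τ ≠ 0) (h1728 : jFun τ ≠ 1728) : thetaJ τ ≠ 0 := by
  have h4 : ModularForm.E₄ τ ≠ 0 := fun h => h0 (by rw [jFun, h]; simp)
  have h6 : ModularForm.E₆ τ ≠ 0 := fun h =>
    h1728 (sub_eq_zero.mp (by rw [jFun_sub_1728, h]; simp))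
  rw [thetaJ, neg_ne_zero]
  exact div_ne_zero (mul_ne_zero (pow_ne_zero _ h4) h6) (ModularForm.discriminant_ne_zero τ)

/-- `j` takes every value. -/
theorem exists_jFun_eq (c : ℂ) : ∃ τ : ℍ, jFun τ = c := by
  by_contra! hne
  set g : ℍ → ℂ := fun τ => ModularForm.E₄ τ ^ 3 - c * Δ τ with hg
  have hg0 : ∀ τ, g τ ≠ 0 := fun τ h => hne τ (by
    rw [jFun, div_eq_iff (ModularForm.discriminant_ne_zero τ)]
    exact sub_eq_zero.mp h)
  have hginv : ∀ (γ : SL(2, ℤ)) (τ : ℍ),
      g (γ • τ) = UpperHalfPlane.denom (γ : GL (Fin 2) ℝ) τ ^ (12 : ℤ) * g τ := by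
    intro γ τ
    simp only [hg, levelOne_smul, discriminant_smul, mul_pow]
    rw [← zpow_natCast (_ ^ (4 : ℤ)) 3, ← zpow_mul]
    norm_num
    ring
  have hgtend : Tendsto g atImInfty (𝓝 1) := by
    have h1 : Tendsto (fun τ => ModularForm.E₄ τ ^ 3 - c * Δ τ) atImInfty (𝓝 (1 ^ 3 - c * 0)) :=
      (tendsto_E4.pow 3).sub (ModularForm.discriminant_isZeroAtImInfty.const_mul c)
    simpa using h1
  have hslash : ∀ γ : SL(2, ℤ), (fun τ => (g τ)⁻¹) ∣[(-12 : ℤ)] γ = fun τ => (g τ)⁻¹ := by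
    intro γ
    funext τ
    rw [ModularForm.SL_slash_apply, hginv]
    have := UpperHalfPlane.denom_ne_zero (γ : GL (Fin 2) ℝ) τ
    have := hg0 τ
    rw [show (-(-12 : ℤ)) = 12 by norm_num]
    field_simp
  let G : ModularForm 𝒮ℒ (-12) :=
    { toFun := fun τ => (g τ)⁻¹
      slash_action_eq' := fun A hA => by
        obtain ⟨A, rfl⟩ := hA
        exact hslash A
      holo' := by
        rw [UpperHalfPlane.mdifferentiable_iff]
        have h1 : MDiff g := by
          rw [UpperHalfPlane.mdifferentiable_iff]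
          exact ((UpperHalfPlane.mdifferentiable_iff.mp ModularForm.E₄.holo').fun_pow 3).sub
            ((UpperHalfPlane.mdifferentiable_iff.mp CuspForm.discriminant.holo').const_mul c)
        exact (UpperHalfPlane.mdifferentiable_iff.mp h1).inv fun z hz => hg0 _
      bdd_at_cusps' := fun {p} hp => by
        rw [OnePoint.isBoundedAt_iff_forall_SL2Z hp]
        intro γ _
        rw [hslash γ]
        exact (hgtend.inv₀ one_ne_zero).isBigO_one ℝ }
  have hG := ModularFormClass.levelOne_neg_weight_eq_zero (by norm_num) G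
  exact inv_ne_zero (hg0 UpperHalfPlane.I) (congrFun hG UpperHalfPlane.I)

end Fermat.Agent.X0Analytic
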