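/-
Embeddings of the modular function field attached to points of `ℍ`, and the local behaviour of `j`.
-/
import Fermat.Agent.X0Analytic.Taylor
import Fermat.Agent.X0Analytic.Theta
import Fermat.Agent.X0Analytic.Degree
import Mathlib.RingTheory.RootsOfUnity.PrimitiveRoots

set_option autoImplicit false

noncomputable section

open UpperHalfPlane Filter Topology Function Complex
open scoped Manifold MatrixGroups ComplexConjugate

namespace Fermat.Agent.X0Analytic

open Gamma0Count (CosetSpace)

/-- The embedding of power series into Laurent series over `ℂ`. -/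
abbrev psL : PowerSeries ℂ →+* LaurentSeries ℂ := HahnSeries.ofPowerSeries ℤ ℂ

theorem psL_injective : Function.Injective psL := HahnSeries.ofPowerSeries_injective

theorem order_psL {P : PowerSeries ℂ} {n : ℕ} (hn : P.coeff n ≠ 0)
    (hlt : ∀ i < n, P.coeff i = 0) : (psL P).order = n := by
  have h0 : (psL P).coeff (n : ℤ) ≠ 0 := by rwa [HahnSeries.ofPowerSeries_apply_coeff]
  refine le_antisymm (HahnSeries.order_le_of_coeff_ne_zero h0) ?_
  by_contra hcon
  rw [not_le] at hcon
  have hne : psL P ≠ 0 := fun h => h0 (by rw [h]; rfl)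
  refine hne (HahnSeries.coeff_order_eq_zero.mp ?_)
  rcases lt_or_ge (psL P).order 0 with h | h
  · exact ModularCurve.ofPowerSeries_coeff_of_neg _ h
  · obtain ⟨i, hi⟩ := Int.eq_ofNat_of_zero_le h
    rw [hi, HahnSeries.ofPowerSeries_apply_coeff]
    exact hlt i (by omega)

theorem order_psL_of_constantCoeff {P : PowerSeries ℂ} (h : PowerSeries.constantCoeff P ≠ 0) :
    (psL P).order = 0 := by
  simpa using order_psL (n := 0) (by simpa using h) (by simp)

theorem order_psL_of_simple_zero {P : PowerSeries ℂ} (h0 : PowerSeries.constantCoeff P = 0)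
    (h1 : PowerSeries.constantCoeff (PowerSeries.derivative ℂ P) ≠ 0) : (psL P).order = 1 := by
  have h1' : P.coeff 1 ≠ 0 := by
    rw [← PowerSeries.coeff_zero_eq_constantCoeff, PowerSeries.coeff_derivative] at h1
    simpa using h1
  exact_mod_cast order_psL (n := 1) h1' (fun i hi => by
    rw [Nat.lt_one_iff.mp hi, PowerSeries.coeff_zero_eq_constantCoeff, h0])

theorem order_psL_derivative {P : PowerSeries ℂ} (h0 : PowerSeries.constantCoeff P = 0)
    (hP : P ≠ 0) : (psL (PowerSeries.derivative ℂ P)).order = (psL P).order - 1 := by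
  classical
  have hex : ∃ n, P.coeff n ≠ 0 := by
    by_contra! h
    exact hP (PowerSeries.ext fun n => by simpa using h n)
  set n := Nat.find hex with hn
  have hspec := Nat.find_spec hex
  have hmin : ∀ i < n, P.coeff i = 0 := fun i hi => not_not.mp (Nat.find_min hex hi)
  have hn0 : n ≠ 0 := fun h => hspec (by
    rw [← hn, h, PowerSeries.coeff_zero_eq_constantCoeff, h0])
  obtain ⟨k, hk⟩ := Nat.exists_eq_succ_of_ne_zero hn0
  rw [order_psL hspec hmin, order_psL (n := k) ?_ ?_, ← hn, hk]
  · push_cast; ring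
  · rw [PowerSeries.coeff_derivative, ← Nat.succ_eq_add_one, ← hk]
    exact mul_ne_zero hspec (by exact_mod_cast Nat.succ_ne_zero k)
  · intro i hi
    rw [PowerSeries.coeff_derivative, hmin _ (by omega), zero_mul]

theorem rot_psL_coeff {ζ : ℂ} (hζ : ζ ≠ 0) {P Q : PowerSeries ℂ}
    (h : ∀ n, Q.coeff n = ζ ^ n * P.coeff n) : psL Q = rot ζ hζ (psL P) := by
  ext n
  rw [rot_coeff]
  rcases lt_or_ge n 0 with hn | hn
  · rw [ModularCurve.ofPowerSeries_coeff_of_neg _ hn, ModularCurve.ofPowerSeries_coeff_of_neg _ hn,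
      mul_zero]
  · obtain ⟨i, rfl⟩ := Int.eq_ofNat_of_zero_le hn
    rw [HahnSeries.ofPowerSeries_apply_coeff, HahnSeries.ofPowerSeries_apply_coeff, h, zpow_natCast]

/-- `j` as a holomorphic function. -/
def jHol : Hol := ⟨jFun, jFun_mdiff⟩

/-- `E₄`, `E₆`, `Δ` as holomorphic functions. -/
def e4Hol : Hol := ⟨(ModularForm.E₄ : ℍ → ℂ), ModularForm.E₄.holo'⟩

/-- `E₆` as a holomorphic function. -/
def e6Hol : Hol := ⟨(ModularForm.E₆ : ℍ → ℂ), ModularForm.E₆.holo'⟩

/-- `Δ` as a holomorphic function. -/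
def deltaHol : Hol := ⟨ModularForm.discriminant, CuspForm.discriminant.holo'⟩

theorem thetaJ_mdiff : MDiff thetaJ := by
  rw [← normalizedDeriv_jFun]
  exact Derivative.normalizedDerivOfComplex_mdifferentiable jFun_mdiff

/-- `θj` as a holomorphic function. -/
def thetaHol : Hol := ⟨thetaJ, thetaJ_mdiff⟩

theorem thetaHol_mul_deltaHol : thetaHol * deltaHol = -(e4Hol ^ 2 * e6Hol) :=
  Subtype.ext (funext fun τ => by
    show -(ModularForm.E₄ τ ^ 2 * ModularForm.E₆ τ / ModularForm.discriminant τ) *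
      ModularForm.discriminant τ = -(ModularForm.E₄ τ ^ 2 * ModularForm.E₆ τ)
    rw [neg_mul, div_mul_cancel₀ _ (ModularForm.discriminant_ne_zero τ)])

theorem jHol_mul_deltaHol : jHol * deltaHol = e4Hol ^ 3 :=
  Subtype.ext (funext fun τ => div_mul_cancel₀ _ (ModularForm.discriminant_ne_zero τ))

theorem jHol_sub_mul_deltaHol : (jHol - algebraMap ℂ Hol 1728) * deltaHol = e6Hol ^ 2 :=
  Subtype.ext (funext fun τ => by
    show (jFun τ - 1728) * ModularForm.discriminant τ = ModularForm.E₆ τ ^ 2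
    rw [jFun_sub_1728, div_mul_cancel₀ _ (ModularForm.discriminant_ne_zero τ)])

/-- The series of `j - c` at `τ`. -/
def jSeries (τ : ℍ) (c : ℂ) : PowerSeries ℂ := tayHom τ (jHol - algebraMap ℂ Hol c)

theorem constantCoeff_jSeries (τ : ℍ) (c : ℂ) :
    PowerSeries.constantCoeff (jSeries τ c) = jFun τ - c :=
  constantCoeff_tayHom τ _

theorem jSeries_ne_zero (τ : ℍ) (c : ℂ) : jSeries τ c ≠ 0 := by
  refine (map_ne_zero_iff _ (tayHom_injective τ)).mpr fun h => ?_
  have hj : ∀ z, jFun z = c := fun z => sub_eq_zero.mp (congrFun (congrArg Subtype.val h) z)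
  have h1 := hj rhoPt
  rw [jFun_rhoPt] at h1
  have h2 := hj UpperHalfPlane.I
  rw [jFun_I, ← h1] at h2
  norm_num at h2

/-- The derivative of the series of `j - c`. -/
theorem derivative_jSeries (τ : ℍ) (c : ℂ) :
    ∃ W : PowerSeries ℂ, PowerSeries.constantCoeff W ≠ 0 ∧
      PowerSeries.derivative ℂ (jSeries τ c) = W * tayHom τ thetaHol := by
  have hg : MDiff (fun z : ℍ => 2 * Real.pi * Complex.I * thetaJ z) :=
    (mem_holFun).mp (mul_mem (Subalgebra.algebraMap_mem holFun _) thetaHol.2)
  have h := derivative_tayHom τ (jHol - algebraMap ℂ Hol c) hg fun z => by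
    show deriv (fun w => jFun (ofComplex w) - c) z = _
    rw [deriv_sub_const]
    exact deriv_jFun z
  refine ⟨PowerSeries.C (2 * Real.pi * Complex.I) *
    taylorPS (fun t => ((τ : ℂ) - conj (τ : ℂ)) / (1 - t) ^ 2), ?_, ?_⟩
  · rw [map_mul, PowerSeries.constantCoeff_C]
    exact mul_ne_zero (by simp [Real.pi_ne_zero]) (taylorPS_chart_deriv_ne_zero τ)
  · rw [jSeries, h, show (⟨_, hg⟩ : Hol) = algebraMap ℂ Hol (2 * Real.pi * Complex.I) * thetaHol
      from rfl, map_mul, tayHom_algebraMap]
    ring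

/-- `θj` vanishes one order less than `j - c`. -/
theorem order_thetaHol {τ : ℍ} {c : ℂ} (hc : jFun τ = c) :
    (psL (tayHom τ thetaHol)).order = (psL (jSeries τ c)).order - 1 := by
  obtain ⟨W, hW, hd⟩ := derivative_jSeries τ c
  have h0 : PowerSeries.constantCoeff (jSeries τ c) = 0 := by
    rw [constantCoeff_jSeries, hc, sub_self]
  rw [← order_psL_derivative h0 (jSeries_ne_zero τ c), hd, map_mul]
  have hθ : tayHom τ thetaHol ≠ 0 := by
    refine (map_ne_zero_iff _ (tayHom_injective τ)).mpr fun h => ?_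
    obtain ⟨z, hz⟩ := exists_jFun_eq 1
    exact thetaJ_ne_zero (τ := z) (by rw [hz]; exact one_ne_zero) (by rw [hz]; norm_num)
      (congrFun (congrArg Subtype.val h) z)
  rw [HahnSeries.order_mul ((map_ne_zero_iff _ psL_injective).mpr
      (fun h => hW (by rw [h, map_zero]))) ((map_ne_zero_iff _ psL_injective).mpr hθ),
    order_psL_of_constantCoeff hW, zero_add]

theorem constantCoeff_tay_delta (τ : ℍ) :
    PowerSeries.constantCoeff (tayHom τ deltaHol) ≠ 0 := by
  rw [constantCoeff_tayHom]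
  exact ModularForm.discriminant_ne_zero τ

theorem order_jSeries_generic {τ : ℍ} (h0 : jFun τ ≠ 0) (h1728 : jFun τ ≠ 1728) :
    (psL (jSeries τ (jFun τ))).order = 1 := by
  obtain ⟨W, hW, hd⟩ := derivative_jSeries τ (jFun τ)
  refine order_psL_of_simple_zero (by rw [constantCoeff_jSeries, sub_self]) ?_
  rw [hd, map_mul, constantCoeff_tayHom]
  exact mul_ne_zero hW (thetaJ_ne_zero h0 h1728)

theorem E6_ne_zero_of_E4_eq_zero {τ : ℍ} (h : ModularForm.E₄ τ = 0) : ModularForm.E₆ τ ≠ 0 := by
  intro h6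
  apply ModularForm.discriminant_ne_zero τ
  rw [ModularForm.discriminant_eq_E₄_cube_sub_E₆_sq, h, h6]
  simp

theorem order_jSeries_zero {τ : ℍ} (hE : ModularForm.E₄ τ = 0) :
    (psL (jSeries τ 0)).order = 3 := by
  obtain ⟨W, hW, hd⟩ := derivative_jSeries τ 0
  set e := tayHom τ e4Hol with he
  set s := tayHom τ e6Hol with hs
  set d := tayHom τ deltaHol with hdd
  set P := jSeries τ 0 with hP
  have hPd : P * d = e ^ 3 := by
    rw [hP, jSeries, map_zero, sub_zero, hdd, ← map_mul, jHol_mul_deltaHol, map_pow]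
  have hθd : tayHom τ thetaHol * d = -(e ^ 2 * s) := by
    rw [hdd, ← map_mul, thetaHol_mul_deltaHol, map_neg, map_mul, map_pow]
  have hD := congrArg (PowerSeries.derivative ℂ) hPd
  rw [Derivation.leibniz, Derivation.leibniz_pow] at hD
  simp only [smul_eq_mul, nsmul_eq_mul, hd, Nat.cast_ofNat] at hD
  have he0 : e ≠ 0 := by
    refine (map_ne_zero_iff _ (tayHom_injective τ)).mpr fun h => ?_
    have := congrFun (congrArg Subtype.val h) UpperHalfPlane.I
    refine E6_ne_zero_of_E4_eq_zero (τ := UpperHalfPlane.I) this E6_I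
  have key : 3 * PowerSeries.derivative ℂ e * d = e * PowerSeries.derivative ℂ d - W * s * d := by
    apply mul_left_cancel₀ (pow_ne_zero 2 he0)
    linear_combination (-d) * hD + (PowerSeries.derivative ℂ d) * hPd + d * W * hθd
  have hk := congrArg PowerSeries.constantCoeff key
  simp only [map_mul, map_sub] at hk
  have he00 : PowerSeries.constantCoeff e = 0 := by
    rw [he, constantCoeff_tayHom]; exact hE
  have hs00 : PowerSeries.constantCoeff s ≠ 0 := by
    rw [hs, constantCoeff_tayHom]; exact E6_ne_zero_of_E4_eq_zero hE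
  have hd00 := constantCoeff_tay_delta τ
  rw [he00, zero_mul, zero_sub] at hk
  have he1 : PowerSeries.constantCoeff (PowerSeries.derivative ℂ e) ≠ 0 := by
    intro h
    rw [h, mul_zero, zero_mul, zero_eq_neg] at hk
    exact mul_ne_zero (mul_ne_zero hW hs00) hd00 hk
  have ho := order_psL_of_simple_zero he00 he1
  have hmul := congrArg (fun z => (psL z).order) hPd
  simp only [map_mul, map_pow] at hmul
  have hne : ∀ {z : PowerSeries ℂ}, z ≠ 0 → psL z ≠ 0 := fun h =>
    (map_ne_zero_iff _ psL_injective).mpr h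
  rw [HahnSeries.order_mul (hne (jSeries_ne_zero τ 0))
    (hne fun h => hd00 (by rw [← hdd, h, map_zero])), order_psL_of_constantCoeff hd00, add_zero,
    HahnSeries.order_pow, ho] at hmul
  simpa using hmul

theorem order_jSeries_1728 {τ : ℍ} (hE : ModularForm.E₆ τ = 0) :
    (psL (jSeries τ 1728)).order = 2 := by
  obtain ⟨W, hW, hd⟩ := derivative_jSeries τ 1728
  set e := tayHom τ e4Hol with he
  set s := tayHom τ e6Hol with hs
  set d := tayHom τ deltaHol with hdd
  set P := jSeries τ 1728 with hP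
  have hPd : P * d = s ^ 2 := by
    rw [hP, jSeries, hdd, ← map_mul, jHol_sub_mul_deltaHol, map_pow]
  have hθd : tayHom τ thetaHol * d = -(e ^ 2 * s) := by
    rw [hdd, ← map_mul, thetaHol_mul_deltaHol, map_neg, map_mul, map_pow]
  have hD := congrArg (PowerSeries.derivative ℂ) hPd
  rw [Derivation.leibniz, Derivation.leibniz_pow] at hD
  simp only [smul_eq_mul, nsmul_eq_mul, hd, Nat.cast_ofNat] at hD
  have hs0 : s ≠ 0 := by
    refine (map_ne_zero_iff _ (tayHom_injective τ)).mpr fun h => ?_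
    exact E6_ne_zero_of_E4_eq_zero E4_rhoPt (congrFun (congrArg Subtype.val h) rhoPt)
  have key : 2 * PowerSeries.derivative ℂ s * d =
      s * PowerSeries.derivative ℂ d - W * e ^ 2 * d := by
    apply mul_left_cancel₀ hs0
    linear_combination (-d) * hD + (PowerSeries.derivative ℂ d) * hPd + d * W * hθd
  have hk := congrArg PowerSeries.constantCoeff key
  simp only [map_mul, map_sub, map_pow] at hk
  have hs00 : PowerSeries.constantCoeff s = 0 := by
    rw [hs, constantCoeff_tayHom]; exact hE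
  have he00 : PowerSeries.constantCoeff e ≠ 0 := by
    rw [he, constantCoeff_tayHom]
    exact fun h => E6_ne_zero_of_E4_eq_zero h hE
  have hd00 := constantCoeff_tay_delta τ
  rw [hs00, zero_mul, zero_sub] at hk
  have hs1 : PowerSeries.constantCoeff (PowerSeries.derivative ℂ s) ≠ 0 := by
    intro h
    rw [h, mul_zero, zero_mul, zero_eq_neg] at hk
    exact mul_ne_zero (mul_ne_zero hW (pow_ne_zero _ he00)) hd00 hk
  have ho := order_psL_of_simple_zero hs00 hs1
  have hmul := congrArg (fun z => (psL z).order) hPd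
  simp only [map_mul, map_pow] at hmul
  have hne : ∀ {z : PowerSeries ℂ}, z ≠ 0 → psL z ≠ 0 := fun h =>
    (map_ne_zero_iff _ psL_injective).mpr h
  rw [HahnSeries.order_mul (hne (jSeries_ne_zero τ 1728))
    (hne fun h => hd00 (by rw [← hdd, h, map_zero])), order_psL_of_constantCoeff hd00, add_zero,
    HahnSeries.order_pow, ho] at hmul
  simpa using hmul

theorem eq_E4_zero_of_jFun_zero {τ : ℍ} (h : jFun τ = 0) : ModularForm.E₄ τ = 0 := by
  rw [jFun, div_eq_zero_iff] at h
  exact pow_eq_zero_iff (three_ne_zero) |>.mp (h.resolve_right (ModularForm.discriminant_ne_zero τ))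

/-! ### Rotations at the elliptic points -/

theorem rhoPt_cube : (rhoPt : ℂ) ^ 3 = 1 := by
  linear_combination ((rhoPt : ℂ) - 1) * rhoPt_sq

theorem rhoPt_primitive : IsPrimitiveRoot (rhoPt : ℂ) 3 := by
  refine IsPrimitiveRoot.mk_of_lt _ (by norm_num) rhoPt_cube fun l hl hl3 h => ?_
  interval_cases l <;>
  · have := congrArg Complex.im h
    simp [rhoPt, sq, Complex.mul_im] at this
    try linarith [Real.sqrt_pos.mpr (show (0 : ℝ) < 3 by norm_num)]

theorem conj_rhoPt : conj (rhoPt : ℂ) = -1 - (rhoPt : ℂ) := by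
  apply Complex.ext <;> simp [rhoPt]
  norm_num

theorem chart_rot_rho {t : ℂ} (ht : t ∈ Metric.ball (0 : ℂ) 1) :
    ((ModularGroup.S * ModularGroup.T)⁻¹ : SL(2, ℤ)) •
        ofComplex (chart rhoPt t) = ofComplex (chart rhoPt ((rhoPt : ℂ) * t)) := by
  have hn : ‖(rhoPt : ℂ)‖ = 1 := Complex.norm_eq_one_of_pow_eq_one rhoPt_cube (by norm_num)
  have hu : (rhoPt : ℂ) * t ∈ Metric.ball (0 : ℂ) 1 := by
    rw [Metric.mem_ball, dist_zero_right] at ht ⊢
    rw [norm_mul, hn, one_mul]
    exact ht
  rw [inv_smul_eq_iff]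
  apply UpperHalfPlane.ext
  have h1 := im_chart_pos rhoPt ht
  have h2 := im_chart_pos rhoPt hu
  have hv : chart rhoPt ((rhoPt : ℂ) * t) + 1 ≠ 0 := fun h => by
    have := congrArg Complex.im h
    simp at this
    linarith
  rw [coe_ST_smul, ofComplex_apply_of_im_pos h1, ofComplex_apply_of_im_pos h2]
  show chart rhoPt t = -1 / (chart rhoPt ((rhoPt : ℂ) * t) + 1)
  rw [eq_div_iff hv]
  have ha := one_sub_ne_zero_of_mem ht
  have hb := one_sub_ne_zero_of_mem hu
  simp only [chart, conj_rhoPt]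
  rw [div_add_one hb, div_mul_div_comm, div_eq_iff (mul_ne_zero ha hb)]
  linear_combination (1 + (rhoPt : ℂ) * t + (rhoPt : ℂ) * t ^ 2) * rhoPt_sq

theorem I_primitive : IsPrimitiveRoot (-1 : ℂ) 2 :=
  IsPrimitiveRoot.neg_one 0 (by norm_num)

theorem chart_rot_I {t : ℂ} (ht : t ∈ Metric.ball (0 : ℂ) 1) :
    (ModularGroup.S⁻¹ : SL(2, ℤ)) • ofComplex (chart UpperHalfPlane.I t) =
      ofComplex (chart UpperHalfPlane.I ((-1 : ℂ) * t)) := by
  have hu : (-1 : ℂ) * t ∈ Metric.ball (0 : ℂ) 1 := by simpa using ht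
  rw [inv_smul_eq_iff, UpperHalfPlane.modular_S_smul]
  apply UpperHalfPlane.ext
  have h1 := im_chart_pos UpperHalfPlane.I ht
  have h2 := im_chart_pos UpperHalfPlane.I hu
  rw [ofComplex_apply_of_im_pos h1, ofComplex_apply_of_im_pos h2]
  show chart UpperHalfPlane.I t = (-chart UpperHalfPlane.I ((-1 : ℂ) * t))⁻¹
  refine eq_inv_of_mul_eq_one_left ?_
  have ha := one_sub_ne_zero_of_mem ht
  have hb := one_sub_ne_zero_of_mem hu
  simp only [chart, UpperHalfPlane.coe_I, Complex.conj_I]
  rw [neg_div', div_mul_div_comm, div_eq_one_iff_eq (mul_ne_zero ha hb)]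
  linear_combination (-(1 + t) * (1 - t)) * Complex.I_sq

/-! ### The embeddings -/

universe u

variable {L : Type u} [Field L] [Algebra ℚ L] {N : ℕ} [NeZero N] (φ : L →+* ℂ)

theorem perToHol_injective : Function.Injective (perToHol N) :=
  Subalgebra.inclusion_injective _

/-- Taylor series at `τ` of the conjugate attached to `x`. -/
def pointHom (τ : ℍ) (x : CosetSpace N) : ↥(modFun N) →+* LaurentSeries ℂ :=
  psL.comp ((tayHom τ).comp ((perToHol N).toRingHom.comp (X0Analytic.conj x).toRingHom))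

theorem pointHom_apply (τ : ℍ) (x : CosetSpace N) (f : ↥(modFun N)) :
    pointHom τ x f = psL (tayHom τ (perToHol N (X0Analytic.conj x f))) :=
  rfl

theorem pointHom_injective (τ : ℍ) (x : CosetSpace N) :
    Function.Injective (pointHom (N := N) τ x) :=
  psL_injective.comp ((tayHom_injective τ).comp (perToHol_injective.comp (conj_injective x)))

/-- The embedding attached to a point and a coset. -/
def embPoint (τ : ℍ) (x : CosetSpace N) : ↥(FLevel L N) →+* LaurentSeries ℂ :=
  fieldHom φ (pointHom τ x) (pointHom_injective τ x)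

theorem embPoint_algToField (τ : ℍ) (x : CosetSpace N) (a : ↥(algGen L N)) :
    embPoint φ τ x (algToField L N a) = psL (tayHom τ (perToHol N (X0Analytic.conj x (toModFun φ a)))) :=
  fieldHom_algToField φ _ _ a

theorem embPoint_algebraMap (τ : ℍ) (x : CosetSpace N) (c : L) :
    embPoint φ τ x (algebraMap L ↥(FLevel L N) c) = HahnSeries.single 0 (φ c) := by
  refine (fieldHom_algebraMap φ _ _ c).trans ?_
  rw [pointHom_apply, AlgHom.commutes, AlgHom.commutes, tayHom_algebraMap,
    HahnSeries.ofPowerSeries_C]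
  rfl

theorem perToHol_conj_jMod (x : CosetSpace N) : perToHol N (X0Analytic.conj x (jMod N)) = jHol :=
  Subtype.ext (funext fun τ => conj_jMod_apply x τ)

theorem embPoint_jEl_sub (τ : ℍ) (x : CosetSpace N) (c : L) :
    embPoint φ τ x (jEl L N - algebraMap L ↥(FLevel L N) c) = psL (jSeries τ (φ c)) := by
  rw [map_sub, embPoint_algebraMap, jEl, embPoint_algToField, toModFun_jAlg, perToHol_conj_jMod,
    jSeries, map_sub (tayHom τ), map_sub psL, tayHom_algebraMap, HahnSeries.ofPowerSeries_C]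
  rfl

theorem embPoint_injective (τ : ℍ) : Function.Injective (embPoint (L := L) (N := N) φ τ) := by
  intro x y h
  have h1 := RingHom.congr_fun h (algToField L N
    ⟨jL L N, Algebra.subset_adjoin ⟨N, inferInstance, dvd_rfl, rfl⟩⟩)
  rw [embPoint_algToField, embPoint_algToField, toModFun_jL φ dvd_rfl] at h1
  exact conj_scaledJ_injective (perToHol_injective (tayHom_injective τ (psL_injective h1)))

/-- A rotation of the disc coordinate acts on the embeddings by `rot`. -/
theorem embPoint_smul (τ : ℍ) (σ : SL(2, ℤ)) {ζ : ℂ} (hζ : ζ ≠ 0)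
    (h : ∀ t ∈ Metric.ball (0 : ℂ) 1,
      (σ⁻¹ : SL(2, ℤ)) • ofComplex (chart τ t) = ofComplex (chart τ (ζ * t)))
    (x : CosetSpace N) :
    embPoint (L := L) φ τ (σ • x) = (rot ζ hζ).comp (embPoint φ τ x) := by
  refine IsFractionRing.ringHom_ext (A := ↥(algGen L N)) fun a => ?_
  show embPoint φ τ (σ • x) (algToField L N a) = rot ζ hζ (embPoint φ τ x (algToField L N a))
  rw [embPoint_algToField, embPoint_algToField]
  refine rot_psL_coeff hζ fun n => coeff_tayHom_of_rotate τ _ _ ζ ?_ n
  filter_upwards [Metric.ball_mem_nhds (0 : ℂ) one_pos] with t ht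
  show (X0Analytic.conj (σ • x) (toModFun φ a) : ℍ → ℂ) _ = (X0Analytic.conj x (toModFun φ a) : ℍ → ℂ) _
  rw [conj_smul_apply, h t ht]

end Fermat.Agent.X0Analytic
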