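import Fermat.Agent.FunctionFieldRR.PlaceExists
import Fermat.Agent.X0Analytic.PerMero
import Mathlib.RingTheory.RootsOfUnity.PrimitiveRoots
import Mathlib.Dynamics.PeriodicPts.Defs

/-!
Places of a function field cut out by embeddings into Laurent series over `ℂ`, grouped by a
rotation of the local parameter: the abstract form of "places over a point = stabiliser orbits".
-/

set_option autoImplicit false

noncomputable section

open AlgebraicCurve

namespace Fermat.Agent.X0Analytic

open FunctionFieldRR

/-- All coefficients below `n` vanish. -/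
def Below (n : ℤ) (z : LaurentSeries ℂ) : Prop := ∀ i, i < n → z.coeff i = 0

variable {n n' : ℤ} {z w : LaurentSeries ℂ}

theorem below_iff : Below n z ↔ z = 0 ∨ n ≤ z.order := by
  refine ⟨fun h => ?_, ?_⟩
  · rcases eq_or_ne z 0 with rfl | hz
    · exact Or.inl rfl
    · refine Or.inr (le_of_not_gt fun hlt => hz ?_)
      exact HahnSeries.coeff_order_eq_zero.mp (h _ hlt)
  · rintro (rfl | h) i hi
    · simp
    · exact HahnSeries.coeff_eq_zero_of_lt_order (lt_of_lt_of_le hi h)

theorem Below.mono (h : Below n z) (hle : n' ≤ n) : Below n' z :=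
  fun i hi => h i (lt_of_lt_of_le hi hle)

theorem Below.add (hz : Below n z) (hw : Below n w) : Below n (z + w) := fun i hi => by
  rw [HahnSeries.coeff_add, hz i hi, hw i hi, add_zero]

theorem Below.sub (hz : Below n z) (hw : Below n w) : Below n (z - w) := fun i hi => by
  rw [HahnSeries.coeff_sub, hz i hi, hw i hi, sub_zero]

theorem below_zero (n : ℤ) : Below n (0 : LaurentSeries ℂ) := fun _ _ => rfl

theorem Below.mul (hz : Below n z) (hw : Below n' w) : Below (n + n') (z * w) := by
  rcases below_iff.mp hz with rfl | h1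
  · simp [below_zero]
  rcases below_iff.mp hw with rfl | h2
  · simp [below_zero]
  rcases eq_or_ne z 0 with rfl | hz0
  · simp [below_zero]
  rcases eq_or_ne w 0 with rfl | hw0
  · simp [below_zero]
  exact below_iff.mpr (Or.inr (by rw [HahnSeries.order_mul hz0 hw0]; omega))

theorem Below.coeff_mul (hz : Below n z) (hw : Below n' w) :
    (z * w).coeff (n + n') = z.coeff n * w.coeff n' := by
  rw [HahnSeries.coeff_mul]
  rw [Finset.sum_eq_single (n, n')]
  · intro ij hij hne
    rw [Finset.mem_antidiagonal] at hij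
    have h1 : n ≤ ij.1 := le_of_not_gt fun hlt => hij.1 (hz _ hlt)
    have h2 : n' ≤ ij.2 := le_of_not_gt fun hlt => hij.2.1 (hw _ hlt)
    exact absurd (Prod.ext (by omega) (by omega)) hne
  · intro h
    rw [Finset.mem_antidiagonal] at h
    simp only [HahnSeries.mem_support, ne_eq, and_true, not_and_or, not_not] at h
    rcases h with h | h <;> simp [h]

theorem Below.coeff_pow (hz : Below n z) (i : ℕ) :
    Below ((i : ℤ) * n) (z ^ i) ∧ (z ^ i).coeff ((i : ℤ) * n) = z.coeff n ^ i := by
  induction i with
  | zero =>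
    simp only [Nat.cast_zero, zero_mul, pow_zero]
    refine ⟨fun j hj => ?_, ?_⟩
    · rw [HahnSeries.coeff_one, if_neg hj.ne]
    · simp
  | succ i ih =>
    rw [pow_succ, pow_succ, show ((i + 1 : ℕ) : ℤ) * n = (i : ℤ) * n + n by push_cast; ring]
    exact ⟨ih.1.mul hz, by rw [ih.1.coeff_mul hz, ih.2]⟩

variable {K F : Type*} [Field K] [Field F] [Algebra K F] {φ : K →+* ℂ}

/-- `ι` is constant-preserving with respect to `φ`. -/
def ConstCompat (φ : K →+* ℂ) (ι : F →+* LaurentSeries ℂ) : Prop :=
  ∀ c, ι (algebraMap K F c) = HahnSeries.single 0 (φ c)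

theorem order_map_mul (ι : F →+* LaurentSeries ℂ) {f g : F} (hf : f ≠ 0) (hg : g ≠ 0) :
    (ι (f * g)).order = (ι f).order + (ι g).order := by
  rw [map_mul, HahnSeries.order_mul ((map_ne_zero ι).mpr hf) ((map_ne_zero ι).mpr hg)]

theorem order_map_inv (ι : F →+* LaurentSeries ℂ) {f : F} (hf : f ≠ 0) :
    (ι f⁻¹).order = -(ι f).order := by
  have h := order_map_mul ι hf (inv_ne_zero hf)
  rw [mul_inv_cancel₀ hf, map_one, HahnSeries.order_one] at h
  omega

theorem order_map_zpow (ι : F →+* LaurentSeries ℂ) {f : F} (hf : f ≠ 0) (i : ℤ) :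
    (ι (f ^ i)).order = i * (ι f).order := by
  induction i with
  | zero => simp
  | succ i ih =>
    rw [zpow_add_one₀ hf, order_map_mul ι (zpow_ne_zero _ hf) hf, ih]; ring
  | pred i ih =>
    rw [zpow_sub_one₀ hf, order_map_mul ι (zpow_ne_zero _ hf) (inv_ne_zero hf), ih,
      order_map_inv ι hf]; ring

/-- The valuation ring of an embedding into Laurent series. -/
def homSubring (ι : F →+* LaurentSeries ℂ) : ValuationSubring F where
  carrier := {f | Below 0 (ι f)}
  mul_mem' {f g} hf hg := by
    show Below 0 (ι (f * g))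
    simpa [map_mul] using Below.mul hf hg
  one_mem' := fun j hj => by rw [map_one, HahnSeries.coeff_one, if_neg hj.ne]
  add_mem' {f g} hf hg := by
    show Below 0 (ι (f + g))
    rw [map_add]
    exact Below.add hf hg
  zero_mem' := by
    show Below 0 (ι 0)
    rw [map_zero]
    exact below_zero 0
  neg_mem' {f} hf := by
    show Below 0 (ι (-f))
    rw [map_neg, ← zero_sub]
    exact (below_zero 0).sub hf
  mem_or_inv_mem' f := by
    rcases eq_or_ne f 0 with rfl | hf
    · exact Or.inl (show Below 0 (ι 0) by rw [map_zero]; exact below_zero 0)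
    · rcases le_or_gt 0 (ι f).order with h | h
      · exact Or.inl (below_iff.mpr (Or.inr h))
      · exact Or.inr (below_iff.mpr (Or.inr (by rw [order_map_inv ι hf]; omega)))

theorem mem_homSubring {ι : F →+* LaurentSeries ℂ} {f : F} :
    f ∈ homSubring ι ↔ Below 0 (ι f) :=
  Iff.rfl

theorem algebraMap_mem_homSubring {ι : F →+* LaurentSeries ℂ} (hc : ConstCompat φ ι) (a : K) :
    algebraMap K F a ∈ homSubring ι := fun j hj => by
  rw [hc, HahnSeries.coeff_single_of_ne hj.ne]

theorem homSubring_ne_top {ι : F →+* LaurentSeries ℂ} {x : F} (hx : 0 < (ι x).order) :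
    homSubring ι ≠ ⊤ := by
  intro h
  have hx0 : x ≠ 0 := by rintro rfl; simp at hx
  have hmem : x⁻¹ ∈ homSubring ι := h ▸ ValuationSubring.mem_top _
  rcases below_iff.mp (mem_homSubring.mp hmem) with h0 | h0
  · exact (map_ne_zero ι).mpr (inv_ne_zero hx0) h0
  · rw [order_map_inv ι hx0] at h0; omega

variable [IsAlgClosed K] [IsFunctionField K F]

/-- The place cut out by an embedding into Laurent series. -/
def homPlace (ι : F →+* LaurentSeries ℂ) (hc : ConstCompat φ ι) {x : F}
    (hx : 0 < (ι x).order) : Place K F :=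
  placeOfValuationSubring (homSubring ι) (algebraMap_mem_homSubring hc) (homSubring_ne_top hx)

theorem mem_homPlace {ι : F →+* LaurentSeries ℂ} (hc : ConstCompat φ ι) {x : F}
    (hx : 0 < (ι x).order) {f : F} :
    f ∈ (homPlace ι hc hx).toValuationSubring ↔ Below 0 (ι f) :=
  Iff.rfl

/-- `ι` sees `P` with ramification `k`. -/
def SeesPlace (ι : F →+* LaurentSeries ℂ) (P : Place K F) (k : ℕ) : Prop :=
  0 < k ∧ ∀ f : F, (ι f).order = k * P.ord f

theorem exists_seesPlace {ι : F →+* LaurentSeries ℂ} (hc : ConstCompat φ ι) {x : F}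
    (hx : 0 < (ι x).order) : ∃ k, SeesPlace ι (homPlace ι hc hx) k := by
  set P := homPlace ι hc hx
  obtain ⟨π, hπ⟩ := IsDiscreteValuationRing.exists_irreducible P.toValuationSubring
  have hunit : ∀ u : P.toValuationSubringˣ,
      (ι ((u : P.toValuationSubring) : F)).order = 0 := by
    intro u
    have hu0 : ((u : P.toValuationSubring) : F) ≠ 0 := by simp
    have h1 := (below_iff.mp ((mem_homPlace hc hx).mp (u : P.toValuationSubring).2)).resolve_left
      ((map_ne_zero ι).mpr hu0)
    have hmul : ((u : P.toValuationSubring) : F) * ((↑u⁻¹ : P.toValuationSubring) : F) = 1 :=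
      congrArg Subtype.val u.mul_inv
    have hu0' : ((↑u⁻¹ : P.toValuationSubring) : F) ≠ 0 := by simp
    have h2 := (below_iff.mp ((mem_homPlace hc hx).mp (↑u⁻¹ : P.toValuationSubring).2)).resolve_left
      ((map_ne_zero ι).mpr hu0')
    have h3 := order_map_mul ι hu0 hu0'
    rw [hmul, map_one, HahnSeries.order_one] at h3
    omega
  have hπ0 : (π : F) ≠ 0 := by simpa using hπ.ne_zero
  have hformula : ∀ f : F, (ι f).order = (ι (π : F)).order * P.ord f := by
    intro f
    rcases eq_or_ne f 0 with rfl | hf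
    · simp
    obtain ⟨u, hu⟩ := P.exists_unit_mul_zpow hf hπ
    conv_lhs => rw [hu]
    rw [order_map_mul ι (by simp) (zpow_ne_zero _ hπ0), hunit, order_map_zpow ι hπ0]
    ring
  have hπnn := (below_iff.mp ((mem_homPlace hc hx).mp π.2)).resolve_left ((map_ne_zero ι).mpr hπ0)
  obtain ⟨k, hk⟩ := Int.eq_ofNat_of_zero_le hπnn
  refine ⟨k, Nat.pos_of_ne_zero fun h => ?_, fun f => by rw [hformula f, hk]⟩
  have := hformula x
  rw [hk, h] at this
  simp only [Nat.cast_zero, zero_mul] at this
  omega

theorem SeesPlace.below_zero_of_mem {ι : F →+* LaurentSeries ℂ} {P : Place K F} {k : ℕ}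
    (h : SeesPlace ι P k) {f : F} (hf : f ∈ P.toValuationSubring) : Below 0 (ι f) := by
  rcases eq_or_ne f 0 with rfl | hf0
  · rw [map_zero]; exact below_zero 0
  · exact below_iff.mpr (Or.inr (by
      rw [h.2 f]; exact mul_nonneg (by positivity) (ord_nonneg_of_mem P hf)))

/-- The value of a regular function is the constant coefficient of its series. -/
theorem SeesPlace.coeff_zero {ι : F →+* LaurentSeries ℂ} (hc : ConstCompat φ ι) {P : Place K F}
    {k : ℕ} (h : SeesPlace ι P k) {f : F} {c : K}
    (hf : VanishesTo P 1 (f - algebraMap K F c)) : (ι f).coeff 0 = φ c := by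
  have h1 : Below 1 (ι (f - algebraMap K F c)) := by
    rcases hf with h0 | h0
    · rw [h0, map_zero]; exact below_zero 1
    · exact below_iff.mpr (Or.inr (by
        rw [h.2]; nlinarith [h.1, show (1 : ℤ) ≤ (k : ℤ) by exact_mod_cast h.1]))
  have := h1 0 (by omega)
  rw [map_sub, hc, HahnSeries.coeff_sub, HahnSeries.coeff_single_same, sub_eq_zero] at this
  exact this

omit [IsAlgClosed K] [IsFunctionField K F] in
theorem SeesPlace.below_one_of_ord_one {ι : F →+* LaurentSeries ℂ} {P : Place K F} {k : ℕ}
    (h : SeesPlace ι P k) {u : F} (hu : P.ord u = 1) : Below k (ι u) :=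
  below_iff.mpr (Or.inr (by rw [h.2, hu, mul_one]))

/-- Two embeddings seeing the same place agree once they agree on `x` and have the same leading
coefficient at a uniformiser. -/
theorem hom_eq_of_leading {ι₁ ι₂ : F →+* LaurentSeries ℂ} (hc₁ : ConstCompat φ ι₁)
    (hc₂ : ConstCompat φ ι₂) {P : Place K F} {k : ℕ} (h₁ : SeesPlace ι₁ P k)
    (h₂ : SeesPlace ι₂ P k) {x : F} {e : ℕ} (he : 0 < e) (hx : P.ord x = e) (hxeq : ι₁ x = ι₂ x)
    {u : F} (hu : P.ord u = 1) (hlead : (ι₁ u).coeff k = (ι₂ u).coeff k) : ι₁ = ι₂ := by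
  have hu0 : u ≠ 0 := by rintro rfl; simp at hu
  have hx0 : x ≠ 0 := by rintro rfl; simp at hx; omega
  set a := ι₁ u with ha
  set b := ι₂ u with hb
  have hak := h₁.below_one_of_ord_one hu
  have hbk := h₂.below_one_of_ord_one hu
  set G := ∑ i ∈ Finset.range e, a ^ i * b ^ (e - 1 - i) with hG
  have hGc : G.coeff (((e - 1 : ℕ) : ℤ) * k) = e * a.coeff k ^ (e - 1) := by
    rw [hG, HahnSeries.coeff_sum]
    rw [Finset.sum_congr rfl (g := fun _ => a.coeff k ^ (e - 1)) fun i hi => ?_]
    · simp
    · rw [Finset.mem_range] at hi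
      have hs : ((e - 1 : ℕ) : ℤ) * k = (i : ℤ) * k + ((e - 1 - i : ℕ) : ℤ) * k := by
        rw [← add_mul]; congr 1; omega
      rw [hs, (hak.coeff_pow i).1.coeff_mul (hbk.coeff_pow _).1, (hak.coeff_pow i).2,
        (hbk.coeff_pow _).2, ← hlead, ← pow_add, Nat.add_sub_cancel' (by omega)]
  have hla : a.coeff k ≠ 0 := by
    have ha0 : a ≠ 0 := (map_ne_zero ι₁).mpr hu0
    have : a.order = k := by rw [ha, h₁.2, hu, mul_one]
    exact this ▸ mt HahnSeries.coeff_order_eq_zero.mp ha0
  have hGne : G.coeff (((e - 1 : ℕ) : ℤ) * k) ≠ 0 := by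
    rw [hGc]
    exact mul_ne_zero (Nat.cast_ne_zero.mpr he.ne') (pow_ne_zero _ hla)
  have hG0 : G ≠ 0 := fun h => hGne (by rw [h]; rfl)
  have hGo : G.order ≤ ((e - 1 : ℕ) : ℤ) * k := HahnSeries.order_le_of_coeff_ne_zero hGne
  have key : ∀ n : ℕ, ∀ f ∈ P.toValuationSubring, Below n (ι₁ f - ι₂ f) := by
    intro n
    induction n with
    | zero => exact fun f hf => (h₁.below_zero_of_mem hf).sub (h₂.below_zero_of_mem hf)
    | succ n ih =>
      intro f hf
      -- the uniformiser improves by `k`
      have hv : u ^ e / x ∈ P.toValuationSubring := by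
        rw [← ord_nonneg_iff, ord_div P (pow_ne_zero _ hu0) hx0, FunctionFieldRR.ord_pow, hu, hx]
        simp
      have hDu : Below ((n : ℤ) + k) (a - b) := by
        have hprod : (a - b) * G = ι₁ x * (ι₁ (u ^ e / x) - ι₂ (u ^ e / x)) := by
          rw [mul_comm, hG, geom_sum₂_mul, mul_sub, ← map_mul, hxeq, ← map_mul, ha, hb,
            mul_div_cancel₀ _ hx0, map_pow, map_pow]
        have hxk : Below ((k : ℤ) * e) (ι₁ x) := below_iff.mpr (Or.inr (by rw [h₁.2, hx]))
        have hB : Below ((k : ℤ) * e + n) ((a - b) * G) := hprod ▸ hxk.mul (ih _ hv)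
        refine below_iff.mpr ((em (a - b = 0)).imp id fun hne => ?_)
        have := (below_iff.mp hB).resolve_left (mul_ne_zero hne hG0)
        rw [HahnSeries.order_mul hne hG0] at this
        have hcast : ((e - 1 : ℕ) : ℤ) = (e : ℤ) - 1 := by omega
        rw [hcast, sub_mul, one_mul] at hGo
        nlinarith
      obtain ⟨c, hc⟩ := exists_residue P hf
      have hf1 : (f - algebraMap K F c) / u ∈ P.toValuationSubring := by
        rw [← ord_nonneg_iff]
        rcases hc with h | h
        · simp [h]
        · rcases eq_or_ne (f - algebraMap K F c) 0 with h0 | h0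
          · simp [h0]
          · rw [ord_div P h0 hu0, hu]; omega
      set f1 := (f - algebraMap K F c) / u
      have hfe : f = algebraMap K F c + u * f1 := by
        rw [mul_div_cancel₀ _ hu0, add_sub_cancel]
      have hsplit : ι₁ f - ι₂ f = (a - b) * ι₁ f1 + b * (ι₁ f1 - ι₂ f1) := by
        rw [hfe, map_add, map_add, map_mul, map_mul, hc₁, hc₂, ← ha, ← hb]
        ring
      rw [hsplit]
      have hk1 : (1 : ℤ) ≤ k := by exact_mod_cast h₁.1
      refine Below.add ((hDu.mul (h₁.below_zero_of_mem hf1)).mono (by push_cast; omega))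
        ((hbk.mul (ih _ hf1)).mono (by push_cast; omega))
  refine RingHom.ext fun f => ?_
  have hmem : ∀ g ∈ P.toValuationSubring, ι₁ g = ι₂ g := fun g hg => by
    refine sub_eq_zero.mp (HahnSeries.ext (funext fun i => ?_))
    exact key (i.toNat + 1) g hg i (by omega)
  rcases P.toValuationSubring.mem_or_inv_mem f with h | h
  · exact hmem f h
  · simpa using congrArg (·⁻¹) (hmem _ h)

/-- The possible leading coefficients at a uniformiser. -/
theorem leading_pow_eq {ι : F →+* LaurentSeries ℂ} (hc : ConstCompat φ ι) {P : Place K F} {k : ℕ}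
    (h : SeesPlace ι P k) {x u : F} {e : ℕ} (hx : P.ord x = e) (hx0 : x ≠ 0) (hu : P.ord u = 1)
    {c : K} (hcst : VanishesTo P 1 (u ^ e / x - algebraMap K F c)) :
    (ι u).coeff k ^ e = (ι x).coeff ((k : ℤ) * e) * φ c := by
  have hu0 : u ≠ 0 := by rintro rfl; simp at hu
  have hak := h.below_one_of_ord_one hu
  have hxk : Below ((k : ℤ) * e) (ι x) := below_iff.mpr (Or.inr (by rw [h.2, hx]))
  have hv : u ^ e / x ∈ P.toValuationSubring := by
    rw [← ord_nonneg_iff, ord_div P (pow_ne_zero _ hu0) hx0, FunctionFieldRR.ord_pow, hu, hx]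
    simp
  have := hxk.coeff_mul (h.below_zero_of_mem hv)
  rw [← map_mul, mul_div_cancel₀ _ hx0, map_pow, h.coeff_zero hc hcst, add_zero] at this
  rw [← this, mul_comm (k : ℤ)]
  exact (hak.coeff_pow e).2.symm

variable {S : Type*} [Fintype S]

/-- **Places over a point are the orbits of the rotation.** -/
theorem orbit_places (ι : S → F →+* LaurentSeries ℂ) (hinj : Function.Injective ι)
    (hc : ∀ s, ConstCompat φ (ι s)) {x : F} {h : LaurentSeries ℂ} (hxh : ∀ s, ι s x = h)
    {m : ℕ} (hm : 0 < m) (hh : h.order = m) {ζ : ℂ} (hζ : IsPrimitiveRoot ζ m) (σ : Equiv.Perm S)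
    (hσ : ∀ s f, ι (σ s) f = rot ζ (hζ.ne_zero hm.ne') (ι s f))
    (hsum : ∀ T : Finset (Place K F), (∀ P ∈ T, 0 < P.ord x) →
      ∑ P ∈ T, P.ord x ≤ Fintype.card S) :
    ∃ pl : S → Place K F,
      (∀ s f, Below 0 (ι s f) ↔ f ∈ (pl s).toValuationSubring) ∧
      (∀ s, (pl s).ord x = Function.minimalPeriod σ s) ∧
      (∀ s f, (ι s f).order * Function.minimalPeriod σ s = m * (pl s).ord f) ∧
      (∀ s t, pl t = pl s ↔ ∃ i : ℕ, σ^[i] s = t) ∧
      (∀ P : Place K F, 0 < P.ord x → ∃ s, pl s = P) := by
  classical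
  have hxpos : ∀ s, 0 < (ι s x).order := fun s => by rw [hxh, hh]; exact_mod_cast hm
  set pl := fun s => homPlace (ι s) (hc s) (hxpos s) with hpl
  choose k hk using fun s => exists_seesPlace (hc s) (hxpos s)
  have hke : ∀ s, (k s : ℤ) * (pl s).ord x = m := fun s => by rw [← (hk s).2, hxh, hh]
  have hepos : ∀ s, 0 < (pl s).ord x := fun s => by
    have := hke s
    by_contra hcon
    push Not at hcon
    nlinarith [(hk s).1]
  have hplσ : ∀ s (i : ℕ), pl (σ^[i] s) = pl s := by
    intro s i
    induction i with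
    | zero => rfl
    | succ i ih =>
      rw [Function.iterate_succ_apply', ← ih]
      refine eq_of_forall_mem fun f hf => ?_
      rw [mem_homPlace] at hf ⊢
      intro j hj
      have := hf j hj
      rw [hσ, rot_coeff] at this
      exact (mul_eq_zero.mp this).resolve_left (zpow_ne_zero _ (hζ.ne_zero hm.ne'))
  -- each fibre has at most `e` elements
  have hfib : ∀ P : Place K F, ∀ T : Finset S, (∀ s ∈ T, pl s = P) →
      (T.card : ℤ) ≤ max (P.ord x) 0 := by
    intro P T hT
    rcases T.eq_empty_or_nonempty with rfl | ⟨s0, hs0⟩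
    · simp
    have hP := hT s0 hs0
    have hx0 : x ≠ 0 := by
      rintro rfl
      simpa using hxpos s0
    obtain ⟨e, he⟩ := Int.eq_ofNat_of_zero_le (hP ▸ (hepos s0).le : 0 ≤ P.ord x)
    have hepos' : 0 < e := by
      have := hepos s0; rw [hP, he] at this; exact_mod_cast this
    obtain ⟨u, hu0, hu⟩ := exists_ord_eq_one P
    obtain ⟨c, hcst⟩ := exists_residue P (f := u ^ e / x) (by
      rw [← ord_nonneg_iff, ord_div P (pow_ne_zero _ hu0) hx0, FunctionFieldRR.ord_pow, hu, he]
      simp)
    have hsee : ∀ s ∈ T, SeesPlace (ι s) P (k s0) := by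
      intro s hs
      have h1 := hke s
      have h2 := hke s0
      rw [hT s hs, he] at h1
      rw [hP, he] at h2
      have : k s = k s0 := by
        have h3 : (k s : ℤ) * e = (k s0 : ℤ) * e := h1.trans h2.symm
        exact_mod_cast mul_right_cancel₀ (by exact_mod_cast hepos'.ne') h3
      rw [← this, ← hT s hs]
      exact hk s
    have hsub : T.image (fun s => (ι s u).coeff (k s0)) ⊆
        (Polynomial.nthRoots e (h.coeff ((k s0 : ℤ) * e) * φ c)).toFinset := by
      intro l hl
      obtain ⟨s, hs, rfl⟩ := Finset.mem_image.mp hl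
      rw [Multiset.mem_toFinset, Polynomial.mem_nthRoots hepos', ← hxh s]
      exact leading_pow_eq (hc s) (hsee s hs) he hx0 hu hcst
    have hTinj : Set.InjOn (fun s => (ι s u).coeff (k s0)) T := fun s hs t ht hst =>
      hinj (hom_eq_of_leading (hc s) (hc t) (hsee s hs) (hsee t ht) hepos' he
        (by rw [hxh, hxh]) hu hst)
    have := (Finset.card_le_card hsub).trans
      ((Multiset.toFinset_card_le _).trans (Polynomial.card_nthRoots e _))
    rw [Finset.card_image_of_injOn hTinj] at this
    rw [he]
    exact le_max_of_le_left (by exact_mod_cast this)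
  have hfib' : ∀ P : Place K F, 0 ≤ P.ord x → ∀ T : Finset S, (∀ s ∈ T, pl s = P) →
      (T.card : ℤ) ≤ P.ord x := fun P hP T hT => by
    simpa [max_eq_left hP] using hfib P T hT
  have hper : ∀ s, (pl s).ord x = Function.minimalPeriod σ s := by
    intro s
    set p := Function.minimalPeriod σ s
    have hperS : Function.IsPeriodicPt σ p s := Function.isPeriodicPt_minimalPeriod _ _
    refine le_antisymm ?_ ?_
    · -- the image is fixed by the `p`-th power of the rotation
      obtain ⟨u, hu0, hu⟩ := exists_ord_eq_one (pl s)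
      have hiter : ∀ (i : ℕ) (n : ℤ),
          (ι (σ^[i] s) u).coeff n = (ζ ^ n) ^ i * (ι s u).coeff n := by
        intro i n
        induction i with
        | zero => simp
        | succ i ih => rw [Function.iterate_succ_apply', hσ, rot_coeff, ih, pow_succ]; ring
      have h1 := hiter p (k s)
      rw [hperS] at h1
      have hne : (ι s u).coeff (k s) ≠ 0 := by
        have : (ι s u).order = k s := by rw [(hk s).2, hu, mul_one]
        exact this ▸ mt HahnSeries.coeff_order_eq_zero.mp ((map_ne_zero (ι s)).mpr hu0)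
      have h2 : ζ ^ (k s * p) = 1 := by
        rw [pow_mul, ← zpow_natCast ζ]
        exact mul_right_cancel₀ hne (by rw [one_mul]; exact h1.symm)
      have h3 : (m : ℤ) ∣ ((k s * p : ℕ) : ℤ) :=
        Int.natCast_dvd_natCast.mpr (hζ.pow_eq_one_iff_dvd _ |>.mp h2)
      rw [← hke s, Nat.cast_mul] at h3
      have h4 := (mul_dvd_mul_iff_left (by exact_mod_cast (hk s).1.ne')).mp h3
      have hpp : σ^[orderOf σ] s = s := by
        rw [← Equiv.Perm.coe_pow, pow_orderOf_eq_one]; rfl
      exact Int.le_of_dvd (by exact_mod_cast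
        (Function.minimalPeriod_pos_of_mem_periodicPts ⟨_, orderOf_pos σ, hpp⟩)) h4
    · have hT := hfib' (pl s) (hepos s).le
        ((Finset.range p).image fun i => σ^[i] s) (by
          intro t ht
          obtain ⟨i, -, rfl⟩ := Finset.mem_image.mp ht
          exact hplσ s i)
      rw [Finset.card_image_of_injOn, Finset.card_range] at hT
      · exact hT
      · intro i hi j hj hij
        exact (Function.iterate_eq_iterate_iff_of_lt_minimalPeriod
          (Finset.mem_range.mp (Finset.mem_coe.mp hi))
          (Finset.mem_range.mp (Finset.mem_coe.mp hj))).mp hij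
  refine ⟨pl, fun s f => (mem_homPlace (hc s) (hxpos s)).symm, hper, fun s f => ?_, fun s t => ?_,
    fun P hP => ?_⟩
  · rw [(hk s).2, ← hper s, ← hke s]; ring
  · constructor
    · intro hst
      by_contra hno
      push Not at hno
      have hT := hfib' (pl s) (hepos s).le
        (insert t ((Finset.range (Function.minimalPeriod σ s)).image fun i => σ^[i] s)) (by
          intro r hr
          rcases Finset.mem_insert.mp hr with rfl | hr
          · exact hst
          · obtain ⟨i, -, rfl⟩ := Finset.mem_image.mp hr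
            exact hplσ s i)
      rw [Finset.card_insert_of_notMem, Finset.card_image_of_injOn, Finset.card_range, hper s]
        at hT
      · push_cast at hT
        omega
      · intro i hi j hj hij
        exact (Function.iterate_eq_iterate_iff_of_lt_minimalPeriod
          (Finset.mem_range.mp (Finset.mem_coe.mp hi))
          (Finset.mem_range.mp (Finset.mem_coe.mp hj))).mp hij
      · intro hmem
        obtain ⟨i, -, hi⟩ := Finset.mem_image.mp hmem
        exact hno i hi
    · rintro ⟨i, rfl⟩
      exact hplσ s i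
  · by_contra hno
    push Not at hno
    set I := Finset.univ.image pl
    have hPI : P ∉ I := fun hmem => by
      obtain ⟨s, -, hs⟩ := Finset.mem_image.mp hmem
      exact hno s hs
    have h1 := hsum (insert P I) (by
      intro Q hQ
      rcases Finset.mem_insert.mp hQ with rfl | hQ
      · exact hP
      · obtain ⟨s, -, rfl⟩ := Finset.mem_image.mp hQ
        exact hepos s)
    rw [Finset.sum_insert hPI] at h1
    have h2 : (Fintype.card S : ℤ) ≤ ∑ Q ∈ I, Q.ord x := by
      rw [← Finset.card_univ, Finset.card_eq_sum_card_fiberwise (t := I) (f := pl)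
        fun s hs => Finset.mem_image_of_mem pl hs]
      push_cast
      refine Finset.sum_le_sum fun Q hQ => ?_
      obtain ⟨s, -, rfl⟩ := Finset.mem_image.mp hQ
      exact hfib' _ (hepos s).le _ fun r hr => (Finset.mem_filter.mp hr).2
    omega

end Fermat.Agent.X0Analytic
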