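import Fermat.Agent.X0Analytic.Points
import Fermat.Agent.X0Analytic.Orbit
import Mathlib.Analysis.Meromorphic.Basic

/-!
Division of holomorphic functions on `ℍ`, judged by Taylor series in the disc coordinate.
-/

set_option autoImplicit false

noncomputable section

open UpperHalfPlane Filter Topology
open scoped Manifold

namespace Fermat.Agent.X0Analytic

theorem analyticAt_comp_ofComplex (f : Hol) {z : ℂ} (hz : 0 < z.im) :
    AnalyticAt ℂ ((f : ℍ → ℂ) ∘ ofComplex) z :=
  (UpperHalfPlane.mdifferentiable_iff.mp f.2).analyticAt (isOpen_upperHalfPlaneSet.mem_nhds hz)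

/-- The vanishing order at `τ` read off the Taylor series. -/
theorem natCast_le_analyticOrderAt_iff_below (f : Hol) (τ : ℍ) (n : ℕ) :
    (n : ℕ∞) ≤ analyticOrderAt ((f : ℍ → ℂ) ∘ ofComplex) (τ : ℂ) ↔
      Below n (psL (tayHom τ f)) := by
  have hchart : AnalyticAt ℂ (chart τ) 0 :=
    DifferentiableOn.analyticAt
      (fun t ht => (hasDerivAt_chart τ ht).differentiableAt.differentiableWithinAt)
      (Metric.ball_mem_nhds 0 one_pos)
  have hd : deriv (chart τ) 0 ≠ 0 := by
    rw [(hasDerivAt_chart τ (Metric.mem_ball_self one_pos)).deriv]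
    have := taylorPS_chart_deriv_ne_zero τ
    rwa [constantCoeff_taylorPS] at this
  have h := analyticOrderAt_comp_of_deriv_ne_zero (f := (f : ℍ → ℂ) ∘ ofComplex) hchart hd
  rw [chart_zero] at h
  rw [← h, Function.comp_assoc,
    natCast_le_analyticOrderAt_iff_iteratedDeriv_eq_zero (analyticAt_comp_chart τ f.2)]
  constructor
  · intro hi i hin
    rcases lt_or_ge i 0 with hi0 | hi0
    · exact ModularCurve.ofPowerSeries_coeff_of_neg _ hi0
    · obtain ⟨j, rfl⟩ := Int.eq_ofNat_of_zero_le hi0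
      rw [HahnSeries.ofPowerSeries_apply_coeff, tayHom_apply, coeff_taylorPS,
        hi j (by exact_mod_cast hin), mul_zero]
  · intro hb i hin
    have := hb i (by exact_mod_cast hin)
    rw [HahnSeries.ofPowerSeries_apply_coeff, tayHom_apply, coeff_taylorPS, mul_eq_zero,
      inv_eq_zero, Nat.cast_eq_zero] at this
    exact this.resolve_left (Nat.factorial_ne_zero i)

/-- `q` divides `h` if it does so in every Taylor series. -/
theorem exists_hol_mul_eq {q h : Hol} (hq : q ≠ 0)
    (hle : ∀ (τ : ℍ) (n : ℕ), Below n (psL (tayHom τ q)) → Below n (psL (tayHom τ h))) :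
    ∃ G : Hol, G * q = h := by
  set Q : ℂ → ℂ := (q : ℍ → ℂ) ∘ ofComplex
  set H : ℂ → ℂ := (h : ℍ → ℂ) ∘ ofComplex
  have key : ∀ τ : ℍ, ∃ g : ℂ → ℂ, AnalyticAt ℂ g τ ∧
      (∀ᶠ z in 𝓝[≠] (τ : ℂ), H z / Q z = g z) ∧ g τ * Q τ = H τ := by
    intro τ
    have hQ : AnalyticAt ℂ Q τ := analyticAt_comp_ofComplex q τ.im_pos
    have hH : AnalyticAt ℂ H τ := analyticAt_comp_ofComplex h τ.im_pos
    have htop : analyticOrderAt Q τ ≠ ⊤ := by
      intro htop
      apply hq
      refine tayHom_injective τ (psL_injective ?_)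
      rw [map_zero, map_zero]
      ext i
      exact (natCast_le_analyticOrderAt_iff_below q τ ((i + 1).toNat)).mp
        (le_top.trans_eq htop.symm) i (by omega)
    obtain ⟨n, hn⟩ := WithTop.ne_top_iff_exists.mp htop
    obtain ⟨u, hu, hu0, hQe⟩ := (hQ.analyticOrderAt_eq_natCast).mp hn.symm
    obtain ⟨v, hv, hHe⟩ := (natCast_le_analyticOrderAt hH).mp
      ((natCast_le_analyticOrderAt_iff_below h τ n).mpr
        (hle τ n ((natCast_le_analyticOrderAt_iff_below q τ n).mp (le_of_eq hn))))
    refine ⟨v / u, hv.div hu hu0, ?_, ?_⟩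
    · filter_upwards [self_mem_nhdsWithin, hQe.filter_mono nhdsWithin_le_nhds,
        hHe.filter_mono nhdsWithin_le_nhds] with z hz h1 h2
      rw [h1, h2, smul_eq_mul, smul_eq_mul, Pi.div_apply,
        mul_div_mul_left _ _ (pow_ne_zero _ (sub_ne_zero.mpr hz))]
    · rw [hQe.self_of_nhds, hHe.self_of_nhds, smul_eq_mul, smul_eq_mul, Pi.div_apply]
      field_simp
  choose g hg hge hgv using key
  set G : ℂ → ℂ := fun z => limUnder (𝓝[≠] z) (fun w => H w / Q w)
  have hval : ∀ (τ : ℍ), ∀ᶠ z in 𝓝 (τ : ℂ), G z = g τ z := by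
    intro τ
    filter_upwards [(eventually_nhdsWithin_iff.mp (hge τ)).eventually_nhds,
      (hg τ).eventually_analyticAt] with z hz hza
    refine Tendsto.limUnder_eq (Tendsto.congr' ?_
      (hza.continuousAt.tendsto.mono_left nhdsWithin_le_nhds))
    rcases eq_or_ne z (τ : ℂ) with rfl | hne
    · exact (hge τ).mono fun w hw => hw.symm
    · filter_upwards [hz.filter_mono nhdsWithin_le_nhds,
        (eventually_ne_nhds hne).filter_mono nhdsWithin_le_nhds] with w h1 h2
      exact (h1 h2).symm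
  have hG : MDiff fun τ : ℍ => G τ := by
    rw [UpperHalfPlane.mdifferentiable_iff]
    intro z hz
    refine (((hg ⟨z, hz⟩).differentiableAt).congr_of_eventuallyEq ?_).differentiableWithinAt
    filter_upwards [hval ⟨z, hz⟩, isOpen_upperHalfPlaneSet.mem_nhds hz] with w hw hw'
    rw [← hw, Function.comp_apply, ofComplex_apply_of_im_pos hw']
  refine ⟨⟨_, hG⟩, Subtype.ext (funext fun τ => ?_)⟩
  have := hgv τ
  rw [← (hval τ).self_of_nhds] at this
  simpa [Q, H] using this

end Fermat.Agent.X0Analytic
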