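import Fermat.Agent.X0Analytic.Genus
import Fermat.Agent.X0Analytic.Division

/-!
Weight two cusp forms from the Riemann–Roch space of the canonical divisor of `dj`.
-/

set_option autoImplicit false

noncomputable section

open AlgebraicCurve IntermediateField UpperHalfPlane Filter Topology CongruenceSubgroup
open scoped MatrixGroups Manifold ModularForm

namespace Fermat.Agent.X0Analytic

open Gamma0Count (CosetSpace)
open FunctionFieldRR

local notation "Δ" => ModularForm.discriminant

/-- `θj` has weight two. -/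
theorem thetaJ_smul (γ : SL(2, ℤ)) (τ : ℍ) :
    thetaJ (γ • τ) = UpperHalfPlane.denom (γ : GL (Fin 2) ℝ) τ ^ (2 : ℤ) * thetaJ τ := by
  have hd : UpperHalfPlane.denom (γ : GL (Fin 2) ℝ) τ ≠ 0 := UpperHalfPlane.denom_ne_zero _ τ
  have hΔ := ModularForm.discriminant_ne_zero τ
  simp only [thetaJ, levelOne_smul, discriminant_smul]
  field_simp

theorem thetaJ_isPer : IsPer 1 thetaJ := fun τ => by
  rw [Nat.cast_one, ← UpperHalfPlane.modular_T_smul, thetaJ_smul]
  simp [ModularGroup.T, UpperHalfPlane.denom]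

theorem thetaJ_mul_qp_isBounded : IsBoundedAtImInfty (thetaJ * qp 1 ^ 1) := by
  have h4 : IsBoundedAtImInfty ((ModularForm.E₄ : ℍ → ℂ) ^ 2) :=
    pow_mem (S := boundedAtImInftySubalgebra ℂ) (x := (ModularForm.E₄ : ℍ → ℂ))
      (ModularFormClass.bdd_at_infty ModularForm.E₄) 2
  have h46 : IsBoundedAtImInfty (-((ModularForm.E₄ : ℍ → ℂ) ^ 2 * (ModularForm.E₆ : ℍ → ℂ))) :=
    (Filter.BoundedAtFilter.mul h4 (ModularFormClass.bdd_at_infty ModularForm.E₆)).neg
  have hΔ : IsBoundedAtImInfty (fun τ => qp 1 τ / Δ τ) := by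
    refine (Asymptotics.div_isBoundedUnder_of_isBigO (α := ℍ) ?_).isBigO_one ℝ
    refine Asymptotics.IsBigO.trans (Asymptotics.isBigO_of_le _ fun τ => le_of_eq ?_)
      ModularForm.exp_isBigO_discriminant
    simp [qp, Function.Periodic.qParam, Complex.norm_exp]
  have heq : thetaJ * qp 1 ^ 1 =
      -((ModularForm.E₄ : ℍ → ℂ) ^ 2 * (ModularForm.E₆ : ℍ → ℂ)) * fun τ => qp 1 τ / Δ τ := by
    funext τ
    simp only [thetaJ, Pi.mul_apply, Pi.pow_apply, Pi.neg_apply, pow_one]
    ring
  rw [heq]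
  exact Filter.BoundedAtFilter.mul h46 hΔ

variable (N : ℕ) [NeZero N]

theorem thetaJ_mul_qp_pow_isBounded : IsBoundedAtImInfty (thetaJ * qp N ^ N) := by
  have h : thetaJ * qp N ^ N = thetaJ * qp 1 ^ 1 := funext fun τ => by
    simp [qp_one_eq_pow N τ]
  rw [h]
  exact thetaJ_mul_qp_isBounded

theorem thetaJ_mem : thetaJ ∈ perMero N := by
  refine ⟨thetaJ_mdiff, fun τ => ?_, N, thetaJ_mul_qp_pow_isBounded N⟩
  suffices h : ∀ n : ℕ, thetaJ ((n : ℝ) +ᵥ τ) = thetaJ τ from h N
  intro n
  induction n with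
  | zero => simp
  | succ n ih =>
    rw [Nat.cast_succ, add_comm, ← vadd_vadd, ← ih]
    simpa using thetaJ_isPer ((n : ℝ) +ᵥ τ)

/-- `θj` as an `N`-periodic function. -/
def thetaPer : ↥(perMero N) := ⟨thetaJ, thetaJ_mem N⟩

theorem below_thetaPer : Below (-(N : ℤ)) (qSer N (thetaPer N)) := fun _ hi =>
  qSer_coeff_of_lt _ (thetaJ_mul_qp_pow_isBounded N) hi

/-- `q = exp (2πiτ/N)` as an `N`-periodic function. -/
def qpPer : ↥(perMero N) :=
  ⟨qp N, qp_mdiff N, fun τ => qp_vadd N τ, 0, by simpa using qp_isBounded N⟩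

theorem qSer_qpPer : qSer N (qpPer N) = HahnSeries.single 1 1 := by
  rw [qSer_eq (qpPer N) (m := 0) (by simpa [qpPer] using qp_isBounded N), qSerAux,
    show ((qpPer N : ↥(perMero N)) : ℍ → ℂ) * qp N ^ 0 = qp N by rw [pow_zero, mul_one]; rfl,
    qExpansion_qp, HahnSeries.ofPowerSeries_X, HahnSeries.single_mul_single]
  simp

theorem qSer_qpPer_pow (i : ℕ) : qSer N (qpPer N ^ i) = HahnSeries.single (i : ℤ) 1 := by
  rw [map_pow, qSer_qpPer, HahnSeries.single_pow]
  simp

universe u

variable {N} {L : Type u} [Field L] [Algebra ℚ L] (φ : L →+* ℂ)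

-- shortcuts: the generic searches on the function field are slow
local instance : Algebra L ↥(FLevel L N) := inferInstance
local instance : MulAction L ↥(FLevel L N) := inferInstance
local instance : SMulCommClass L ↥(FLevel L N) ↥(FLevel L N) := inferInstance

theorem toModFun_aeval_jAlg (p : Polynomial L) :
    toModFun φ (Polynomial.aeval (jAlg L N) p) = Polynomial.aeval (jMod N) (p.map φ) :=
  ser_injective (by rw [ser_toModFun, coeffMap_aeval_jAlg])

/-- The holomorphic function attached to an element of the generated algebra. -/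
def holOf (a : ↥(algGen L N)) : Hol := modToHol N (toModFun φ a)

theorem holOf_aeval_apply (p : Polynomial L) (τ : ℍ) :
    (holOf (N := N) φ (Polynomial.aeval (jAlg L N) p) : ℍ → ℂ) τ =
      (p.map φ).eval (jFun τ) := by
  show (toModFun φ (Polynomial.aeval (jAlg L N) p) : ℍ → ℂ) τ = _
  rw [toModFun_aeval_jAlg]
  let ev : ↥(modFun N) →ₐ[ℂ] ℂ :=
    (Pi.evalAlgHom ℂ (fun _ : ℍ => ℂ) τ).comp (modFun N).val
  show ev (Polynomial.aeval (jMod N) (p.map φ)) = _
  rw [← Polynomial.aeval_algHom_apply, Polynomial.coe_aeval_eq_eval]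
  rfl

theorem embPoint_one_algToField (τ : ℍ) (a : ↥(algGen L N)) :
    embPoint φ τ ((1 : SL(2, ℤ)) : CosetSpace N) (algToField L N a) =
      psL (tayHom τ (holOf φ a)) := by
  rw [embPoint_algToField]
  congr 2
  refine Subtype.ext (funext fun σ => ?_)
  show (X0Analytic.conj ((1 : SL(2, ℤ)) : CosetSpace N) (toModFun φ a) : ℍ → ℂ) σ = _
  rw [conj_mk_apply, inv_one, one_smul]
  rfl

variable [IsAlgClosed L] [IsFunctionField L ↥(FLevel L N)]
  [FiniteDimensional L⟮jEl L N⟯ ↥(FLevel L N)]
  [Algebra.IsSeparable L⟮jEl L N⟯ ↥(FLevel L N)]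

/-- The inequality at a point of `ℍ`. -/
theorem below_tay_form {f : ↥(FLevel L N)}
    (hf : f ∈ riemannRochSpace (canonicalDiv (transcendental_jEl (N := N) φ)))
    {p : Polynomial L} (hp : p ≠ 0) {a : ↥(algGen L N)}
    (ha : Polynomial.aeval (jEl L N) p * f = algToField L N a) (τ : ℍ) (n : ℕ)
    (hn : Below n (psL (tayHom τ (holOf φ (Polynomial.aeval (jAlg L N) p))))) :
    Below n (psL (tayHom τ (holOf φ a * thetaHol))) := by
  by_cases h0 : (p.map φ).eval (jFun τ) = 0
  · have hroot : jFun τ ∈ (p.map φ).roots :=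
      (Polynomial.mem_roots (Polynomial.map_ne_zero hp)).mpr h0
    rw [(IsAlgClosed.splits p).roots_map φ, Multiset.mem_map] at hroot
    obtain ⟨c, -, hc⟩ := hroot
    set ι := embPoint φ τ ((1 : SL(2, ℤ)) : CosetSpace N) with hι
    have hcc : ConstCompat φ ι := fun c => embPoint_algebraMap φ τ _ c
    have hpos : 0 < (ι (jEl L N - algebraMap L ↥(FLevel L N) c)).order := by
      rw [hι, embPoint_jEl_sub]
      obtain ⟨k, hk⟩ : ∃ k : ℕ, (jSeries τ (φ c)).coeff k ≠ 0 := by
        by_contra hall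
        push Not at hall
        exact jSeries_ne_zero τ (φ c) (PowerSeries.ext fun k => by rw [hall k, map_zero])
      classical
      rw [order_psL (Nat.find_spec (p := fun k => (jSeries τ (φ c)).coeff k ≠ 0) ⟨k, hk⟩) fun i hi =>
        not_not.mp (Nat.find_min (p := fun k => (jSeries τ (φ c)).coeff k ≠ 0) ⟨k, hk⟩ hi)]
      refine Int.natCast_pos.mpr (Nat.pos_of_ne_zero fun h => ?_)
      have := Nat.find_spec (p := fun k => (jSeries τ (φ c)).coeff k ≠ 0) ⟨k, hk⟩
      rw [h, PowerSeries.coeff_zero_eq_constantCoeff, constantCoeff_jSeries, hc, sub_self] at this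
      exact this rfl
    obtain ⟨k, hk⟩ := exists_seesPlace hcc hpos
    set P := homPlace ι hcc hpos
    have he : 0 < P.ord (jEl L N - algebraMap L ↥(FLevel L N) c) := by
      rw [hk.2] at hpos
      exact pos_of_mul_pos_right hpos (Int.natCast_nonneg _)
    set e := P.ord (jEl L N - algebraMap L ↥(FLevel L N) c)
    have hm : (psL (jSeries τ (φ c))).order = (k : ℤ) * e := by
      rw [← embPoint_jEl_sub φ τ ((1 : SL(2, ℤ)) : CosetSpace N) c, ← hι, hk.2]
    have hfP : Below ((k : ℤ) * (1 - e)) (ι f) := by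
      refine below_iff.mpr ?_
      rcases mem_riemannRochSpace.mp hf P with h | h
      · exact Or.inl (by rw [h, map_zero])
      · rw [canonicalDiv_jEl_of_zero φ he, neg_sub] at h
        exact Or.inr (by rw [hk.2]; exact mul_le_mul_of_nonneg_left h (Int.natCast_nonneg _))
    have hθ : Below ((k : ℤ) * e - 1) (psL (tayHom τ thetaHol)) :=
      below_iff.mpr (Or.inr (by rw [order_thetaHol hc.symm, hm]))
    have hq : Below n (ι (Polynomial.aeval (jEl L N) p)) := by
      rw [hι, aeval_jEl, embPoint_one_algToField]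
      exact hn
    rw [map_mul, map_mul, ← embPoint_one_algToField, ← ha, map_mul]
    refine ((hq.mul hfP).mul hθ).mono ?_
    have := hk.1
    nlinarith
  · have hord : (psL (tayHom τ (holOf φ (Polynomial.aeval (jAlg L N) p)))).order = 0 := by
      refine order_psL_of_constantCoeff ?_
      rw [constantCoeff_tayHom, holOf_aeval_apply]
      exact h0
    rcases below_iff.mp hn with h | h
    · refine absurd (congrArg (fun z : LaurentSeries ℂ => z.coeff 0) h) ?_
      rw [HahnSeries.coeff_zero]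
      show (psL _).coeff ((0 : ℕ) : ℤ) ≠ 0
      rw [HahnSeries.ofPowerSeries_apply_coeff, PowerSeries.coeff_zero_eq_constantCoeff,
        constantCoeff_tayHom, holOf_aeval_apply]
      exact h0
    · rw [hord] at h
      intro i hi
      exact ModularCurve.ofPowerSeries_coeff_of_neg _ (by omega)

/-- The vanishing at a cusp. -/
theorem isZeroAtImInfty_form {f : ↥(FLevel L N)}
    (hf : f ∈ riemannRochSpace (canonicalDiv (transcendental_jEl (N := N) φ)))
    {p : Polynomial L} (hp : p ≠ 0) {a : ↥(algGen L N)}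
    (ha : Polynomial.aeval (jEl L N) p * f = algToField L N a) (δ : SL(2, ℤ)) {B : ℍ → ℂ}
    (hB : ∀ τ, B τ * (p.map φ).eval (jFun τ) =
      (toModFun φ a : ℍ → ℂ) (δ • τ) * thetaJ τ) :
    IsZeroAtImInfty B := by
  set x : CosetSpace N := ((δ⁻¹ : SL(2, ℤ)) : CosetSpace N) with hx
  set ι := embCusp φ x with hι
  have hcc : ConstCompat φ ι := fun c => embCusp_algebraMap φ x c
  have hpos : 0 < (ι (jEl L N)⁻¹).order := by
    rw [hι, embCusp_jEl_inv, order_inv_qExpand_jqC]
    exact_mod_cast Nat.pos_of_ne_zero (NeZero.ne N)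
  obtain ⟨k, hk⟩ := exists_seesPlace hcc hpos
  set P := homPlace ι hcc hpos
  have hN : (k : ℤ) * P.ord (jEl L N) = -(N : ℤ) := by
    have := order_inv_qExpand_jqC (N := N)
    rw [← embCusp_jEl_inv φ x, ← hι, hk.2, P.ord_inv] at this
    linarith
  have hneg : P.ord (jEl L N) < 0 := by
    have := hk.1
    have := Nat.pos_of_ne_zero (NeZero.ne N)
    nlinarith
  have hfP : Below ((N : ℤ) + k) (ι f) := by
    refine below_iff.mpr ?_
    rcases mem_riemannRochSpace.mp hf P with h | h
    · exact Or.inl (by rw [h, map_zero])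
    · rw [canonicalDiv_jEl_of_pole φ hneg, neg_sub] at h
      refine Or.inr ?_
      rw [hk.2]
      nlinarith [mul_le_mul_of_nonneg_left h (Int.natCast_nonneg k)]
  obtain ⟨hp0, hpord⟩ := ord_aeval_of_pole P hneg hp
  have hqord : (ι (Polynomial.aeval (jEl L N) p)).order = -((p.natDegree * N : ℕ) : ℤ) := by
    rw [hk.2, hpord, mul_left_comm, hN]
    push_cast
    ring
  set D := p.natDegree * N
  set Qp : ↥(perMero N) :=
    X0Analytic.conj x (toModFun φ (Polynomial.aeval (jAlg L N) p)) * qpPer N ^ D with hQp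
  set R : ↥(perMero N) := X0Analytic.conj x (toModFun φ a) * thetaPer N * qpPer N ^ D with hR
  have hQser : qSer N Qp =
      ι (Polynomial.aeval (jEl L N) p) * HahnSeries.single (D : ℤ) 1 := by
    rw [hQp, map_mul, qSer_qpPer_pow, hι, aeval_jEl, embCusp_algToField]
  have hQne : qSer N Qp ≠ 0 := by
    rw [hQser]
    exact mul_ne_zero ((map_ne_zero ι).mpr hp0) (HahnSeries.single_ne_zero one_ne_zero)
  have hQord : (qSer N Qp).order = 0 := by
    rw [hQser, HahnSeries.order_mul ((map_ne_zero ι).mpr hp0)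
      (HahnSeries.single_ne_zero one_ne_zero), hqord, HahnSeries.order_single one_ne_zero]
    omega
  have hQc : (qSer N Qp).coeff 0 ≠ 0 := hQord ▸ mt HahnSeries.coeff_order_eq_zero.mp hQne
  have hQlim := tendsto_atImInfty_coeff_zero Qp ((isBoundedAtImInfty_iff_coeff Qp).mpr fun i hi =>
    HahnSeries.coeff_eq_zero_of_lt_order (by omega))
  have hRser : Below 1 (qSer N R) := by
    rw [hR, map_mul, map_mul, qSer_qpPer_pow, ← embCusp_algToField φ x a, ← hι, ← ha, map_mul]
    have hq : Below (-(D : ℤ)) (ι (Polynomial.aeval (jEl L N) p)) :=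
      below_iff.mpr (Or.inr hqord.ge)
    have hs : Below (D : ℤ) (HahnSeries.single (D : ℤ) (1 : ℂ)) := fun i hi =>
      HahnSeries.coeff_single_of_ne hi.ne
    refine (((hq.mul hfP).mul (below_thetaPer N)).mul hs).mono ?_
    have := hk.1
    omega
  have hRlim := isZeroAtImInfty_of_coeff R fun i hi => hRser i (by omega)
  have heq : ∀ τ, B τ * (Qp : ℍ → ℂ) τ = (R : ℍ → ℂ) τ := by
    intro τ
    show B τ * ((X0Analytic.conj x (toModFun φ (Polynomial.aeval (jAlg L N) p)) : ℍ → ℂ) τ *
        (qp N ^ D) τ) =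
      (X0Analytic.conj x (toModFun φ a) : ℍ → ℂ) τ * thetaJ τ * (qp N ^ D) τ
    rw [hx, conj_mk_apply, conj_mk_apply, inv_inv, ← mul_assoc,
      show (toModFun φ (Polynomial.aeval (jAlg L N) p) : ℍ → ℂ) (δ • τ) =
        (holOf (N := N) φ (Polynomial.aeval (jAlg L N) p) : ℍ → ℂ) (δ • τ) from rfl,
      holOf_aeval_apply, jFun_smul, hB]
  have h : Tendsto (fun τ => (R : ℍ → ℂ) τ / (Qp : ℍ → ℂ) τ) atImInfty (𝓝 0) := by
    have := Tendsto.div (show Tendsto (fun τ => (R : ℍ → ℂ) τ) atImInfty (𝓝 0) from hRlim) hQlim hQc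
    rwa [zero_div] at this
  refine h.congr' ?_
  filter_upwards [hQlim.eventually_ne hQc] with τ hτ
  rw [← heq, mul_div_cancel_right₀ _ hτ]

/-- Every element of the Riemann–Roch space of `div dj` gives a cusp form. -/
theorem exists_cuspForm {f : ↥(FLevel L N)}
    (hf : f ∈ riemannRochSpace (canonicalDiv (transcendental_jEl (N := N) φ)))
    {p : Polynomial L} (hp : p ≠ 0) {a : ↥(algGen L N)}
    (ha : Polynomial.aeval (jEl L N) p * f = algToField L N a) :
    ∃ G : CuspForm (Gamma0 N) 2, ∀ τ,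
      G τ * (p.map φ).eval (jFun τ) = (toModFun φ a : ℍ → ℂ) τ * thetaJ τ := by
  set q := holOf φ (Polynomial.aeval (jAlg L N) p) with hq_def
  have hq : q ≠ 0 := by
    refine (map_ne_zero_iff _ modToHol_injective).mpr ((map_ne_zero_iff _
      (toModFun_injective φ)).mpr fun h => ?_)
    exact hp (transcendental_iff.mp (transcendental_jEl (N := N) φ) p
      (by rw [aeval_jEl, h, map_zero]))
  obtain ⟨G, hG⟩ := exists_hol_mul_eq hq fun τ n hn => below_tay_form φ hf hp ha τ n hn
  have hGapply : ∀ τ, (G : ℍ → ℂ) τ * (p.map φ).eval (jFun τ) =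
      (toModFun φ a : ℍ → ℂ) τ * thetaJ τ := fun τ => by
    rw [← holOf_aeval_apply (N := N) φ p τ]
    exact congrFun (congrArg Subtype.val hG) τ
  have hslash : ∀ (δ : SL(2, ℤ)) (τ : ℍ),
      ((G : ℍ → ℂ) ∣[(2 : ℤ)] δ) τ * (p.map φ).eval (jFun τ) =
        (toModFun φ a : ℍ → ℂ) (δ • τ) * thetaJ τ := by
    intro δ τ
    have h := hGapply (δ • τ)
    rw [jFun_smul, thetaJ_smul] at h
    have hd : UpperHalfPlane.denom (δ : GL (Fin 2) ℝ) τ ≠ 0 := UpperHalfPlane.denom_ne_zero _ τ
    rw [ModularForm.SL_slash_apply, mul_right_comm, h, zpow_neg]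
    field_simp
  refine ⟨
    { toFun := (G : ℍ → ℂ)
      slash_action_eq' := fun A hA => ?_
      holo' := G.2
      zero_at_cusps' := fun {c} hc => ?_ }, hGapply⟩
  · obtain ⟨γ, hγ, rfl⟩ := hA
    have hm : MDiff ((G : ℍ → ℂ) ∣[(2 : ℤ)] γ) := G.2.slash _ _
    have h0 : ((⟨_, hm⟩ : Hol) - G) * q = 0 := by
      refine Subtype.ext (funext fun τ => ?_)
      show (((G : ℍ → ℂ) ∣[(2 : ℤ)] γ) τ - (G : ℍ → ℂ) τ) * (q : ℍ → ℂ) τ = 0
      rw [hq_def, holOf_aeval_apply, sub_mul, hslash, hGapply, (toModFun φ a).2.2.1 γ hγ,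
        sub_self]
    exact congrArg Subtype.val (sub_eq_zero.mp ((mul_eq_zero.mp h0).resolve_right hq))
  · have hc' : IsCusp c 𝒮ℒ :=
      (Subgroup.IsArithmetic.isCusp_iff_isCusp_SL2Z _).mp hc
    rw [OnePoint.isZeroAt_iff_forall_SL2Z hc']
    exact fun δ _ => isZeroAtImInfty_form φ hf hp ha δ (hslash δ)

omit [IsAlgClosed L] [IsFunctionField L ↥(FLevel L N)] [FiniteDimensional L⟮jEl L N⟯ ↥(FLevel L N)]
  [Algebra.IsSeparable L⟮jEl L N⟯ ↥(FLevel L N)] in
include φ in
theorem exists_common_denominator {ι : Type*} [Fintype ι] (f : ι → ↥(FLevel L N)) :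
    ∃ (p : Polynomial L) (a : ι → ↥(algGen L N)), p ≠ 0 ∧
      ∀ i, Polynomial.aeval (jEl L N) p * f i = algToField L N (a i) := by
  classical
  choose p a hp ha using fun i => exists_smul_mem φ (f i)
  refine ⟨∏ i, p i,
    fun i => Polynomial.aeval (jAlg L N) (∏ j ∈ Finset.univ.erase i, p j) * a i,
    Finset.prod_ne_zero_iff.mpr fun i _ => hp i, fun i => ?_⟩
  rw [map_mul, ← aeval_jEl, ← ha i, ← Finset.mul_prod_erase Finset.univ p (Finset.mem_univ i),
    map_mul]
  ring

/-- The genus bounds the dimension of the space of cusp forms from below. -/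
theorem genusOf_le_finrank_cuspForm [FiniteDimensional ℂ (CuspForm (Gamma0 N) 2)] :
    genusOf (transcendental_jEl (N := N) φ) ≤ Module.finrank ℂ (CuspForm (Gamma0 N) 2) := by
  obtain ⟨v, hv⟩ := exists_linearIndependent_of_le_finrank
    (R := L) (M := riemannRochSpace (canonicalDiv (transcendental_jEl (N := N) φ)))
    (n := genusOf (transcendental_jEl (N := N) φ)) le_rfl
  obtain ⟨p, a, hp, ha⟩ := exists_common_denominator φ fun i => (v i : ↥(FLevel L N))
  choose G hG using fun i => exists_cuspForm φ (v i).2 hp (ha i)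
  have hli : LinearIndependent ℂ G := by
    rw [Fintype.linearIndependent_iff]
    intro c hc i
    have h1 : (∑ i, algebraMap ℂ Hol (c i) * holOf φ (a i)) * thetaHol = 0 := by
      refine Subtype.ext (funext fun τ => ?_)
      have h2 := congrArg (· * (p.map φ).eval (jFun τ))
        (congrFun (congrArg (fun F : CuspForm (Gamma0 N) 2 => (F : ℍ → ℂ)) hc) τ)
      simp only [FunLike.coe_zero, Pi.zero_apply, zero_mul] at h2
      simp only [MulMemClass.coe_mul, AddSubmonoidClass.coe_finsetSum, Pi.mul_apply,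
        Finset.sum_apply, Finset.sum_mul, ZeroMemClass.coe_zero, Pi.zero_apply]
      rw [← h2]
      rw [FunLike.coe_sum]
      simp only [Finset.sum_apply, Finset.sum_mul, smul_apply, smul_eq_mul]
      refine Finset.sum_congr rfl fun j _ => ?_
      show c j * (toModFun φ (a j) : ℍ → ℂ) τ * thetaJ τ = _
      rw [mul_assoc, ← hG, mul_assoc]
    have hθ : thetaHol ≠ 0 := fun h => by
      obtain ⟨z, hz⟩ := exists_jFun_eq 1
      exact thetaJ_ne_zero (τ := z) (by rw [hz]; exact one_ne_zero) (by rw [hz]; norm_num)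
        (congrFun (congrArg Subtype.val h) z)
    have h3 : ∑ i, algebraMap ℂ ↥(modFun N) (c i) * toModFun φ (a i) = 0 := by
      refine modToHol_injective ?_
      rw [map_sum, map_zero]
      simp only [map_mul, AlgHom.commutes]
      exact (mul_eq_zero.mp h1).resolve_right hθ
    let : Algebra L ℂ := φ.toAlgebra
    refine (Module.forall_dual_apply_eq_zero_iff L (c i)).mp fun ℓ => ?_
    have h4 : ∑ i, algebraMap L (LaurentSeries L) (ℓ (c i)) *
        ((a i : ↥(algGen L N)) : LaurentSeries L) = 0 := by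
      ext n
      have h5 := congrArg (fun z => (ser N z).coeff n) h3
      simp only [map_sum, map_mul, ser_algebraMap, ser_toModFun, map_zero, HahnSeries.coeff_sum,
        HahnSeries.coeff_single_mul, sub_zero, ModularCurve.coeffMap_coeff,
        HahnSeries.coeff_zero] at h5
      have h6 := congrArg ℓ h5
      rw [map_sum, map_zero] at h6
      rw [HahnSeries.coeff_sum, HahnSeries.coeff_zero, ← h6]
      refine Finset.sum_congr rfl fun j _ => ?_
      rw [ModularCurve.algebraMap_laurentSeries_eq_single, HahnSeries.coeff_single_mul, sub_zero,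
        show c j * φ ((a j : LaurentSeries L).coeff n) =
          (a j : LaurentSeries L).coeff n • c j by
          rw [Algebra.smul_def, mul_comm]; rfl,
        map_smul, smul_eq_mul, mul_comm]
    have h7 : ∑ i, ℓ (c i) • a i = 0 := Subtype.ext (by
      simp only [Algebra.smul_def]
      push_cast
      exact h4)
    have h8 : Polynomial.aeval (jEl L N) p * ∑ i, ℓ (c i) • (v i : ↥(FLevel L N)) = 0 := by
      rw [Finset.mul_sum]
      simp only [mul_smul_comm, ha, ← map_smul, ← map_sum, h7, map_zero]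
    have h9 : ∑ i, ℓ (c i) • v i = 0 := by
      refine Subtype.ext ?_
      push_cast
      exact (mul_eq_zero.mp h8).resolve_left fun h =>
        hp (transcendental_iff.mp (transcendental_jEl (N := N) φ) p h)
    exact Fintype.linearIndependent_iff.mp hv _ h9 i
  simpa using hli.fintype_card_le_finrank

end Fermat.Agent.X0Analytic
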