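/-
The places of the modular function field over each value of `j`.
-/
import Fermat.Agent.X0Analytic.Points
import Fermat.Agent.X0Analytic.Orbit
import Fermat.Agent.Gamma0Count.Cusps
import Fermat.Agent.FunctionFieldRR.RationalBase

set_option autoImplicit false

noncomputable section

open AlgebraicCurve
open scoped MatrixGroups UpperHalfPlane
open UpperHalfPlane (ofComplex)

namespace Fermat.Agent.X0Analytic

open Gamma0Count (CosetSpace CuspSpace toCusp)
open FunctionFieldRR

universe u

variable {L : Type u} [Field L] [Algebra ℚ L] {N : ℕ} [NeZero N]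

theorem isFunctionField (φ : L →+* ℂ) : IsFunctionField L ↥(FLevel L N) :=
  letI := finiteDimensional_jField (N := N) φ
  IsFunctionField.of_finiteDimensional (jEl L N) (transcendental_jEl φ)

/-- The action of `g` on cosets as a permutation. -/
def cosetPerm (g : SL(2, ℤ)) : Equiv.Perm (CosetSpace N) := MulAction.toPerm g

@[simp]
theorem cosetPerm_apply (g : SL(2, ℤ)) (x : CosetSpace N) : cosetPerm g x = g • x := rfl

theorem cosetPerm_iterate (g : SL(2, ℤ)) (i : ℕ) (x : CosetSpace N) :
    (cosetPerm g)^[i] x = g ^ i • x := by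
  induction i with
  | zero => simp
  | succ i ih => rw [Function.iterate_succ_apply', ih, pow_succ', mul_smul, cosetPerm_apply]

variable [IsAlgClosed L] (φ : L →+* ℂ)

/-- The description of the places above a point produced by `orbit_places`. -/
def FibreData (ι : CosetSpace N → ↥(FLevel L N) →+* LaurentSeries ℂ) (x : ↥(FLevel L N)) (m : ℕ)
    (σ : Equiv.Perm (CosetSpace N)) (pl : CosetSpace N → Place L ↥(FLevel L N)) : Prop :=
  (∀ s f, Below 0 (ι s f) ↔ f ∈ (pl s).toValuationSubring) ∧
    (∀ s, (pl s).ord x = Function.minimalPeriod σ s) ∧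
    (∀ s f, (ι s f).order * Function.minimalPeriod σ s = m * (pl s).ord f) ∧
    (∀ s t, pl t = pl s ↔ ∃ i : ℕ, σ^[i] s = t) ∧
    (∀ P : Place L ↥(FLevel L N), 0 < P.ord x → ∃ s, pl s = P)

theorem sum_ord_le_zeros (c : L) (T : Finset (Place L ↥(FLevel L N)))
    (hT : ∀ P ∈ T, 0 < P.ord (jEl L N - algebraMap L ↥(FLevel L N) c))
    (φ : L →+* ℂ) :
    ∑ P ∈ T, P.ord (jEl L N - algebraMap L ↥(FLevel L N) c) ≤ Fintype.card (CosetSpace N) := by
  classical
  haveI := isFunctionField (N := N) φ
  haveI := finiteDimensional_jField (N := N) φ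
  set x := jEl L N - algebraMap L ↥(FLevel L N) c
  set S : Finset (Place L ↥(FLevel L N)) :=
    (finite_ord_ne_zero x).toFinset.filter fun w => 0 < w.ord x with hS'
  have hS : ∀ w, w ∈ S ↔ 0 < w.ord x := fun w => by
    simp only [hS', Finset.mem_filter, Set.Finite.mem_toFinset, Set.mem_ofPred_eq, and_iff_right_iff_imp]
    exact fun h => h.ne'
  refine (Finset.sum_le_sum_of_subset_of_nonneg (fun w hw => (hS w).2 (hT w hw))
    fun w hw _ => ((hS w).1 hw).le).trans ?_
  rw [sum_ord_zeros (transcendental_jEl φ) c hS]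
  exact_mod_cast finrank_le_card φ

theorem sum_ord_le_poles (T : Finset (Place L ↥(FLevel L N)))
    (hT : ∀ P ∈ T, 0 < P.ord (jEl L N)⁻¹) (φ : L →+* ℂ) :
    ∑ P ∈ T, P.ord (jEl L N)⁻¹ ≤ Fintype.card (CosetSpace N) := by
  classical
  haveI := isFunctionField (N := N) φ
  haveI := finiteDimensional_jField (N := N) φ
  set S : Finset (Place L ↥(FLevel L N)) :=
    (finite_ord_ne_zero (jEl L N)).toFinset.filter fun w => w.ord (jEl L N) < 0 with hS'
  have hS : ∀ w, w ∈ S ↔ w.ord (jEl L N) < 0 := fun w => by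
    simp only [hS', Finset.mem_filter, Set.Finite.mem_toFinset, Set.mem_ofPred_eq, and_iff_right_iff_imp]
    exact fun h => h.ne
  simp only [Place.ord_inv]
  refine (Finset.sum_le_sum_of_subset_of_nonneg (fun w hw => (hS w).2 (by
      have := hT w hw; rw [w.ord_inv] at this; omega))
    fun w hw _ => by have := (hS w).1 hw; omega).trans ?_
  rw [sum_ord_poles (transcendental_jEl φ) hS]
  exact_mod_cast finrank_le_card φ

/-- Places over `j = c`, from a point `τ` and a rotation fixing it. -/
theorem exists_pointPlaces {τ : ℍ} {c : L} {m : ℕ} (hm : 0 < m)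
    (hord : (psL (jSeries τ (φ c))).order = m) (σ : SL(2, ℤ)) {ζ : ℂ}
    (hζ : IsPrimitiveRoot ζ m)
    (hrot : ∀ t ∈ Metric.ball (0 : ℂ) 1, (σ⁻¹ : SL(2, ℤ)) • UpperHalfPlane.ofComplex (chart τ t) =
      UpperHalfPlane.ofComplex (chart τ (ζ * t))) :
    ∃ pl, FibreData (N := N) (embPoint φ τ) (jEl L N - algebraMap L ↥(FLevel L N) c) m
      (cosetPerm σ) pl := by
  haveI := isFunctionField (N := N) φ
  exact orbit_places (φ := φ) (embPoint φ τ) (embPoint_injective φ τ)
    (fun s c => embPoint_algebraMap φ τ s c) (fun s => embPoint_jEl_sub φ τ s c) hm hord hζ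
    (cosetPerm σ)
    (fun s f => RingHom.congr_fun (embPoint_smul φ τ σ (hζ.ne_zero hm.ne') hrot s) f)
    (fun T hT => sum_ord_le_zeros c T hT φ)

theorem exists_places_zero :
    ∃ pl, FibreData (N := N) (embPoint φ rhoPt) (jEl L N - algebraMap L ↥(FLevel L N) 0) 3
      (cosetPerm (ModularGroup.S * ModularGroup.T)) pl := by
  refine exists_pointPlaces φ (by norm_num) ?_ _ rhoPt_primitive fun t ht => chart_rot_rho ht
  rw [map_zero]
  exact_mod_cast order_jSeries_zero E4_rhoPt

theorem exists_places_1728 :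
    ∃ pl, FibreData (N := N) (embPoint φ UpperHalfPlane.I)
      (jEl L N - algebraMap L ↥(FLevel L N) 1728) 2 (cosetPerm ModularGroup.S) pl := by
  refine exists_pointPlaces φ (by norm_num) ?_ _ I_primitive fun t ht => chart_rot_I ht
  rw [map_ofNat]
  exact_mod_cast order_jSeries_1728 E6_I

theorem exists_places_generic {τ : ℍ} {c : L} (hτ : jFun τ = φ c) (h0 : c ≠ 0) (h1 : c ≠ 1728) :
    ∃ pl, FibreData (N := N) (embPoint φ τ) (jEl L N - algebraMap L ↥(FLevel L N) c) 1
      (cosetPerm 1) pl := by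
  refine exists_pointPlaces φ one_pos ?_ _ IsPrimitiveRoot.one fun t _ => by
    rw [inv_one, one_smul, one_mul]
  rw [← hτ]
  refine (order_jSeries_generic ?_ ?_).trans Nat.cast_one.symm
  · rw [hτ]; exact (map_ne_zero φ).mpr h0
  · rw [hτ, ← map_ofNat φ 1728]; exact fun h => h1 (φ.injective h)

theorem embCusp_jEl_inv (x : CosetSpace N) :
    embCusp (L := L) φ x (jEl L N)⁻¹ = (ModularCurve.qExpand ℂ N jqC)⁻¹ := by
  rw [map_inv₀, embCusp_jEl]

theorem order_inv_qExpand_jqC : ((ModularCurve.qExpand ℂ N jqC)⁻¹).order = N := by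
  have hne : ModularCurve.qExpand ℂ N jqC ≠ 0 :=
    (map_ne_zero_iff _ (ModularCurve.qExpand_injective N)).mpr jqC_ne_zero
  have h := HahnSeries.order_mul hne (inv_ne_zero hne)
  rw [mul_inv_cancel₀ hne, HahnSeries.order_one, order_qExpand N jqC_ne_zero, jqC_order] at h
  omega

/-- Places over `j = ∞`. -/
theorem exists_places_infty :
    ∃ pl, FibreData (N := N) (embCusp φ) (jEl L N)⁻¹ N (cosetPerm ModularGroup.T) pl := by
  haveI := isFunctionField (N := N) φ
  have hζ : IsPrimitiveRoot (Complex.exp (-(2 * Real.pi * Complex.I) / N)) N := by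
    rw [neg_div, Complex.exp_neg]
    exact (Complex.isPrimitiveRoot_exp N (NeZero.ne N)).inv
  exact orbit_places (φ := φ) (embCusp φ) (embCusp_injective φ)
    (fun s c => embCusp_algebraMap φ s c) (fun s => embCusp_jEl_inv φ s)
    (Nat.pos_of_ne_zero (NeZero.ne N)) order_inv_qExpand_jqC hζ (cosetPerm ModularGroup.T)
    (fun s f => RingHom.congr_fun (embCusp_T_smul φ s) f)
    (fun T hT => sum_ord_le_poles T hT φ)

/-! ### Periods of the rotations -/

theorem neg_one_mem_Gamma0 : (-1 : SL(2, ℤ)) ∈ CongruenceSubgroup.Gamma0 N := by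
  rw [CongruenceSubgroup.Gamma0_mem, Matrix.SpecialLinearGroup.coe_neg]
  simp

theorem neg_one_smul_coset (x : CosetSpace N) : (-1 : SL(2, ℤ)) • x = x := by
  induction x using QuotientGroup.induction_on with
  | H g =>
    rw [MulAction.Quotient.smul_coe, QuotientGroup.eq,
      show ((-1 : SL(2, ℤ)) • g)⁻¹ * g = g⁻¹ * (-1)⁻¹ * g by rw [smul_eq_mul, mul_inv_rev]]
    have h : g⁻¹ * (-1 : SL(2, ℤ))⁻¹ * g = -1 := by
      rw [show ((-1 : SL(2, ℤ))⁻¹) = -1 from inv_eq_of_mul_eq_one_right (by rw [neg_mul_neg, one_mul]),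
        mul_neg, mul_one, neg_mul, inv_mul_cancel]
    rw [h]
    exact neg_one_mem_Gamma0

theorem S_pow_two : ModularGroup.S ^ 2 = (-1 : SL(2, ℤ)) := by
  rw [sq]
  ext i j
  fin_cases i <;> fin_cases j <;> simp [ModularGroup.S, Matrix.mul_apply, Fin.sum_univ_two]

theorem ST_pow_three : (ModularGroup.S * ModularGroup.T) ^ 3 = (-1 : SL(2, ℤ)) := by
  rw [pow_succ, sq]
  ext i j
  fin_cases i <;> fin_cases j <;>
    simp [ModularGroup.S, ModularGroup.T, Matrix.mul_apply, Fin.sum_univ_two]

theorem period_dvd {g : SL(2, ℤ)} {m : ℕ} (hg : g ^ m = (-1 : SL(2, ℤ))) (x : CosetSpace N) :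
    Function.minimalPeriod (cosetPerm g) x ∣ m :=
  Function.IsPeriodicPt.minimalPeriod_dvd (by
    show (cosetPerm g)^[m] x = x
    rw [cosetPerm_iterate, hg, neg_one_smul_coset])

variable {φ} {ι : CosetSpace N → ↥(FLevel L N) →+* LaurentSeries ℂ} {x : ↥(FLevel L N)} {m : ℕ}
  {σ : Equiv.Perm (CosetSpace N)} {pl : CosetSpace N → Place L ↥(FLevel L N)}

omit [IsAlgClosed L] in
theorem minimalPeriod_pos_perm (σ : Equiv.Perm (CosetSpace N)) (s : CosetSpace N) :
    0 < Function.minimalPeriod σ s :=
  Function.minimalPeriod_pos_of_mem_periodicPts ⟨orderOf σ, orderOf_pos σ, by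
    show σ^[orderOf σ] s = s
    rw [← Equiv.Perm.coe_pow, pow_orderOf_eq_one]; rfl⟩

theorem FibreData.card_fibre (h : FibreData ι x m σ pl) (s : CosetSpace N)
    [DecidableEq (Place L ↥(FLevel L N))] :
    (Finset.univ.filter fun t => pl t = pl s).card = Function.minimalPeriod σ s := by
  classical
  have hset : (Finset.univ.filter fun t => pl t = pl s) =
      (Finset.range (Function.minimalPeriod σ s)).image fun i => σ^[i] s := by
    ext t
    simp only [Finset.mem_filter, Finset.mem_univ, true_and, Finset.mem_image, Finset.mem_range,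
      h.2.2.2.1 s t]
    constructor
    · rintro ⟨i, rfl⟩
      exact ⟨i % Function.minimalPeriod σ s, Nat.mod_lt _ (minimalPeriod_pos_perm σ s),
        Function.iterate_mod_minimalPeriod_eq⟩
    · rintro ⟨i, -, hi⟩
      exact ⟨i, hi⟩
  rw [hset, Finset.card_image_of_injOn, Finset.card_range]
  intro i hi j hj hij
  exact (Function.iterate_eq_iterate_iff_of_lt_minimalPeriod
    (Finset.mem_range.mp (Finset.mem_coe.mp hi))
    (Finset.mem_range.mp (Finset.mem_coe.mp hj))).mp hij

theorem FibreData.mem_iff (h : FibreData ι x m σ pl)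
    [DecidableEq (Place L ↥(FLevel L N))] (P : Place L ↥(FLevel L N)) :
    P ∈ Finset.univ.image pl ↔ 0 < P.ord x := by
  simp only [Finset.mem_image, Finset.mem_univ, true_and]
  refine ⟨?_, h.2.2.2.2 P⟩
  rintro ⟨s, rfl⟩
  rw [h.2.1 s]
  exact_mod_cast minimalPeriod_pos_perm σ s

theorem FibreData.sum_ord (h : FibreData ι x m σ pl)
    [DecidableEq (Place L ↥(FLevel L N))] :
    ∑ P ∈ Finset.univ.image pl, P.ord x = ModularCurve.dedekindPsi N := by
  rw [← Gamma0Count.card_cosetSpace N, Nat.card_eq_fintype_card, ← Finset.card_univ,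
    Finset.card_eq_sum_card_fiberwise (t := Finset.univ.image pl) (f := pl)
      fun s hs => Finset.mem_image_of_mem pl hs]
  push_cast
  refine Finset.sum_congr rfl fun P hP => ?_
  obtain ⟨s, -, rfl⟩ := Finset.mem_image.mp hP
  rw [h.card_fibre s, h.2.1 s]

/-- Counting places over a point with stabiliser of prime order. -/
theorem FibreData.card_mul (h : FibreData ι x m σ pl) (hm : m.Prime)
    (hdiv : ∀ s, Function.minimalPeriod σ s ∣ m) [DecidableEq (Place L ↥(FLevel L N))] :
    m * (Finset.univ.image pl).card =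
      ModularCurve.dedekindPsi N + (m - 1) * Nat.card {s : CosetSpace N // σ s = s} := by
  classical
  set w : CosetSpace N → ℕ := fun s => m / Function.minimalPeriod σ s with hw
  have hwsum : ∑ s, w s = m * (Finset.univ.image pl).card := by
    rw [← Finset.sum_fiberwise_of_maps_to (t := Finset.univ.image pl) (g := pl)
      fun s hs => Finset.mem_image_of_mem pl hs]
    rw [mul_comm, ← smul_eq_mul, ← Finset.sum_const]
    refine Finset.sum_congr rfl fun P hP => ?_
    obtain ⟨s, -, rfl⟩ := Finset.mem_image.mp hP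
    rw [Finset.sum_congr rfl (g := fun _ => w s) fun t ht => ?_]
    · rw [Finset.sum_const, h.card_fibre s, smul_eq_mul, hw, Nat.mul_div_cancel' (hdiv s)]
    · have h1 := h.2.1 t
      rw [(Finset.mem_filter.mp ht).2, h.2.1 s] at h1
      show m / _ = m / _
      rw [show Function.minimalPeriod σ t = Function.minimalPeriod σ s by exact_mod_cast h1.symm]
  have hw' : ∀ s, w s = 1 + if σ s = s then m - 1 else 0 := by
    intro s
    have hfix : Function.minimalPeriod σ s = 1 ↔ σ s = s :=
      Function.minimalPeriod_eq_one_iff_isFixedPt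
    rcases hm.eq_one_or_self_of_dvd _ (hdiv s) with h1 | h1
    · rw [if_pos (hfix.mp h1), hw]
      show m / _ = _
      rw [h1, Nat.div_one, Nat.add_sub_cancel' hm.one_le]
    · rw [if_neg (fun h2 => hm.one_lt.ne' ((hfix.mpr h2) ▸ h1).symm), hw]
      show m / _ = _
      rw [h1, Nat.div_self hm.pos]
  rw [← hwsum, Finset.sum_congr rfl fun s _ => hw' s, Finset.sum_add_distrib, Finset.sum_const,
    Finset.card_univ, smul_eq_mul, mul_one, ← Gamma0Count.card_cosetSpace N,
    Nat.card_eq_fintype_card, ← Finset.sum_filter, Finset.sum_const, smul_eq_mul,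
    Nat.card_eq_fintype_card, Fintype.card_subtype, mul_comm]

theorem FibreData.card_eq_cuspCount
    (h : FibreData ι x m (cosetPerm ModularGroup.T) pl)
    [DecidableEq (Place L ↥(FLevel L N))] :
    (Finset.univ.image pl).card = ModularCurve.cuspCount N := by
  classical
  rw [← Gamma0Count.card_cuspSpace N, ← Fintype.card_coe, ← Nat.card_eq_fintype_card]
  symm
  have hkey : ∀ s t : CosetSpace N, toCusp s = toCusp t ↔ pl s = pl t := by
    intro s t
    rw [Gamma0Count.toCusp_eq_iff, h.2.2.2.1 t s]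
    simp only [cosetPerm_iterate]
    refine ⟨fun ⟨k, hk⟩ => ?_, fun ⟨i, hi⟩ => ⟨i, by rwa [zpow_natCast]⟩⟩
    set p := Function.minimalPeriod (cosetPerm (N := N) ModularGroup.T) t
    have hp : ModularGroup.T ^ p • t = t := by
      rw [← cosetPerm_iterate]; exact Function.iterate_minimalPeriod
    have hp0 : (p : ℤ) ≠ 0 := by exact_mod_cast (minimalPeriod_pos_perm _ t).ne'
    refine ⟨(k % (p : ℤ)).toNat, ?_⟩
    have hmem : ModularGroup.T ^ ((p : ℤ) * (k / p)) • t = t := by
      rw [zpow_mul, zpow_natCast]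
      exact MulAction.mem_stabilizer_iff.mp (Subgroup.zpow_mem _ (MulAction.mem_stabilizer_iff.mpr hp) _)
    rw [← hk, ← zpow_natCast, Int.toNat_of_nonneg (Int.emod_nonneg _ hp0)]
    conv_rhs => rw [← Int.emod_add_mul_ediv k p, zpow_add, mul_smul, hmem]
  let f : CuspSpace N → ↥(Finset.univ.image pl) := fun q =>
    Quotient.liftOn' q (fun s => ⟨pl s, Finset.mem_image_of_mem pl (Finset.mem_univ s)⟩)
      fun s t hst => Subtype.ext ((hkey s t).mp (Quotient.sound' hst))
  refine Nat.card_congr (Equiv.ofBijective f ⟨?_, ?_⟩)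
  · intro a b
    induction a using Quotient.inductionOn' with
    | h s =>
      induction b using Quotient.inductionOn' with
      | h t => exact fun hab => (hkey s t).mpr (congrArg Subtype.val hab)
  · rintro ⟨P, hP⟩
    obtain ⟨s, -, rfl⟩ := Finset.mem_image.mp hP
    exact ⟨toCusp s, rfl⟩

end Fermat.Agent.X0Analytic
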