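import Fermat.Agent.X0Analytic.Places

/-!
Ramification indices of `j` on the modular function field.
-/

set_option autoImplicit false

noncomputable section

open AlgebraicCurve
open scoped MatrixGroups UpperHalfPlane

namespace Fermat.Agent.X0Analytic

open Gamma0Count (CosetSpace)

universe u

variable {L : Type u} [Field L] [Algebra ℚ L] [IsAlgClosed L] {N : ℕ} [NeZero N] (φ : L →+* ℂ)

include φ

/-- Over a finite value `c` the ramification divides the order of the stabiliser. -/
theorem ord_jEl_sub_dvd [DecidableEq L] (P : Place L ↥(FLevel L N)) (c : L)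
    (h : 0 < P.ord (jEl L N - algebraMap L ↥(FLevel L N) c)) :
    P.ord (jEl L N - algebraMap L ↥(FLevel L N) c) ∣
      (if c = 0 then 3 else if c = 1728 then 2 else 1) := by
  split_ifs with h0 h1
  · subst h0
    obtain ⟨pl, hpl⟩ := exists_places_zero (N := N) φ
    obtain ⟨s, rfl⟩ := hpl.2.2.2.2 P h
    rw [hpl.2.1 s]
    exact_mod_cast period_dvd ST_pow_three s
  · subst h1
    obtain ⟨pl, hpl⟩ := exists_places_1728 (N := N) φ
    obtain ⟨s, rfl⟩ := hpl.2.2.2.2 P h
    rw [hpl.2.1 s]
    exact_mod_cast period_dvd S_pow_two s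
  · obtain ⟨τ, hτ⟩ := exists_jFun_eq (φ c)
    obtain ⟨pl, hpl⟩ := exists_places_generic (N := N) φ hτ h0 h1
    obtain ⟨s, rfl⟩ := hpl.2.2.2.2 P h
    rw [hpl.2.1 s]
    exact_mod_cast dvd_of_eq (Function.minimalPeriod_eq_one_iff_isFixedPt.mpr
      (show cosetPerm (1 : SL(2, ℤ)) s = s from one_smul SL(2, ℤ) s))

/-- Unramified away from `0, 1728, ∞`. -/
theorem ord_jEl_sub_eq_one (P : Place L ↥(FLevel L N)) (c : L) (h0 : c ≠ 0) (h1 : c ≠ 1728)
    (h : 0 < P.ord (jEl L N - algebraMap L ↥(FLevel L N) c)) :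
    P.ord (jEl L N - algebraMap L ↥(FLevel L N) c) = 1 := by
  classical
  have := ord_jEl_sub_dvd φ P c h
  rw [if_neg h0, if_neg h1] at this
  exact Int.eq_one_of_dvd_one h.le this

/-- Over `j = ∞` the ramification divides `N`. -/
theorem ord_jEl_neg_dvd (P : Place L ↥(FLevel L N)) (h : P.ord (jEl L N) < 0) :
    P.ord (jEl L N) ∣ (N : ℤ) := by
  obtain ⟨pl, hpl⟩ := exists_places_infty (N := N) φ
  obtain ⟨s, rfl⟩ := hpl.2.2.2.2 P (by rw [P.ord_inv]; omega)
  have h1 := hpl.2.1 s
  rw [Place.ord_inv] at h1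
  rw [← neg_dvd, h1]
  have hT : Function.IsPeriodicPt (cosetPerm ModularGroup.T) N s := by
    show (cosetPerm ModularGroup.T)^[N] s = s
    rw [cosetPerm_iterate]
    induction s using QuotientGroup.induction_on with
    | H g =>
      rw [MulAction.Quotient.smul_coe, smul_eq_mul, QuotientGroup.eq, mul_inv_rev, mul_assoc,
        CongruenceSubgroup.Gamma0_mem]
      simp only [Matrix.SpecialLinearGroup.coe_mul, Matrix.SpecialLinearGroup.coe_inv,
        ← zpow_natCast, ← zpow_neg, ModularGroup.coe_T_zpow, Matrix.adjugate_fin_two,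
        Matrix.mul_apply, Fin.sum_univ_two, Matrix.cons_val', Matrix.cons_val_zero,
        Matrix.cons_val_one, Matrix.of_apply, Matrix.cons_val_fin_one]
      push_cast
      simp only [ZMod.natCast_self, neg_zero, mul_zero, add_zero]
      ring
  exact Int.natCast_dvd_natCast.mpr hT.minimalPeriod_dvd

end Fermat.Agent.X0Analytic
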