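import Fermat.Agent.X0Analytic.EtaProduct
import Fermat.Prelude.Def_ModularCurve_LaurentCoeff

/-!
The modular function `j = E₄³ / Δ` on `ℍ`, with Laurent series `jq`.
-/

set_option autoImplicit false

noncomputable section

open UpperHalfPlane Filter Topology Function
open scoped Manifold MatrixGroups ModularForm

namespace Fermat.Agent.X0Analytic

local notation "Δ" => ModularForm.discriminant

/-- The `j`-invariant as a function on `ℍ`. -/
def jFun (τ : ℍ) : ℂ := ModularForm.E₄ τ ^ 3 / Δ τ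

theorem levelOne_smul {k : ℤ} (f : ModularForm 𝒮ℒ k) (γ : SL(2, ℤ)) (τ : ℍ) :
    f (γ • τ) = UpperHalfPlane.denom (γ : GL (Fin 2) ℝ) τ ^ k * f τ :=
  SlashInvariantForm.slash_action_eqn'' f (show (γ : GL (Fin 2) ℝ) ∈ 𝒮ℒ from ⟨γ, rfl⟩) τ

theorem discriminant_smul (γ : SL(2, ℤ)) (τ : ℍ) :
    Δ (γ • τ) = UpperHalfPlane.denom (γ : GL (Fin 2) ℝ) τ ^ (12 : ℤ) * Δ τ :=
  SlashInvariantForm.slash_action_eqn'' CuspForm.discriminant
    (show (γ : GL (Fin 2) ℝ) ∈ 𝒮ℒ from ⟨γ, rfl⟩) τ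

theorem jFun_smul (γ : SL(2, ℤ)) (τ : ℍ) : jFun (γ • τ) = jFun τ := by
  have hd : UpperHalfPlane.denom (γ : GL (Fin 2) ℝ) (τ : ℂ) ≠ 0 :=
    UpperHalfPlane.denom_ne_zero _ τ
  rw [jFun, jFun, levelOne_smul, discriminant_smul, mul_pow, ← zpow_natCast (_ ^ (4 : ℤ)) 3,
    ← zpow_mul]
  norm_num
  exact mul_div_mul_left _ _ (pow_ne_zero _ hd)

theorem jFun_mdiff : MDiff jFun :=
  (UpperHalfPlane.mdifferentiable_iff.mpr
    (((UpperHalfPlane.mdifferentiable_iff.mp ModularForm.E₄.holo').fun_pow 3).div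
      (UpperHalfPlane.mdifferentiable_iff.mp CuspForm.discriminant.holo')
      fun _ _ => ModularForm.discriminant_ne_zero _))

theorem jFun_isPer : IsPer 1 jFun := fun τ => by
  rw [Nat.cast_one, ← UpperHalfPlane.modular_T_smul]
  exact jFun_smul _ τ

theorem E4_mem : (ModularForm.E₄ : ℍ → ℂ) ∈ perMero 1 :=
  ⟨ModularForm.E₄.holo', fun τ => by
    rw [Nat.cast_one, ← UpperHalfPlane.modular_T_smul]
    simpa [ModularGroup.T, UpperHalfPlane.denom] using levelOne_smul ModularForm.E₄ ModularGroup.T τ,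
    0, by
    rw [pow_zero, mul_one]
    exact ModularFormClass.bdd_at_infty ModularForm.E₄⟩

theorem jFun_mul_qp_isBounded : IsBoundedAtImInfty (jFun * qp 1 ^ 1) := by
  have hE := ModularFormClass.bdd_at_infty ModularForm.E₄
  have hE3 : IsBoundedAtImInfty ((ModularForm.E₄ : ℍ → ℂ) ^ 3) :=
    pow_mem (S := boundedAtImInftySubalgebra ℂ) (x := (ModularForm.E₄ : ℍ → ℂ)) hE 3
  have hΔ : IsBoundedAtImInfty (fun τ => qp 1 τ / Δ τ) := by
    refine (Asymptotics.div_isBoundedUnder_of_isBigO (α := ℍ) ?_).isBigO_one ℝ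
    refine Asymptotics.IsBigO.trans (Asymptotics.isBigO_of_le _ fun τ => le_of_eq ?_)
      ModularForm.exp_isBigO_discriminant
    simp [qp, Periodic.qParam, Complex.norm_exp]
  have heq : jFun * qp 1 ^ 1 = (ModularForm.E₄ : ℍ → ℂ) ^ 3 * fun τ => qp 1 τ / Δ τ := by
    funext τ
    simp only [jFun, Pi.mul_apply, Pi.pow_apply, pow_one]
    ring
  rw [heq]
  exact Filter.BoundedAtFilter.mul hE3 hΔ

theorem jFun_mem : jFun ∈ perMero 1 := ⟨jFun_mdiff, jFun_isPer, 1, jFun_mul_qp_isBounded⟩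

/-- `jq` with complex coefficients. -/
def jqC : LaurentSeries ℂ := ModularCurve.coeffMap (algebraMap ℚ ℂ) ModularCurve.jq

theorem qSer_E4 :
    qSer 1 ⟨_, E4_mem⟩ =
      HahnSeries.ofPowerSeries ℤ ℂ (ModularCurve.eisenstein4.map (Int.castRingHom ℂ)) := by
  have hb : IsBoundedAtImInfty ((ModularForm.E₄ : ℍ → ℂ) * qp 1 ^ 0) := by
    rw [pow_zero, mul_one]
    exact ModularFormClass.bdd_at_infty ModularForm.E₄
  rw [qSer_eq _ (m := 0) hb, qSerAux]
  simp only [Nat.cast_zero, neg_zero, HahnSeries.single_zero_one, one_mul, pow_zero, mul_one,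
    Nat.cast_one]
  rw [qExpansion_E4]

theorem coeffMap_ofPowerSeries {R S : Type*} [CommRing R] [CommRing S] (f : R →+* S)
    (p : PowerSeries R) :
    ModularCurve.coeffMap f (HahnSeries.ofPowerSeries ℤ R p) =
      HahnSeries.ofPowerSeries ℤ S (p.map f) := by
  ext k
  rw [ModularCurve.coeffMap_coeff]
  rcases le_or_gt 0 k with hk | hk
  · lift k to ℕ using hk
    rw [HahnSeries.ofPowerSeries_apply_coeff, HahnSeries.ofPowerSeries_apply_coeff,
      PowerSeries.coeff_map]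
  · rw [ModularCurve.ofPowerSeries_coeff_of_neg _ hk, ModularCurve.ofPowerSeries_coeff_of_neg _ hk,
      map_zero]

theorem qSer_jFun : qSer 1 ⟨jFun, jFun_mem⟩ = jqC := by
  have hmul : (⟨jFun, jFun_mem⟩ : ↥(perMero 1)) * ⟨Δ, discriminant_mem⟩ = ⟨_, E4_mem⟩ ^ 3 :=
    Subtype.ext (funext fun τ => div_mul_cancel₀ _ (ModularForm.discriminant_ne_zero τ))
  have hne : qSer 1 ⟨Δ, discriminant_mem⟩ ≠ 0 :=
    (map_ne_zero_iff _ qSer_injective).mpr fun h =>
      ModularForm.discriminant_ne_zero UpperHalfPlane.I (congrFun (congrArg Subtype.val h) _)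
  refine mul_right_cancel₀ hne ?_
  rw [← map_mul, hmul, map_pow, qSer_E4, qSer_discriminant, jqC, ModularCurve.jq, map_mul,
    ModularCurve.coeffMap_single, map_one, coeffMap_ofPowerSeries, ModularCurve.jNumQ]
  rw [show (PowerSeries.map (algebraMap ℚ ℂ))
      (PowerSeries.map (Int.castRingHom ℚ) ModularCurve.jNum)
      = PowerSeries.map (Int.castRingHom ℂ) ModularCurve.jNum from
    (congrFun (congrArg DFunLike.coe (PowerSeries.map_comp (Int.castRingHom ℚ) (algebraMap ℚ ℂ)))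
      ModularCurve.jNum).symm.trans
      (by rw [RingHom.ext_int ((algebraMap ℚ ℂ).comp (Int.castRingHom ℚ)) (Int.castRingHom ℂ)])]
  rw [mul_mul_mul_comm, HahnSeries.single_mul_single]
  norm_num
  rw [← map_mul, ← map_mul, ← map_pow, ← map_pow]
  congr 2
  rw [ModularCurve.jNum, mul_assoc, mul_comm ModularCurve.dedekindEtaUnitInv,
    ModularCurve.dedekindEtaUnit_mul_inv, mul_one]

theorem jqC_coeff_neg_one : jqC.coeff (-1) = 1 := by
  simp [jqC]

theorem jqC_ne_zero : jqC ≠ 0 := fun h => by simpa [h] using jqC_coeff_neg_one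

theorem jqC_order : jqC.order = -1 := by
  refine le_antisymm (HahnSeries.order_le_of_coeff_ne_zero (by simp [jqC_coeff_neg_one])) ?_
  by_contra hlt
  rw [not_le] at hlt
  refine jqC_ne_zero (HahnSeries.coeff_order_eq_zero.mp ?_)
  show algebraMap ℚ ℂ (ModularCurve.jq.coeff jqC.order) = 0
  rw [ModularCurve.coeff_jq_of_lt hlt, map_zero]

end Fermat.Agent.X0Analytic
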