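/-
The ring of holomorphic modular functions of level `Γ₀(N)` (meromorphic at all cusps), its
conjugates indexed by `SL(2,ℤ) ⧸ Γ₀(N)`, and the level-one principle.
-/
import Fermat.Agent.X0Analytic.JFun
import Fermat.Agent.Gamma0Count.Basic
import Mathlib.NumberTheory.ModularForms.NormTrace
import Mathlib.RingTheory.EuclideanDomain

set_option autoImplicit false

noncomputable section

open UpperHalfPlane Filter Topology Function CongruenceSubgroup
open scoped Manifold MatrixGroups ModularForm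

namespace Fermat.Agent.X0Analytic

open Gamma0Count (CosetSpace)

/-- Holomorphic `Γ₀(N)`-invariant functions which are meromorphic at every cusp. -/
def modFun (N : ℕ) [NeZero N] : Subalgebra ℂ (ℍ → ℂ) where
  carrier := {f | MDiff f ∧ (∀ γ ∈ Gamma0 N, ∀ τ : ℍ, f (γ • τ) = f τ) ∧
    ∀ g : SL(2, ℤ), (fun τ : ℍ => f (g • τ)) ∈ perMero N}
  mul_mem' {f g} hf hg := ⟨hf.1.mul hg.1,
    fun γ hγ τ => congrArg₂ (· * ·) (hf.2.1 γ hγ τ) (hg.2.1 γ hγ τ),
    fun α => mul_mem (hf.2.2 α) (hg.2.2 α)⟩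
  add_mem' {f g} hf hg := ⟨hf.1.add hg.1,
    fun γ hγ τ => congrArg₂ (· + ·) (hf.2.1 γ hγ τ) (hg.2.1 γ hγ τ),
    fun α => add_mem (hf.2.2 α) (hg.2.2 α)⟩
  algebraMap_mem' c := ⟨mdifferentiable_const, fun _ _ _ => rfl,
    fun _ => Subalgebra.algebraMap_mem (perMero N) c⟩

variable {N : ℕ} [NeZero N]

theorem modFun_le_holFun : modFun N ≤ holFun := fun _ hf => hf.1

/-- The inclusion into all holomorphic functions. -/
def modToHol (N : ℕ) [NeZero N] : ↥(modFun N) →ₐ[ℂ] Hol :=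
  Subalgebra.inclusion modFun_le_holFun

theorem modToHol_injective : Function.Injective (modToHol N) :=
  Subalgebra.inclusion_injective _

/-- `f ↦ f ∘ g` as a map to periodic functions. -/
def compSL (g : SL(2, ℤ)) : ↥(modFun N) →ₐ[ℂ] ↥(perMero N) where
  toFun f := ⟨fun τ => (f : ℍ → ℂ) (g • τ), f.2.2.2 g⟩
  map_one' := rfl
  map_mul' _ _ := rfl
  map_zero' := rfl
  map_add' _ _ := rfl
  commutes' _ := rfl

@[simp]
theorem compSL_apply (g : SL(2, ℤ)) (f : ↥(modFun N)) (τ : ℍ) :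
    (compSL g f : ℍ → ℂ) τ = (f : ℍ → ℂ) (g • τ) :=
  rfl

theorem compSL_eq_of_mem {γ : SL(2, ℤ)} (hγ : γ ∈ Gamma0 N) (g : SL(2, ℤ)) :
    compSL (N := N) (γ * g) = compSL g := by
  refine AlgHom.ext fun f => Subtype.ext (funext fun τ => ?_)
  simp only [compSL_apply, mul_smul]
  exact f.2.2.1 γ hγ _

/-- The conjugate of a modular function attached to the coset `g Γ₀(N)`: `f ↦ f ∘ g⁻¹`. -/
def conj (x : CosetSpace N) : ↥(modFun N) →ₐ[ℂ] ↥(perMero N) :=
  Quotient.liftOn' x (fun g => compSL g⁻¹) fun g g' h => by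
    rw [QuotientGroup.leftRel_apply] at h
    have : g'⁻¹ = (g⁻¹ * g')⁻¹ * g⁻¹ := by group
    rw [this, compSL_eq_of_mem (inv_mem h)]

theorem conj_mk_apply (g : SL(2, ℤ)) (f : ↥(modFun N)) (τ : ℍ) :
    (conj (g : CosetSpace N) f : ℍ → ℂ) τ = (f : ℍ → ℂ) (g⁻¹ • τ) :=
  rfl

theorem conj_smul_apply (δ : SL(2, ℤ)) (x : CosetSpace N) (f : ↥(modFun N)) (τ : ℍ) :
    (conj (δ • x) f : ℍ → ℂ) τ = (conj x f : ℍ → ℂ) (δ⁻¹ • τ) := by
  induction x using QuotientGroup.induction_on with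
  | H g =>
    rw [MulAction.Quotient.smul_coe, conj_mk_apply, conj_mk_apply, smul_eq_mul, mul_inv_rev,
      mul_smul]

/-! ### The functions `j (d τ)` -/

/-- The map `τ ↦ (A τ + B) / D`. -/
def upperGL (A : ℕ) (B : ℤ) (D : ℕ) [NeZero A] [NeZero D] : GL (Fin 2) ℝ :=
  Matrix.GeneralLinearGroup.mkOfDetNeZero !![(A : ℝ), (B : ℝ); 0, (D : ℝ)]
    (by simp [Matrix.det_fin_two_of, NeZero.ne A, NeZero.ne D])

theorem det_pos_upperGL (A : ℕ) (B : ℤ) (D : ℕ) [NeZero A] [NeZero D] :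
    0 < (upperGL A B D).det.val := by
  simp [upperGL, Matrix.det_fin_two_of, Nat.pos_of_ne_zero (NeZero.ne A),
    Nat.pos_of_ne_zero (NeZero.ne D)]

theorem coe_upperGL_smul (A : ℕ) (B : ℤ) (D : ℕ) [NeZero A] [NeZero D] (τ : ℍ) :
    ((upperGL A B D • τ : ℍ) : ℂ) = ((A : ℂ) * τ + B) / D := by
  rw [coe_smul_of_det_pos (det_pos_upperGL A B D)]
  simp [upperGL, num, denom]

theorem qp_one_upperGL (A : ℕ) (B : ℤ) (D : ℕ) [NeZero A] [NeZero D] (h M : ℕ) [NeZero h]
    (hM : M * D = A * h) (τ : ℍ) :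
    qp 1 (upperGL A B D • τ) =
      Complex.exp (2 * Real.pi * Complex.I * B / D) * qp h τ ^ M := by
  simp only [qp, Periodic.qParam, coe_upperGL_smul, ← Complex.exp_nat_mul, ← Complex.exp_add]
  congr 1
  have hD : (D : ℂ) ≠ 0 := Nat.cast_ne_zero.mpr (NeZero.ne D)
  have hh : (h : ℂ) ≠ 0 := Nat.cast_ne_zero.mpr (NeZero.ne h)
  have hM' : (M : ℂ) * D = A * h := by exact_mod_cast hM
  push_cast
  field_simp
  linear_combination -(τ : ℂ) * hM'

/-- The first column decides membership in `Γ₀`. -/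
theorem exists_decomp (d : ℕ) [NeZero d] (g : SL(2, ℤ)) :
    ∃ (γ : SL(2, ℤ)) (A : ℕ) (B : ℤ) (D : ℕ) (_ : NeZero A) (_ : NeZero D),
      A * D = d ∧ g 1 0 = γ 1 0 * A ∧
      ∀ τ : ℍ, scaleGL d • (g • τ) = γ • (upperGL A B D • τ) := by
  set a := g 0 0 with ha
  set b := g 0 1 with hb
  set c := g 1 0 with hc
  set e := g 1 1 with he
  have hdet : a * e - b * c = 1 := by
    have := g.det_coe
    rwa [Matrix.det_fin_two] at this
  have hd0 : (d : ℤ) ≠ 0 := by exact_mod_cast NeZero.ne d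
  have hG0 : Int.gcd ((d : ℤ) * a) c ≠ 0 := by
    intro h0
    rw [Int.gcd_eq_zero_iff] at h0
    have ha0 : a = 0 := (mul_eq_zero.mp h0.1).resolve_left hd0
    rw [ha0, h0.2] at hdet
    simp at hdet
  obtain ⟨u, hu⟩ : (Int.gcd ((d : ℤ) * a) c : ℤ) ∣ (d : ℤ) * a := Int.gcd_dvd_left _ _
  obtain ⟨v, hv⟩ : (Int.gcd ((d : ℤ) * a) c : ℤ) ∣ c := Int.gcd_dvd_right _ _
  have hbez := Int.gcd_eq_gcd_ab ((d : ℤ) * a) c
  set x := Int.gcdA ((d : ℤ) * a) c
  set y := Int.gcdB ((d : ℤ) * a) c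
  set G := Int.gcd ((d : ℤ) * a) c
  have hG0' : (G : ℤ) ≠ 0 := by exact_mod_cast hG0
  have hxy : u * x + v * y = 1 := by
    apply mul_left_cancel₀ hG0'
    rw [mul_one]
    linear_combination -hbez - x * hu - y * hv
  have hD : (G : ℤ) * (u * e - v * ((d : ℤ) * b)) = d := by
    linear_combination (-e) * hu + (d : ℤ) * b * hv + (d : ℤ) * hdet
  have hDpos : 0 < u * e - v * ((d : ℤ) * b) := by
    have hdpos : (0 : ℤ) < d := by exact_mod_cast Nat.pos_of_ne_zero (NeZero.ne d)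
    exact pos_of_mul_pos_right (hD ▸ hdpos) (by positivity)
  obtain ⟨D, hDe⟩ : ∃ D : ℕ, (D : ℤ) = u * e - v * ((d : ℤ) * b) :=
    ⟨_, Int.toNat_of_nonneg hDpos.le⟩
  haveI hG' : NeZero G := ⟨hG0⟩
  haveI hD' : NeZero D := ⟨by omega⟩
  let γ : SL(2, ℤ) := ⟨!![u, -y; v, x], by
    rw [Matrix.det_fin_two_of]; linear_combination hxy⟩
  refine ⟨γ, G, x * ((d : ℤ) * b) + y * e, D, hG', hD', ?_, ?_, fun τ => ?_⟩
  · exact_mod_cast (by rw [hDe]; exact hD : ((G : ℤ) * D = d))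
  · show c = v * G
    linear_combination hv
  · have key : scaleGL d * (g : GL (Fin 2) ℝ) =
        (γ : GL (Fin 2) ℝ) * upperGL G (x * ((d : ℤ) * b) + y * e) D := by
      have h1 : ((d : ℝ)) * a = u * G := by exact_mod_cast (hu.trans (mul_comm _ _))
      have h2 : (c : ℝ) = v * G := by exact_mod_cast (hv.trans (mul_comm _ _))
      have h3 : (d : ℝ) * b =
          u * ((x * ((d : ℤ) * b) + y * e : ℤ) : ℝ) + -y * D := by
        have : (d : ℤ) * b = u * (x * ((d : ℤ) * b) + y * e) + -y * D := by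
          rw [hDe]; linear_combination (-((d : ℤ) * b)) * hxy
        exact_mod_cast this
      have h4 : (e : ℝ) = v * ((x * ((d : ℤ) * b) + y * e : ℤ) : ℝ) + x * D := by
        have : e = v * (x * ((d : ℤ) * b) + y * e) + x * D := by
          rw [hDe]; linear_combination (-e) * hxy
        exact_mod_cast this
      refine Matrix.GeneralLinearGroup.ext fun i j => ?_
      fin_cases i <;> fin_cases j <;>
        simp [scaleGL, upperGL, γ, Matrix.mul_apply, Fin.sum_univ_two, ← ha, ← hb, ← hc, ← he]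
      · exact h1
      · simpa using h3
      · exact h2
      · simpa using h4
    show scaleGL d • ((g : GL (Fin 2) ℝ) • τ) = (γ : GL (Fin 2) ℝ) • _
    rw [← mul_smul, key, mul_smul]

/-- `τ ↦ j (d τ)`. -/
def scaledJ (d : ℕ) [NeZero d] (τ : ℍ) : ℂ := jFun (scaleGL d • τ)

theorem scaledJ_smul_of_mem {d : ℕ} [NeZero d] (hd : d ∣ N) {γ : SL(2, ℤ)} (hγ : γ ∈ Gamma0 N)
    (τ : ℍ) : scaledJ d (γ • τ) = scaledJ d τ := by
  obtain ⟨m, hm⟩ : (d : ℤ) ∣ γ 1 0 := by
    rw [Gamma0_mem, ZMod.intCast_zmod_eq_zero_iff_dvd] at hγ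
    exact (Int.natCast_dvd_natCast.mpr hd).trans hγ
  let δ : SL(2, ℤ) := ⟨!![γ 0 0, (d : ℤ) * γ 0 1; m, γ 1 1], by
    have h := γ.det_coe
    rw [Matrix.det_fin_two, hm] at h
    rw [Matrix.det_fin_two_of]
    linear_combination h⟩
  have key : scaleGL d * (γ : GL (Fin 2) ℝ) = (δ : GL (Fin 2) ℝ) * scaleGL d := by
    refine Matrix.GeneralLinearGroup.ext fun i j => ?_
    fin_cases i <;> fin_cases j <;>
      simp [scaleGL, δ, Matrix.mul_apply, Fin.sum_univ_two, hm, mul_comm]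
  have key' : scaleGL d • (γ • τ) = δ • (scaleGL d • τ) := by
    show scaleGL d • ((γ : GL (Fin 2) ℝ) • τ) = (δ : GL (Fin 2) ℝ) • _
    rw [← mul_smul, key, mul_smul]
  rw [scaledJ, key', jFun_smul, scaledJ]

/-- The Laurent series of `j (d (g τ))` at `∞`. -/
theorem scaledJ_comp {d : ℕ} [NeZero d] (hd : d ∣ N) (g : SL(2, ℤ)) :
    ∃ (A D M : ℕ) (_ : NeZero M) (ζ : ℂ) (hζ : ζ ≠ 0)
      (hmem : (fun τ : ℍ => scaledJ d (g • τ)) ∈ perMero N),
      A * D = d ∧ (A : ℤ) ∣ g 1 0 ∧ M * D = A * N ∧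
      qSer N ⟨_, hmem⟩ = ModularCurve.qExpand ℂ M (rot ζ hζ jqC) := by
  obtain ⟨γ, A, B, D, _, _, hAD, hA, hτ⟩ := exists_decomp d g
  obtain ⟨k, hk⟩ := hd
  have hM : (A * A * k) * D = A * N := by rw [hk, ← hAD]; ring
  haveI : NeZero (A * A * k) := ⟨fun h => by
    rw [h, zero_mul] at hM
    exact mul_ne_zero (NeZero.ne A) (NeZero.ne N) hM.symm⟩
  obtain ⟨hmem, hser⟩ := qSer_subst (h' := N) (M := A * A * k) ⟨jFun, jFun_mem⟩
    (fun τ => upperGL A B D • τ) (mdifferentiable_smul (det_pos_upperGL A B D))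
    (Complex.exp (2 * Real.pi * Complex.I * B / D)) (Complex.exp_ne_zero _)
    (qp_one_upperGL A B D N _ hM)
  have heq : (fun τ : ℍ => scaledJ d (g • τ)) = jFun ∘ fun τ => upperGL A B D • τ := by
    funext τ
    rw [scaledJ, hτ, jFun_smul]
    rfl
  have hmem' : (fun τ : ℍ => scaledJ d (g • τ)) ∈ perMero N := heq ▸ hmem
  refine ⟨A, D, A * A * k, inferInstance, Complex.exp (2 * Real.pi * Complex.I * B / D),
    Complex.exp_ne_zero _, hmem', hAD, ⟨γ 1 0, by rw [hA, mul_comm]⟩, hM, ?_⟩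
  rw [show (⟨_, hmem'⟩ : ↥(perMero N)) = ⟨_, hmem⟩ from Subtype.ext heq, hser, qSer_jFun]

theorem scaledJ_mem {d : ℕ} [NeZero d] (hd : d ∣ N) : scaledJ d ∈ modFun N :=
  ⟨jFun_mdiff.comp (mdifferentiable_smul (det_pos_scaleGL d)),
    fun _ hγ τ => scaledJ_smul_of_mem hd hγ τ,
    fun g => by
      obtain ⟨_, _, _, _, _, _, hmem, -⟩ := scaledJ_comp hd g
      exact hmem⟩

theorem scaleGL_one_smul (τ : ℍ) : scaleGL 1 • τ = τ :=
  UpperHalfPlane.ext (by simp [coe_scaleGL_smul])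

theorem scaledJ_one : scaledJ 1 = jFun := funext fun τ => by rw [scaledJ, scaleGL_one_smul]

theorem jFun_mem_modFun : jFun ∈ modFun N := scaledJ_one ▸ scaledJ_mem (one_dvd N)

/-- `j` as an element of `modFun N`. -/
def jMod (N : ℕ) [NeZero N] : ↥(modFun N) := ⟨jFun, jFun_mem_modFun⟩

theorem conj_jMod_apply (x : CosetSpace N) (τ : ℍ) :
    (conj x (jMod N) : ℍ → ℂ) τ = jFun τ := by
  induction x using QuotientGroup.induction_on with
  | H g => exact jFun_smul _ τ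

theorem order_qExpand {R : Type*} [CommRing R] (M : ℕ) [NeZero M] {x : LaurentSeries R}
    (hx : x ≠ 0) : (ModularCurve.qExpand R M x).order = (M : ℤ) * x.order := by
  have h0 : (ModularCurve.qExpand R M x).coeff ((M : ℤ) * x.order) ≠ 0 := by
    rw [ModularCurve.qExpand_coeff_mul]
    exact mt HahnSeries.coeff_order_eq_zero.mp hx
  have hne : ModularCurve.qExpand R M x ≠ 0 := fun h => h0 (by rw [h]; rfl)
  refine le_antisymm (HahnSeries.order_le_of_coeff_ne_zero h0) ?_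
  by_contra hlt
  rw [not_le] at hlt
  refine hne (HahnSeries.coeff_order_eq_zero.mp ?_)
  set n := (ModularCurve.qExpand R M x).order
  by_cases hd : (M : ℤ) ∣ n
  · obtain ⟨k, hk⟩ := hd
    rw [hk] at hlt ⊢
    rw [ModularCurve.qExpand_coeff_mul]
    exact HahnSeries.coeff_eq_zero_of_lt_order
      (lt_of_mul_lt_mul_left hlt (Int.natCast_nonneg M))
  · exact ModularCurve.qExpand_coeff_of_not_dvd _ _ hd

theorem order_rot {K : Type*} [Field K] {ζ : K} (hζ : ζ ≠ 0) {x : LaurentSeries K} (hx : x ≠ 0) :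
    (rot ζ hζ x).order = x.order := by
  have h0 : (rot ζ hζ x).coeff x.order ≠ 0 := by
    rw [rot_coeff]
    exact mul_ne_zero (zpow_ne_zero _ hζ) (mt HahnSeries.coeff_order_eq_zero.mp hx)
  have hne : rot ζ hζ x ≠ 0 := fun h => h0 (by rw [h]; rfl)
  refine le_antisymm (HahnSeries.order_le_of_coeff_ne_zero h0)
    (HahnSeries.order_le_of_coeff_ne_zero ?_)
  have h1 : (rot ζ hζ x).coeff (rot ζ hζ x).order ≠ 0 :=
    mt HahnSeries.coeff_order_eq_zero.mp hne
  rw [rot_coeff] at h1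
  exact right_ne_zero_of_mul h1

theorem rot_jqC_ne_zero {ζ : ℂ} (hζ : ζ ≠ 0) : rot ζ hζ jqC ≠ 0 :=
  (map_ne_zero_iff _ (rot ζ hζ).injective).mpr jqC_ne_zero

/-- `j(Nτ)` alone separates the conjugates. -/
theorem mem_Gamma0_of_scaledJ_eq {g : SL(2, ℤ)}
    (h : ∀ τ : ℍ, scaledJ N (g • τ) = scaledJ N τ) : g ∈ Gamma0 N := by
  obtain ⟨A, D, M, _, ζ, hζ, hmem, hAD, hA, hM, hser⟩ := scaledJ_comp (N := N) dvd_rfl g
  obtain ⟨A', D', M', _, ζ', hζ', hmem', hAD', hA', hM', hser'⟩ :=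
    scaledJ_comp (N := N) dvd_rfl 1
  have heq : (⟨_, hmem⟩ : ↥(perMero N)) = ⟨_, hmem'⟩ :=
    Subtype.ext (funext fun τ => by
      show scaledJ N (g • τ) = scaledJ N ((1 : SL(2, ℤ)) • τ)
      rw [h τ, one_smul])
  have ho := congrArg HahnSeries.order (hser.symm.trans ((congrArg (qSer N) heq).trans hser'))
  rw [order_qExpand _ (rot_jqC_ne_zero hζ), order_qExpand _ (rot_jqC_ne_zero hζ'),
    order_rot hζ jqC_ne_zero, order_rot hζ' jqC_ne_zero, jqC_order] at ho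
  have hMM : M = M' := by omega
  have hMA : ∀ {A D M : ℕ}, A * D = N → M * D = A * N → M = A * A := by
    intro A D M hAD hM
    rw [← hAD, ← mul_assoc] at hM
    exact mul_right_cancel₀ (fun h => NeZero.ne N (by rw [← hAD, h, mul_zero])) hM
  have h1 := hMA hAD hM
  have h2 := hMA hAD' hM'
  have hAA : A = A' := Nat.mul_self_inj.mp (by omega)
  -- for `g = 1` the decomposition has `A = N`
  obtain ⟨A1, D1, M1, _, ζ1, hζ1, hmem1, hser1⟩ :
      ∃ (A1 D1 M1 : ℕ) (_ : NeZero M1) (ζ1 : ℂ) (hζ1 : ζ1 ≠ 0) (hm : scaledJ N ∈ perMero N),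
        M1 = N * N ∧ qSer N ⟨_, hm⟩ = ModularCurve.qExpand ℂ M1 (rot ζ1 hζ1 jqC) := by
    haveI : NeZero (N * N) := ⟨mul_ne_zero (NeZero.ne N) (NeZero.ne N)⟩
    obtain ⟨hm, hs⟩ := qSer_subst (h' := N) (M := N * N) ⟨jFun, jFun_mem⟩
      (fun τ => scaleGL N • τ) (mdifferentiable_smul (det_pos_scaleGL N)) 1 one_ne_zero (fun τ => by
        simp only [qp, Periodic.qParam, coe_scaleGL_smul, ← Complex.exp_nat_mul, one_mul]
        congr 1
        push_cast
        field_simp [NeZero.ne N])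
    exact ⟨0, 0, N * N, inferInstance, 1, one_ne_zero, hm, rfl, qSer_jFun ▸ hs⟩
  have heq1 : (⟨_, hmem'⟩ : ↥(perMero N)) = ⟨_, hmem1⟩ :=
    Subtype.ext (funext fun τ => by
      show scaledJ N ((1 : SL(2, ℤ)) • τ) = scaledJ N τ
      rw [one_smul])
  have ho1 := congrArg HahnSeries.order
    (hser'.symm.trans ((congrArg (qSer N) heq1).trans hser1.2))
  rw [order_qExpand _ (rot_jqC_ne_zero hζ'), order_qExpand _ (rot_jqC_ne_zero hζ1),
    order_rot hζ' jqC_ne_zero, order_rot hζ1 jqC_ne_zero, jqC_order] at ho1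
  have hMM1 : M' = M1 := by omega
  have hAN : A = N := Nat.mul_self_inj.mp (by rw [hAA, ← h2, hMM1, hser1.1])
  rw [Gamma0_mem, ZMod.intCast_zmod_eq_zero_iff_dvd]
  exact hAN ▸ hA

theorem conj_scaledJ_injective {x y : CosetSpace N}
    (h : conj x ⟨_, scaledJ_mem (dvd_refl N)⟩ = conj y ⟨_, scaledJ_mem (dvd_refl N)⟩) : x = y := by
  induction x using QuotientGroup.induction_on with
  | H g =>
    induction y using QuotientGroup.induction_on with
    | H k =>
      rw [QuotientGroup.eq]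
      refine mem_Gamma0_of_scaledJ_eq fun τ => ?_
      have := congrFun (congrArg Subtype.val h) (k • τ)
      simp only [conj_mk_apply, inv_smul_smul] at this
      rw [mul_smul]
      exact this

/-! ### Level one -/

theorem exists_polynomial_of_levelOne {f : ℍ → ℂ} (hf : f ∈ perMero 1)
    (hinv : ∀ (γ : SL(2, ℤ)) (τ : ℍ), f (γ • τ) = f τ) :
    ∃ P : Polynomial ℂ, ∀ τ, f τ = P.eval (jFun τ) := by
  suffices ∀ (m : ℕ) (f : ↥(perMero 1)), (∀ (γ : SL(2, ℤ)) (τ : ℍ),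
      (f : ℍ → ℂ) (γ • τ) = (f : ℍ → ℂ) τ) → (∀ n : ℤ, n < -(m : ℤ) → (qSer 1 f).coeff n = 0) →
      ∃ P : Polynomial ℂ, ∀ τ, (f : ℍ → ℂ) τ = P.eval (jFun τ) by
    obtain ⟨m, hm⟩ := hf.2.2
    exact this m ⟨f, hf⟩ hinv fun n hn => qSer_coeff_of_lt _ hm hn
  intro m
  induction m with
  | zero =>
    intro f hinv hc
    have hb := (isBoundedAtImInfty_iff_coeff f).mpr fun n hn => hc n (by simpa using hn)
    let F : ModularForm 𝒮ℒ 0 :=
      { toFun := f
        slash_action_eq' := fun A hA => by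
          obtain ⟨A, rfl⟩ := hA
          funext τ
          show ((f : ℍ → ℂ) ∣[(0 : ℤ)] A) τ = _
          rw [ModularForm.SL_slash_apply, hinv A τ]
          simp
        holo' := f.2.1
        bdd_at_cusps' := fun {c} hc => by
          rw [OnePoint.isBoundedAt_iff_forall_SL2Z hc]
          intro γ _
          have : (f : ℍ → ℂ) ∣[(0 : ℤ)] γ = f := by
            funext τ
            rw [ModularForm.SL_slash_apply, hinv γ τ]
            simp
          rwa [this] }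
    obtain ⟨c, hc⟩ := ModularForm.eq_const_of_weight_zero F
    exact ⟨Polynomial.C c, fun τ => (congrFun hc τ).trans Polynomial.eval_C.symm⟩
  | succ m ih =>
    intro f hinv hc
    set c := (qSer 1 f).coeff (-((m : ℤ) + 1)) with hcdef
    let g : ↥(perMero 1) := f - algebraMap ℂ _ c * (⟨jFun, jFun_mem⟩ : ↥(perMero 1)) ^ (m + 1)
    have hg : ∀ τ, (g : ℍ → ℂ) τ = (f : ℍ → ℂ) τ - c * jFun τ ^ (m + 1) := fun τ => rfl
    obtain ⟨P, hP⟩ := ih g (fun γ τ => by rw [hg, hg, hinv, jFun_smul]) fun n hn => by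
      simp only [g, map_sub, map_mul, map_pow, qSer_algebraMap, qSer_jFun, HahnSeries.coeff_sub,
        HahnSeries.coeff_single_mul, sub_zero]
      rw [jqC, ← map_pow, ModularCurve.coeffMap_coeff]
      rcases lt_or_eq_of_le (show n ≤ -((m : ℤ) + 1) by omega) with hlt | rfl
      · rw [hc n (by push_cast; omega),
          ModularCurve.coeff_jq_pow_of_lt (by push_cast; omega), map_zero, mul_zero, sub_zero]
      · have h1 := ModularCurve.coeff_jq_pow_self (m + 1)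
        push_cast at h1
        rw [h1, map_one, mul_one, ← hcdef, sub_self]
    refine ⟨P + Polynomial.C c * Polynomial.X ^ (m + 1), fun τ => ?_⟩
    simp [← hP τ, hg]

end Fermat.Agent.X0Analytic
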