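import Fermat.Agent.X0Analytic.Ramification
import Fermat.Agent.FunctionFieldRR.RiemannRoch
import Fermat.Prelude.Def_ModularCurve_GenusNumerics

/-!
The different of `j` on the modular function field and the genus of `X₀(N)`.
-/

set_option autoImplicit false

noncomputable section

open AlgebraicCurve IntermediateField
open scoped MatrixGroups

namespace Fermat.Agent.X0Analytic

open Gamma0Count (CosetSpace)
open FunctionFieldRR

universe u

variable {L : Type u} [Field L] [Algebra ℚ L] [IsAlgClosed L] {N : ℕ} [NeZero N]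

local instance : Algebra L ↥(FLevel L N) := inferInstance
local instance : Module L ↥(FLevel L N) := inferInstance
local instance : SMul L ↥(FLevel L N) := inferInstance
local instance : IsScalarTower L L ↥(FLevel L N) := inferInstance
local instance : Algebra L ↥(jField L N) := inferInstance
local instance : Algebra ↥(jField L N) ↥(FLevel L N) := inferInstance

theorem charZero_of_algebra_rat (L : Type u) [Field L] [Algebra ℚ L] : CharZero L :=
  charZero_of_injective_algebraMap (algebraMap ℚ L).injective

omit [IsAlgClosed L] in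
theorem isSeparable_jField (φ : L →+* ℂ) :
    Algebra.IsSeparable ↥(jField L N) ↥(FLevel L N) := by
  have := charZero_of_algebra_rat L
  have : CharZero ↥(jField L N) :=
    charZero_of_injective_algebraMap (algebraMap L ↥(jField L N)).injective
  have := finiteDimensional_jField (N := N) φ
  infer_instance

variable (φ : L →+* ℂ)

omit [IsAlgClosed L] [NeZero N] in
/-- `j` and `j - 1728` have no common zero. -/
theorem not_ord_jEl_zero_and_1728 (w : Place L ↥(FLevel L N))
    (h0 : 0 < w.ord (jEl L N - algebraMap L ↥(FLevel L N) 0))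
    (h1 : 0 < w.ord (jEl L N - algebraMap L ↥(FLevel L N) 1728)) : False := by
  have := charZero_of_algebra_rat L
  have hd : VanishesTo w 1 (algebraMap L ↥(FLevel L N) 1728) := by
    have h := VanishesTo.sub (P := w) (m := 1) (f := jEl L N - algebraMap L ↥(FLevel L N) 0)
      (g := jEl L N - algebraMap L ↥(FLevel L N) 1728) (Or.inr h0) (Or.inr h1)
    rwa [map_zero, sub_zero, sub_sub_cancel] at h
  rcases hd with h | h
  · exact absurd h (by simp)
  · rw [ord_algebraMap] at h
    omega

variable [IsFunctionField L ↥(FLevel L N)]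
  [FiniteDimensional L⟮jEl L N⟯ ↥(FLevel L N)]
  [Algebra.IsSeparable L⟮jEl L N⟯ ↥(FLevel L N)]

/-- The different exponent over `L(j)` is `e - 1`. -/
theorem differentExp_jEl (w : Place L ↥(FLevel L N)) :
    differentExp (transcendental_jEl (N := N) φ) w =
      w.ramificationIndex L⟮jEl L N⟯ - 1 := by
  have hx := transcendental_jEl (N := N) φ
  have := charZero_of_algebra_rat L
  have := isFunctionField_adjoin hx
  refine diffExp_eq_of_tame (fullFiber_adjoin hx) ?_
  have := one_le_ramificationIndex (F := L⟮jEl L N⟯) w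
  exact Nat.cast_ne_zero.mpr (by omega)

theorem differentExp_jEl_of_zero {w : Place L ↥(FLevel L N)} {c : L}
    (h : 0 < w.ord (jEl L N - algebraMap L ↥(FLevel L N) c)) :
    (differentExp (transcendental_jEl (N := N) φ) w : ℤ) =
      w.ord (jEl L N - algebraMap L ↥(FLevel L N) c) - 1 := by
  have := ramificationIndex_eq_ord_sub (transcendental_jEl (N := N) φ) h
  have := one_le_ramificationIndex (F := L⟮jEl L N⟯) w
  rw [differentExp_jEl φ w]
  omega

theorem differentExp_jEl_of_pole {w : Place L ↥(FLevel L N)} (h : w.ord (jEl L N) < 0) :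
    (differentExp (transcendental_jEl (N := N) φ) w : ℤ) = -w.ord (jEl L N) - 1 := by
  have := ramificationIndex_eq_neg_ord (transcendental_jEl (N := N) φ) h
  have := one_le_ramificationIndex (F := L⟮jEl L N⟯) w
  rw [differentExp_jEl φ w]
  omega

/-- The canonical divisor of `dj` at a zero of `j - c`. -/
theorem canonicalDiv_jEl_of_zero {w : Place L ↥(FLevel L N)} {c : L}
    (h : 0 < w.ord (jEl L N - algebraMap L ↥(FLevel L N) c)) :
    canonicalDiv (transcendental_jEl (N := N) φ) w =
      w.ord (jEl L N - algebraMap L ↥(FLevel L N) c) - 1 := by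
  have hx := transcendental_jEl (N := N) φ
  rw [canonicalDiv_apply, differentExp_jEl_of_zero φ h,
    max_eq_right (neg_nonpos.2 (ord_nonneg_of_restrict_eq hx
      ((restrict_eq_finitePlace_iff hx).2 h)))]
  ring

/-- The canonical divisor of `dj` at a pole of `j`. -/
theorem canonicalDiv_jEl_of_pole {w : Place L ↥(FLevel L N)} (h : w.ord (jEl L N) < 0) :
    canonicalDiv (transcendental_jEl (N := N) φ) w = w.ord (jEl L N) - 1 := by
  rw [canonicalDiv_apply, differentExp_jEl_of_pole φ h, max_eq_left (by omega)]
  ring

/-- The counts of the places over `0`, `1728` and `∞` determine the different. -/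
theorem exists_counts :
    ∃ r0 r1 r2 : ℕ, 3 * r0 = ModularCurve.dedekindPsi N + 2 * ModularCurve.nuThree N ∧
      2 * r1 = ModularCurve.dedekindPsi N + ModularCurve.nuTwo N ∧
      r2 = ModularCurve.cuspCount N ∧
      Divisor.degree (differentDiv (transcendental_jEl (N := N) φ)) =
        3 * (ModularCurve.dedekindPsi N : ℤ) - r0 - r1 - r2 := by
  classical
  obtain ⟨p0, h0⟩ := exists_places_zero (N := N) φ
  obtain ⟨p1, h1⟩ := exists_places_1728 (N := N) φ
  obtain ⟨p2, h2⟩ := exists_places_infty (N := N) φ
  refine ⟨(Finset.univ.image p0).card, (Finset.univ.image p1).card, (Finset.univ.image p2).card,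
    ?_, ?_, h2.card_eq_cuspCount, ?_⟩
  · rw [h0.card_mul Nat.prime_three fun s => period_dvd ST_pow_three s]
    simp only [cosetPerm_apply, Gamma0Count.card_fixedBy_ST]
  · rw [h1.card_mul Nat.prime_two fun s => period_dvd S_pow_two s]
    simp only [cosetPerm_apply, Gamma0Count.card_fixedBy_S, show 2 - 1 = 1 from rfl, one_mul]
  set S0 := Finset.univ.image p0
  set S1 := Finset.univ.image p1
  set S2 := Finset.univ.image p2
  have m2 : ∀ w, w ∈ S2 ↔ w.ord (jEl L N) < 0 := fun w => by
    rw [h2.mem_iff, w.ord_inv, neg_pos]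
  have hx := transcendental_jEl (N := N) φ
  have d01 : Disjoint S0 S1 := Finset.disjoint_left.2 fun w a b =>
    not_ord_jEl_zero_and_1728 w ((h0.mem_iff w).1 a) ((h1.mem_iff w).1 b)
  have d2 : Disjoint (S0 ∪ S1) S2 := by
    rw [Finset.disjoint_left]
    intro w a b
    rw [m2] at b
    have hnn : ∀ c, 0 < w.ord (jEl L N - algebraMap L ↥(FLevel L N) c) → False := fun c hc => by
      have := ord_nonneg_of_restrict_eq hx ((restrict_eq_finitePlace_iff hx).2 hc)
      omega
    rcases Finset.mem_union.1 a with a | a
    · exact hnn _ ((h0.mem_iff w).1 a)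
    · exact hnn _ ((h1.mem_iff w).1 a)
  rw [degree_eq_sum, Finsupp.sum_of_support_subset _ (s := S0 ∪ S1 ∪ S2) ?_ _ (fun _ _ => rfl),
    Finset.sum_union d2, Finset.sum_union d01]
  · have hk : ∀ (S : Finset (Place L ↥(FLevel L N))) (x : ↥(FLevel L N)),
        (∀ w ∈ S, differentDiv hx w = w.ord x - 1) →
        ∑ w ∈ S, differentDiv hx w = ∑ w ∈ S, w.ord x - S.card := by
      intro S x hS
      rw [Finset.sum_congr rfl hS, Finset.sum_sub_distrib, Finset.sum_const, nsmul_eq_mul, mul_one]
    rw [hk S0 _ fun w hw => differentExp_jEl_of_zero φ ((h0.mem_iff w).1 hw),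
      hk S1 _ fun w hw => differentExp_jEl_of_zero φ ((h1.mem_iff w).1 hw),
      hk S2 (jEl L N)⁻¹ fun w hw => (differentExp_jEl_of_pole φ ((m2 w).1 hw)).trans
        (by rw [w.ord_inv]),
      h0.sum_ord, h1.sum_ord, h2.sum_ord]
    ring
  · intro w hw
    rw [Finsupp.mem_support_iff] at hw
    by_contra hn
    simp only [Finset.mem_union, not_or, m2] at hn
    rcases ord_pos_or_ord_neg w (jEl L N) with h | ⟨c, hc | hc⟩
    · exact hn.2 h
    · exact hx (hc ▸ isAlgebraic_algebraMap c)
    · refine hw ?_
      rw [differentDiv_apply, differentExp_jEl_of_zero φ hc]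
      rcases eq_or_ne c 0 with rfl | c0
      · exact absurd ((h0.mem_iff w).2 hc) hn.1.1
      rcases eq_or_ne c 1728 with rfl | c1
      · exact absurd ((h1.mem_iff w).2 hc) hn.1.2
      rw [ord_jEl_sub_eq_one φ w c c0 c1 hc, sub_self]

/-- The genus of the modular function field is given by the genus formula. -/
theorem genusOf_eq_genusFormula :
    (genusOf (transcendental_jEl (N := N) φ) : ℚ) = ModularCurve.genusFormula N := by
  obtain ⟨r0, r1, r2, e0, e1, e2, hdeg⟩ := exists_counts (N := N) φ
  have h := two_genusOf_sub_two (transcendental_jEl (N := N) φ)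
  rw [hdeg, finrank_jField φ] at h
  have hq := congrArg (Int.cast : ℤ → ℚ) h
  push_cast at hq
  have q0 : (3 : ℚ) * r0 = ModularCurve.dedekindPsi N + 2 * ModularCurve.nuThree N := by
    exact_mod_cast e0
  have q1 : (2 : ℚ) * r1 = ModularCurve.dedekindPsi N + ModularCurve.nuTwo N := by
    exact_mod_cast e1
  rw [ModularCurve.genusFormula, ← e2]
  linarith

end Fermat.Agent.X0Analytic
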