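import Fermat.Agent.X0Analytic.Ser
import Fermat.Prelude.Def_ModularCurve_ArithmeticGalois
import Fermat.Prelude.Thm_ModularCurve_coeffMap_qExpand
import Mathlib.FieldTheory.IntermediateField.Adjoin.Algebra
import Mathlib.FieldTheory.IntermediateField.Adjoin.Basic

/-!
Modular function fields over a subfield `L` of `ℂ`, realised by functions on `ℍ`.
-/

set_option autoImplicit false

noncomputable section

open UpperHalfPlane CongruenceSubgroup
open scoped Manifold MatrixGroups

namespace Fermat.Agent.X0Analytic

open Gamma0Count (CosetSpace)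

universe u

variable (L : Type u) [Field L] [Algebra ℚ L] (N : ℕ)

/-- The modular function field of level `N` over `L`. -/
abbrev FLevel : IntermediateField L (LaurentSeries L) :=
  ModularCurve.laurentBaseChange L (ModularCurve.modularFunctionFieldFull N)

/-- `j(q ^ d)` over `L`. -/
def jL (d : ℕ) [NeZero d] : LaurentSeries L :=
  ModularCurve.coeffEmb L (ModularCurve.qExpand ℚ d ModularCurve.jq)

/-- The generators `j(q ^ d)`, `d ∣ N`. -/
def genSet : Set (LaurentSeries L) := {x | ∃ (d : ℕ) (_ : NeZero d), d ∣ N ∧ x = jL L d}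

/-- The `L`-algebra generated by the `j(q ^ d)`. -/
def algGen : Subalgebra L (LaurentSeries L) := Algebra.adjoin L (genSet L N)

theorem FLevel_eq_adjoin : FLevel L N = IntermediateField.adjoin L (genSet L N) := by
  refine le_antisymm ?_ ?_
  · rw [FLevel, ModularCurve.laurentBaseChange, IntermediateField.adjoin_le_iff]
    rintro y ⟨x, hx, rfl⟩
    let M : IntermediateField ℚ (LaurentSeries ℚ) :=
      Subfield.toIntermediateField
        (Subfield.comap (ModularCurve.coeffEmb L) (IntermediateField.adjoin L (genSet L N)).toSubfield)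
        (fun r => by
          show ModularCurve.coeffEmb L (algebraMap ℚ (LaurentSeries ℚ) r) ∈
            IntermediateField.adjoin L (genSet L N)
          rw [ModularCurve.algebraMap_apply_eq_single, ModularCurve.coeffEmb,
            ModularCurve.coeffMap_single, ← ModularCurve.algebraMap_laurentSeries_eq_single]
          exact IntermediateField.algebraMap_mem _ _)
    have hM : ModularCurve.modularFunctionFieldFull N ≤ M := by
      rw [ModularCurve.modularFunctionFieldFull, IntermediateField.adjoin_le_iff]
      rintro z ⟨d, hd0, hd, rfl⟩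
      exact IntermediateField.subset_adjoin L _ ⟨d, hd0, hd, rfl⟩
    exact hM hx
  · rw [IntermediateField.adjoin_le_iff]
    rintro y ⟨d, hd0, hd, rfl⟩
    exact ModularCurve.coeffEmb_mem_laurentBaseChange L (ModularCurve.jqd_mem_full N hd)

theorem algGen_le : algGen L N ≤ (FLevel L N).toSubalgebra := by
  rw [FLevel_eq_adjoin]
  exact IntermediateField.algebra_adjoin_le_adjoin _ _

/-- The inclusion of the generated algebra into the field. -/
def algToField : ↥(algGen L N) →ₐ[L] ↥(FLevel L N) :=
  AlgHom.codRestrict (algGen L N).val (FLevel L N).toSubalgebra fun x => algGen_le L N x.2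

@[simp]
theorem coe_algToField (x : ↥(algGen L N)) :
    ((algToField L N x : ↥(FLevel L N)) : LaurentSeries L) = x :=
  rfl

instance algebraAlgGen : Algebra ↥(algGen L N) ↥(FLevel L N) :=
  (algToField L N).toRingHom.toAlgebra

theorem algToField_injective : Function.Injective (algToField L N) := fun a b h =>
  Subtype.ext (congrArg (fun x : ↥(FLevel L N) => (x : LaurentSeries L)) h)

theorem exists_div (x : ↥(FLevel L N)) :
    ∃ a b : ↥(algGen L N), b ≠ 0 ∧ x * algToField L N b = algToField L N a := by
  have hx : (x : LaurentSeries L) ∈ IntermediateField.adjoin L (genSet L N) :=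
    FLevel_eq_adjoin L N ▸ x.2
  obtain ⟨a, ha, b, hb, hab⟩ := IntermediateField.mem_adjoin_iff_div.mp hx
  rcases eq_or_ne b 0 with rfl | hb0
  · refine ⟨0, 1, one_ne_zero, Subtype.ext ?_⟩
    simp [hab]
  · refine ⟨⟨a, ha⟩, ⟨b, hb⟩, fun h => hb0 (congrArg Subtype.val h), Subtype.ext ?_⟩
    simp [hab, hb0]

instance isFractionRing_algGen : IsFractionRing ↥(algGen L N) ↥(FLevel L N) := by
  haveI : FaithfulSMul ↥(algGen L N) ↥(FLevel L N) :=
    (faithfulSMul_iff_algebraMap_injective _ _).mpr (algToField_injective L N)
  refine IsFractionRing.of_field _ _ fun z => ?_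
  obtain ⟨a, b, hb, hab⟩ := exists_div L N z
  refine ⟨a, b, ?_⟩
  have hb' : algToField L N b ≠ 0 := (map_ne_zero_iff _ (algToField_injective L N)).mpr hb
  show z = algToField L N a / algToField L N b
  rw [eq_div_iff hb', hab]

variable {L N} (φ : L →+* ℂ) [NeZero N]

theorem phi_comp_algebraMap : φ.comp (algebraMap ℚ L) = algebraMap ℚ ℂ :=
  RingHom.ext_rat _ _

theorem ser_scaledJ_eq {d : ℕ} [NeZero d] (hd : d ∣ N) :
    ser N ⟨scaledJ d, scaledJ_mem hd⟩ = ModularCurve.coeffMap φ (jL L d) := by
  rw [ser_scaledJ hd, jL, ModularCurve.coeffEmb, ModularCurve.coeffMap_coeffMap,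
    phi_comp_algebraMap, jqC, ModularCurve.coeffMap_qExpand]

theorem exists_modFun {x : LaurentSeries L} (hx : x ∈ algGen L N) :
    ∃ f : ↥(modFun N), ser N f = ModularCurve.coeffMap φ x := by
  induction hx using Algebra.adjoin_induction with
  | mem y hy =>
    obtain ⟨d, hd0, hd, rfl⟩ := hy
    exact ⟨⟨scaledJ d, scaledJ_mem hd⟩, ser_scaledJ_eq φ hd⟩
  | algebraMap c =>
    exact ⟨algebraMap ℂ _ (φ c), by
      rw [ser_algebraMap, ModularCurve.algebraMap_laurentSeries_eq_single,
        ModularCurve.coeffMap_single]⟩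
  | add y z _ _ hy hz =>
    obtain ⟨f, hf⟩ := hy
    obtain ⟨g, hg⟩ := hz
    exact ⟨f + g, by rw [map_add, map_add, hf, hg]⟩
  | mul y z _ _ hy hz =>
    obtain ⟨f, hf⟩ := hy
    obtain ⟨g, hg⟩ := hz
    exact ⟨f * g, by rw [map_mul, map_mul, hf, hg]⟩

/-- The modular function with the given series. -/
def toModFunFun (x : ↥(algGen L N)) : ↥(modFun N) := (exists_modFun φ x.2).choose

theorem ser_toModFunFun (x : ↥(algGen L N)) :
    ser N (toModFunFun φ x) = ModularCurve.coeffMap φ x :=
  (exists_modFun φ x.2).choose_spec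

/-- Realisation of the generated algebra by holomorphic modular functions. -/
def toModFun : ↥(algGen L N) →+* ↥(modFun N) where
  toFun := toModFunFun φ
  map_one' := ser_injective (by rw [ser_toModFunFun, map_one, OneMemClass.coe_one, map_one])
  map_mul' x y := ser_injective (by
    rw [map_mul, ser_toModFunFun, ser_toModFunFun, ser_toModFunFun, MulMemClass.coe_mul, map_mul])
  map_zero' := ser_injective (by rw [ser_toModFunFun, map_zero, ZeroMemClass.coe_zero, map_zero])
  map_add' x y := ser_injective (by
    rw [map_add, ser_toModFunFun, ser_toModFunFun, ser_toModFunFun, AddMemClass.coe_add, map_add])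

theorem ser_toModFun (x : ↥(algGen L N)) :
    ser N (toModFun φ x) = ModularCurve.coeffMap φ x :=
  ser_toModFunFun φ x

theorem coeffMap_injective {R S : Type*} [CommRing R] [CommRing S] {f : R →+* S}
    (hf : Function.Injective f) : Function.Injective (ModularCurve.coeffMap f) := by
  intro x y h
  ext n
  exact hf (by
    have := congrArg (fun z : LaurentSeries S => z.coeff n) h
    simpa only [ModularCurve.coeffMap_coeff] using this)

theorem toModFun_injective : Function.Injective (toModFun (N := N) φ) := fun x y h =>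
  Subtype.ext (coeffMap_injective φ.injective (by rw [← ser_toModFun, h, ser_toModFun]))

theorem toModFun_algebraMap (c : L) :
    toModFun (N := N) φ (algebraMap L _ c) = algebraMap ℂ _ (φ c) :=
  ser_injective (by
    rw [ser_toModFun, ser_algebraMap, Subalgebra.coe_algebraMap,
      ModularCurve.algebraMap_laurentSeries_eq_single, ModularCurve.coeffMap_single])

theorem toModFun_jL {d : ℕ} [NeZero d] (hd : d ∣ N) :
    toModFun φ ⟨jL L d, Algebra.subset_adjoin ⟨d, inferInstance, hd, rfl⟩⟩ =
      ⟨scaledJ d, scaledJ_mem hd⟩ :=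
  ser_injective (by rw [ser_toModFun, ser_scaledJ_eq φ hd])

section Lift

variable {K : Type*} [Field K]

/-- Extend a hom on modular functions to the function field. -/
def fieldHom (ψ : ↥(modFun N) →+* K) (hψ : Function.Injective ψ) : ↥(FLevel L N) →+* K :=
  IsFractionRing.lift (A := ↥(algGen L N)) (g := ψ.comp (toModFun φ))
    (hψ.comp (toModFun_injective φ))

theorem fieldHom_algToField (ψ : ↥(modFun N) →+* K) (hψ : Function.Injective ψ)
    (a : ↥(algGen L N)) : fieldHom φ ψ hψ (algToField L N a) = ψ (toModFun φ a) :=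
  IsFractionRing.lift_algebraMap _ a

theorem fieldHom_algebraMap (ψ : ↥(modFun N) →+* K) (hψ : Function.Injective ψ) (c : L) :
    fieldHom φ ψ hψ (algebraMap L ↥(FLevel L N) c) = ψ (algebraMap ℂ _ (φ c)) := by
  rw [← (algToField L N).commutes c, fieldHom_algToField, toModFun_algebraMap]

end Lift

/-- The embedding into meromorphic functions on `ℍ`. -/
def toMer : ↥(FLevel L N) →+* Mer :=
  fieldHom φ ((algebraMap Hol Mer).comp (modToHol N).toRingHom)
    ((IsFractionRing.injective Hol Mer).comp modToHol_injective)

/-- The embedding into Laurent series at the cusp attached to a coset, in `q ^ (1/N)`. -/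
def embCusp (x : CosetSpace N) : ↥(FLevel L N) →+* LaurentSeries ℂ :=
  fieldHom φ ((qSer N).comp (conj x).toRingHom) (qSer_injective.comp (conj_injective x))

theorem embCusp_algToField (x : CosetSpace N) (a : ↥(algGen L N)) :
    embCusp φ x (algToField L N a) = qSer N (conj x (toModFun φ a)) :=
  fieldHom_algToField φ _ _ a

theorem embCusp_algebraMap (x : CosetSpace N) (c : L) :
    embCusp φ x (algebraMap L ↥(FLevel L N) c) = HahnSeries.single 0 (φ c) := by
  refine (fieldHom_algebraMap φ _ _ c).trans ?_
  show qSer N (conj x (algebraMap ℂ _ (φ c))) = _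
  rw [AlgHom.commutes, qSer_algebraMap]

theorem jL_one : jL L 1 = ModularCurve.coeffEmb L ModularCurve.jq := by
  rw [jL, ModularCurve.qExpand_one_apply]

variable (L N) in
/-- `j` in the generated algebra. -/
def jAlg : ↥(algGen L N) :=
  ⟨jL L 1, Algebra.subset_adjoin ⟨1, inferInstance, one_dvd N, rfl⟩⟩

variable (L N) in
/-- `j` in the function field. -/
def jEl : ↥(FLevel L N) := algToField L N (jAlg L N)

theorem toModFun_jAlg : toModFun φ (jAlg L N) = jMod N :=
  (toModFun_jL φ (one_dvd N)).trans (Subtype.ext scaledJ_one)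

theorem embCusp_jEl (x : CosetSpace N) :
    embCusp φ x (jEl L N) = ModularCurve.qExpand ℂ N jqC := by
  rw [jEl, embCusp_algToField, toModFun_jAlg, qSer_conj_jMod]

theorem embCusp_one (y : ↥(FLevel L N)) :
    embCusp φ ((1 : SL(2, ℤ)) : CosetSpace N) y =
      ModularCurve.qExpand ℂ N (ModularCurve.coeffMap φ y) := by
  obtain ⟨a, b, hb, hab⟩ := exists_div L N y
  have hb' : algToField L N b ≠ 0 := (map_ne_zero_iff _ (algToField_injective L N)).mpr hb
  have key : ∀ c : ↥(algGen L N), embCusp φ ((1 : SL(2, ℤ)) : CosetSpace N) (algToField L N c) =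
      ModularCurve.qExpand ℂ N (ModularCurve.coeffMap φ (algToField L N c : LaurentSeries L)) := by
    intro c
    rw [embCusp_algToField, qSer_conj_one, ser_toModFun, coe_algToField]
  apply mul_right_cancel₀ ((map_ne_zero (embCusp φ ((1 : SL(2, ℤ)) : CosetSpace N))).mpr hb')
  rw [← map_mul, hab, key, key, ← map_mul, ← map_mul]
  congr 2
  exact (congrArg (fun z : ↥(FLevel L N) => (z : LaurentSeries L)) hab).symm

/-- Distinct cosets give distinct embeddings. -/
theorem embCusp_injective : Function.Injective (embCusp (L := L) (N := N) φ) := by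
  intro x y h
  have h1 := RingHom.congr_fun h (algToField L N
    ⟨jL L N, Algebra.subset_adjoin ⟨N, inferInstance, dvd_rfl, rfl⟩⟩)
  rw [embCusp_algToField, embCusp_algToField, toModFun_jL φ dvd_rfl] at h1
  exact conj_scaledJ_injective (qSer_injective h1)

/-- Two homs out of the function field agree if they agree on constants and generators. -/
theorem hom_ext {K : Type*} [Field K] {f g : ↥(FLevel L N) →+* K}
    (hc : ∀ c : L, f (algebraMap L _ c) = g (algebraMap L _ c))
    (hd : ∀ (d : ℕ) [NeZero d] (hd : d ∣ N),
      f (algToField L N ⟨jL L d, Algebra.subset_adjoin ⟨d, inferInstance, hd, rfl⟩⟩) =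
        g (algToField L N ⟨jL L d, Algebra.subset_adjoin ⟨d, inferInstance, hd, rfl⟩⟩)) :
    f = g := by
  have key : ∀ a : ↥(algGen L N), f (algToField L N a) = g (algToField L N a) := by
    rintro ⟨a, ha⟩
    induction ha using Algebra.adjoin_induction with
    | mem y hy =>
      obtain ⟨d, hd0, hdd, rfl⟩ := hy
      exact hd d hdd
    | algebraMap c =>
      have h : (⟨algebraMap L (LaurentSeries L) c, Subalgebra.algebraMap_mem _ c⟩ : ↥(algGen L N)) =
          algebraMap L _ c := rfl
      rw [h, AlgHom.commutes]
      exact hc c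
    | add y z hy hz hy' hz' =>
      have h : (⟨y + z, Subalgebra.add_mem _ hy hz⟩ : ↥(algGen L N)) = ⟨y, hy⟩ + ⟨z, hz⟩ := rfl
      rw [h, map_add, map_add, map_add, hy', hz']
    | mul y z hy hz hy' hz' =>
      have h : (⟨y * z, Subalgebra.mul_mem _ hy hz⟩ : ↥(algGen L N)) = ⟨y, hy⟩ * ⟨z, hz⟩ := rfl
      rw [h, map_mul, map_mul, map_mul, hy', hz']
  exact IsFractionRing.ringHom_ext (A := ↥(algGen L N)) key

/-- `embCusp` at `T • x` is the rotation of the one at `x`. -/
theorem embCusp_T_smul (x : CosetSpace N) :
    embCusp (L := L) φ (ModularGroup.T • x) =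
      (rot (Complex.exp (-(2 * Real.pi * Complex.I) / N)) (Complex.exp_ne_zero _)).comp
        (embCusp φ x) := by
  refine IsFractionRing.ringHom_ext (A := ↥(algGen L N)) fun a => ?_
  show embCusp φ _ (algToField L N a) =
    rot (Complex.exp (-(2 * Real.pi * Complex.I) / N)) (Complex.exp_ne_zero _)
      (embCusp φ x (algToField L N a))
  rw [embCusp_algToField, embCusp_algToField, qSer_conj_T_smul]

end Fermat.Agent.X0Analytic
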