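import Mathlib.NumberTheory.ModularForms.Discriminant
import Mathlib.NumberTheory.ModularForms.EisensteinSeries.QExpansion
import Mathlib.NumberTheory.ModularForms.LevelOne.DimensionFormula
import Fermat.Agent.X0Analytic.PerMero

/-!
The `q`-expansion of the modular discriminant is the formal product `X * etaProd ^ 24`, and the
`q`-expansion of `E₄` is the formal series `eisenstein4`.
-/

set_option autoImplicit false

noncomputable section

open UpperHalfPlane Filter Topology Function Polynomial
open scoped Manifold PowerSeries.WithPiTopology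

namespace Fermat.Agent.X0Analytic

/-- The function `q ↦ ∏ (1 - q ^ (n + 1))` on the unit disc. -/
def etaFun (q : ℂ) : ℂ := ∏' n : ℕ, (1 - q ^ (n + 1))

/-- Partial products of the eta product, as polynomials. -/
def etaPoly (n : ℕ) : ℤ[X] := ∏ i ∈ Finset.range n, (1 - X ^ (i + 1))

theorem tendsto_coeff_etaPoly (k : ℕ) :
    Tendsto (fun n => ((etaPoly n).coeff k : ℂ)) atTop
      (𝓝 ((PowerSeries.coeff k ModularCurve.etaProd : ℤ) : ℂ)) := by
  have h1 := (PowerSeries.WithPiTopology.multipliable_one_sub_X_pow ℤ).hasProd.tendsto_prod_nat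
  have h2 := ((PowerSeries.WithPiTopology.continuous_coeff ℤ k).tendsto _).comp h1
  have h3 : Tendsto (fun n => (etaPoly n).coeff k) atTop
      (𝓝 (PowerSeries.coeff k ModularCurve.etaProd)) := by
    refine h2.congr fun n => ?_
    simp only [Function.comp_apply, etaPoly, ← Polynomial.coeff_coe,
      ← Polynomial.coeToPowerSeries.ringHom_apply, map_prod, map_sub, map_one, map_pow]
    simp [Polynomial.coeToPowerSeries.ringHom_apply]
  exact ((continuous_of_discreteTopology (f := fun m : ℤ => (m : ℂ))).tendsto _).comp h3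

theorem tendstoLocallyUniformlyOn_etaPoly (k : ℕ) :
    TendstoLocallyUniformlyOn (fun n q => (derivative^[k] (etaPoly n)).aeval q)
      (iteratedDeriv k etaFun) atTop (Metric.ball (0 : ℂ) 1) := by
  induction k with
  | zero =>
    have h := hasProdLocallyUniformlyOn_iff_tendstoLocallyUniformlyOn.mp
      ModularForm.multipliableLocallyUniformlyOn_one_sub_pow.hasProdLocallyUniformlyOn
    rw [iteratedDeriv_zero]
    intro u hu x hx
    obtain ⟨t, ht, hev⟩ := h u hu x hx
    refine ⟨t, ht, ?_⟩
    filter_upwards [tendsto_finset_range.eventually hev] with n hn y hy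
    simpa [etaPoly, etaFun, Finset.prod_apply] using hn y hy
  | succ k ih =>
    rw [iteratedDeriv_succ]
    refine (ih.deriv (Eventually.of_forall fun n => ?_) Metric.isOpen_ball).congr fun n q hq => ?_
    · exact fun q _ => ((derivative^[k] (etaPoly n)).differentiableAt_aeval).differentiableWithinAt
    · show deriv (fun q : ℂ => (derivative^[k] (etaPoly n)).aeval q) q = _
      rw [((derivative^[k] (etaPoly n)).hasDerivAt_aeval q).deriv, Function.iterate_succ_apply']

theorem iteratedDeriv_etaFun (k : ℕ) :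
    iteratedDeriv k etaFun 0 =
      (k.factorial : ℂ) * ((PowerSeries.coeff k ModularCurve.etaProd : ℤ) : ℂ) := by
  have h1 := (tendstoLocallyUniformlyOn_etaPoly k).tendsto_at (Metric.mem_ball_self one_pos)
  refine tendsto_nhds_unique h1 (((tendsto_coeff_etaPoly k).const_mul _).congr fun n => ?_)
  rw [← Polynomial.coeff_zero_eq_aeval_zero', Polynomial.coeff_iterate_derivative, zero_add,
    Nat.descFactorial_self]
  simp

/-- The eta product as a function on `ℍ`. -/
def etaQ (τ : ℍ) : ℂ := etaFun (qp 1 τ)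

theorem hasSum_etaQ (τ : ℍ) :
    HasSum (fun n : ℕ => ((PowerSeries.coeff n ModularCurve.etaProd : ℤ) : ℂ) • qp 1 τ ^ n)
      (etaQ τ) := by
  have hq : qp 1 τ ∈ Metric.ball (0 : ℂ) 1 := by simpa using norm_qp_lt_one 1 τ
  refine (Complex.hasSum_taylorSeries_on_ball
    ModularForm.differentiableOn_tprod_one_sub_pow hq).congr_fun fun n => ?_
  rw [show (fun q : ℂ => ∏' n : ℕ, (1 - q ^ (n + 1))) = etaFun from rfl, iteratedDeriv_etaFun,
    sub_zero]
  simp only [smul_eq_mul]
  field_simp [Nat.factorial_ne_zero]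

theorem mdiff_etaQ : MDiff etaQ := by
  rw [UpperHalfPlane.mdifferentiable_iff]
  intro w hw
  have hq : Periodic.qParam ((1 : ℕ) : ℝ) w ∈ Metric.ball (0 : ℂ) 1 := by
    rw [Metric.mem_ball, dist_zero_right]
    exact norm_qp_lt_one 1 ⟨w, hw⟩
  have h1 : DifferentiableAt ℂ etaFun (Periodic.qParam ((1 : ℕ) : ℝ) w) :=
    (ModularForm.differentiableOn_tprod_one_sub_pow.differentiableAt
      (Metric.isOpen_ball.mem_nhds hq))
  refine ((h1.comp w (Periodic.differentiable_qParam _)).congr_of_eventuallyEq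
    (f₁ := etaQ ∘ ofComplex) ?_).differentiableWithinAt
  filter_upwards [isOpen_upperHalfPlaneSet.mem_nhds hw] with z hz
  simp [etaQ, qp, ofComplex_apply_of_im_pos hz]

theorem etaQ_mem : etaQ ∈ perMero 1 :=
  ⟨mdiff_etaQ, fun τ => by simp only [etaQ, qp_vadd], 0, by
    simpa using isBoundedAtImInfty_of_hasSum_qExpansion (hpos 1) hasSum_etaQ⟩

theorem qSer_etaQ :
    qSer 1 ⟨etaQ, etaQ_mem⟩ = HahnSeries.ofPowerSeries ℤ ℂ
      (ModularCurve.etaProd.map (Int.castRingHom ℂ)) := by
  have hb : IsBoundedAtImInfty (etaQ * qp 1 ^ 0) := by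
    simpa using isBoundedAtImInfty_of_hasSum_qExpansion (hpos 1) hasSum_etaQ
  rw [qSer_eq _ (m := 0) hb, qSerAux]
  simp only [Nat.cast_zero, neg_zero, HahnSeries.single_zero_one, one_mul]
  congr 1
  ext n
  rw [pow_zero, mul_one, qExpansion_coeff_eq_of_hasSum mdiff_etaQ
    (fun τ => by simp only [etaQ, qp_vadd]) hasSum_etaQ, PowerSeries.coeff_map]
  rfl

theorem qp_mem (h : ℕ) [NeZero h] : qp h ∈ perMero h :=
  ⟨qp_mdiff h, fun τ => qp_vadd h τ, 0, by simpa using qp_isBounded h⟩

theorem discriminant_eq : ModularForm.discriminant = qp 1 * etaQ ^ 24 := by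
  funext τ
  rw [ModularForm.discriminant_eq_q_prod τ, Pi.mul_apply, Pi.pow_apply, etaQ, etaFun,
    ← (ModularForm.multipliable_one_sub_pow (by simpa using norm_qp_lt_one 1 τ)).tprod_pow 24]
  simp only [qp, Nat.cast_one, ModularForm.eta_q]

theorem discriminant_mem : ModularForm.discriminant ∈ perMero 1 := by
  rw [discriminant_eq]
  exact mul_mem (qp_mem 1) (pow_mem etaQ_mem 24)

theorem qSer_qp (h : ℕ) [NeZero h] :
    qSer h ⟨qp h, qp_mem h⟩ = HahnSeries.single 1 1 := by
  rw [qSer_eq _ (m := 0) (by simpa using qp_isBounded h), qSerAux]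
  simp only [Nat.cast_zero, neg_zero, HahnSeries.single_zero_one, one_mul, pow_zero, mul_one]
  rw [qExpansion_qp, HahnSeries.ofPowerSeries_X]

theorem qSer_discriminant :
    qSer 1 ⟨ModularForm.discriminant, discriminant_mem⟩ =
      HahnSeries.single 1 1 * HahnSeries.ofPowerSeries ℤ ℂ
        (ModularCurve.dedekindEtaUnit.map (Int.castRingHom ℂ)) := by
  have : (⟨ModularForm.discriminant, discriminant_mem⟩ : ↥(perMero 1)) =
      ⟨qp 1, qp_mem 1⟩ * ⟨etaQ, etaQ_mem⟩ ^ 24 := Subtype.ext discriminant_eq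
  rw [this, map_mul, map_pow, qSer_qp, qSer_etaQ, ModularCurve.dedekindEtaUnit, map_pow,
    ← map_pow]

theorem qExpansion_E4 :
    qExpansion 1 (ModularForm.E₄ : ℍ → ℂ) =
      ModularCurve.eisenstein4.map (Int.castRingHom ℂ) := by
  ext n
  rw [EisensteinSeries.E_qExpansion_coeff (by norm_num) ⟨2, rfl⟩, PowerSeries.coeff_map,
    ModularCurve.eisenstein4, PowerSeries.coeff_mk]
  rcases eq_or_ne n 0 with rfl | hn
  · simp
  · rw [if_neg hn, if_neg hn, ArithmeticFunction.sigma_apply,
      show _root_.bernoulli 4 = -1 / 30 by decide +kernel]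
    push_cast
    norm_num

end Fermat.Agent.X0Analytic
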